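import Fermat.Agent.CFT.F.Defs

/-! # CFT / Part F, WP F1: basic facts on level-constant cochains. -/

set_option autoImplicit false

namespace Fermat.Agent.CFT

section
variable {k : Type} [CommRing k] {G : Type} [Group G] {V W : Type} [AddCommGroup V] [Module k V]
  [AddCommGroup W] [Module k W] {𝒰 : Levels G} {ρ : Representation k G V} {σ : Representation k G W}

theorem d12_d01 (x : V) : d12 ρ (d01 ρ x) = 0 := by
  funext g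
  simp only [d12_apply, d01_apply, map_mul, Module.End.mul_apply, map_sub, Pi.zero_apply]
  abel

theorem d23_d12 (f : G → V) : d23 ρ (d12 ρ f) = 0 := by
  funext g
  simp only [d23_apply, d12_apply, map_mul, Module.End.mul_apply, map_sub, map_add,
    Pi.zero_apply, mul_assoc]
  abel

theorem Levels.exists_le_finset (𝒰 : Levels G) (s : Finset (Subgroup G))
    (hs : ∀ U ∈ s, U ∈ 𝒰.carrier) : ∃ W ∈ 𝒰.carrier, ∀ U ∈ s, W ≤ U := by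
  classical
  induction s using Finset.induction_on with
  | empty =>
    obtain ⟨U, hU⟩ := 𝒰.nonempty
    exact ⟨U, hU, fun _ h => absurd h (Finset.notMem_empty _)⟩
  | insert a s _ ih =>
    obtain ⟨W, hW, hWs⟩ := ih fun U hU => hs U (Finset.mem_insert_of_mem hU)
    obtain ⟨W', hW', h1, h2⟩ := 𝒰.directed W hW a (hs a (Finset.mem_insert_self a s))
    refine ⟨W', hW', fun U hU => ?_⟩
    rcases Finset.mem_insert.1 hU with rfl | hU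
    · exact h2
    · exact h1.trans (hWs U hU)

/-- a finite family of levels has a common refinement -/
theorem Levels.exists_le_of_finite (𝒰 : Levels G) {ι : Type*} [Finite ι] (u : ι → Subgroup G)
    (hu : ∀ i, u i ∈ 𝒰.carrier) : ∃ W ∈ 𝒰.carrier, ∀ i, W ≤ u i := by
  classical
  have := Fintype.ofFinite ι
  obtain ⟨W, hW, h⟩ := 𝒰.exists_le_finset (Finset.univ.image u) (fun U hU => by
    obtain ⟨i, _, rfl⟩ := Finset.mem_image.1 hU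
    exact hu i)
  exact ⟨W, hW, fun i => h _ (Finset.mem_image_of_mem u (Finset.mem_univ i))⟩

/-- right invariance under a subgroup = factoring through the quotient -/
theorem rightInv_iff_mk {X : Type*} (U : Subgroup G) (f : G → X) :
    (∀ g s, s ∈ U → f (g * s) = f g) ↔
      ∀ a b : G, (a : G ⧸ U) = (b : G ⧸ U) → f a = f b := by
  constructor
  · intro h a b hab
    have h1 : a⁻¹ * b ∈ U := QuotientGroup.eq.1 hab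
    have h2 := h a _ h1
    rw [mul_inv_cancel_left] at h2
    exact h2.symm
  · intro h g s hs
    apply h
    rw [QuotientGroup.eq]
    simpa using inv_mem hs

theorem rightInv₂_iff_mk {X : Type*} (U : Subgroup G) (f : G × G → X) :
    (∀ g₁ g₂ s₁ s₂, s₁ ∈ U → s₂ ∈ U → f (g₁ * s₁, g₂ * s₂) = f (g₁, g₂)) ↔
      ∀ a₁ a₂ b₁ b₂ : G, (a₁ : G ⧸ U) = (b₁ : G ⧸ U) → (a₂ : G ⧸ U) = (b₂ : G ⧸ U) →
        f (a₁, a₂) = f (b₁, b₂) := by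
  constructor
  · intro h a₁ a₂ b₁ b₂ h₁ h₂
    have h2 := h a₁ a₂ _ _ (QuotientGroup.eq.1 h₁) (QuotientGroup.eq.1 h₂)
    rw [mul_inv_cancel_left, mul_inv_cancel_left] at h2
    exact h2.symm
  · intro h g₁ g₂ s₁ s₂ hs₁ hs₂
    apply h <;> rw [QuotientGroup.eq]
    · simpa using inv_mem hs₁
    · simpa using inv_mem hs₂

theorem mk_mul_of_mem {U : Subgroup G} (g : G) {s : G} (hs : s ∈ U) :
    ((g * s : G) : G ⧸ U) = (g : G ⧸ U) := by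
  rw [QuotientGroup.eq]
  simpa using inv_mem hs

theorem mk_mul_of_mem' {U : Subgroup G} [U.Normal] (g : G) {s : G} (hs : s ∈ U) :
    ((s * g : G) : G ⧸ U) = (g : G ⧸ U) := by
  rw [QuotientGroup.mk_mul, (QuotientGroup.eq_one_iff s).2 hs, one_mul]

/-- a level-constant cochain with values in a smooth module: one level works for everything -/
theorem IsSmooth.exists_level_C1 (hρ : IsSmooth 𝒰 ρ) {f : G → V} (hf : f ∈ C1 k V 𝒰) :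
    ∃ U ∈ 𝒰.carrier, (∀ g s, s ∈ U → f (g * s) = f g) ∧ (∀ g s, s ∈ U → f (s * g) = f g) ∧
      ∀ g, ∀ s ∈ U, ρ s (f g) = f g := by
  obtain ⟨U, hU, hfU⟩ := hf
  have := 𝒰.finiteIndex U hU
  choose u hu hus using fun x : G ⧸ U => hρ (f x.out)
  obtain ⟨W₀, hW₀, hW₀u⟩ := 𝒰.exists_le_of_finite u hu
  obtain ⟨W, hW, hWW₀, hWU⟩ := 𝒰.directed W₀ hW₀ U hU
  have hmk := (rightInv_iff_mk U f).1 hfU
  have := 𝒰.normal U hU
  refine ⟨W, hW, fun g s hs => hfU g s (hWU hs), fun g s hs => ?_, fun g s hs => ?_⟩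
  · exact hmk _ _ (mk_mul_of_mem' g (hWU hs))
  · have h1 : f g = f (g : G ⧸ U).out := hmk _ _ (QuotientGroup.out_eq' _).symm
    rw [h1]
    exact hus _ s (hW₀u _ (hWW₀ hs))

theorem IsSmooth.exists_level_C2 (hρ : IsSmooth 𝒰 ρ) {f : G × G → V} (hf : f ∈ C2 k V 𝒰) :
    ∃ U ∈ 𝒰.carrier, (∀ g₁ g₂ s₁ s₂, s₁ ∈ U → s₂ ∈ U → f (g₁ * s₁, g₂ * s₂) = f (g₁, g₂)) ∧
      (∀ g₁ g₂ s₁ s₂, s₁ ∈ U → s₂ ∈ U → f (s₁ * g₁, s₂ * g₂) = f (g₁, g₂)) ∧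
      ∀ g, ∀ s ∈ U, ρ s (f g) = f g := by
  obtain ⟨U, hU, hfU⟩ := hf
  have := 𝒰.finiteIndex U hU
  choose u hu hus using fun x : (G ⧸ U) × (G ⧸ U) => hρ (f (x.1.out, x.2.out))
  obtain ⟨W₀, hW₀, hW₀u⟩ := 𝒰.exists_le_of_finite u hu
  obtain ⟨W, hW, hWW₀, hWU⟩ := 𝒰.directed W₀ hW₀ U hU
  have hmk := (rightInv₂_iff_mk U f).1 hfU
  have := 𝒰.normal U hU
  refine ⟨W, hW, fun g₁ g₂ s₁ s₂ hs₁ hs₂ => hfU g₁ g₂ s₁ s₂ (hWU hs₁) (hWU hs₂),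
    fun g₁ g₂ s₁ s₂ hs₁ hs₂ => ?_, fun g s hs => ?_⟩
  · exact hmk _ _ _ _ (mk_mul_of_mem' g₁ (hWU hs₁)) (mk_mul_of_mem' g₂ (hWU hs₂))
  · have h1 : f g = f ((g.1 : G ⧸ U).out, (g.2 : G ⧸ U).out) :=
      hmk _ _ _ _ (QuotientGroup.out_eq' _).symm (QuotientGroup.out_eq' _).symm
    rw [h1]
    exact hus ((g.1 : G ⧸ U), (g.2 : G ⧸ U)) s (hW₀u _ (hWW₀ hs))

theorem d01_mem_C1 (hρ : IsSmooth 𝒰 ρ) (x : V) : d01 ρ x ∈ C1 k V 𝒰 := by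
  obtain ⟨U, hU, h⟩ := hρ x
  refine ⟨U, hU, fun g s hs => ?_⟩
  simp only [d01_apply, map_mul, Module.End.mul_apply, h s hs]

theorem d12_mem_C2 (hρ : IsSmooth 𝒰 ρ) {f : G → V} (hf : f ∈ C1 k V 𝒰) :
    d12 ρ f ∈ C2 k V 𝒰 := by
  obtain ⟨U, hU, h1, _, h3⟩ := hρ.exists_level_C1 hf
  have := 𝒰.normal U hU
  have hmk := (rightInv_iff_mk U f).1 h1
  refine ⟨U, hU, fun g₁ g₂ s₁ s₂ hs₁ hs₂ => ?_⟩
  simp only [d12_apply, map_mul, Module.End.mul_apply]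
  rw [h1 g₂ s₂ hs₂, h1 g₁ s₁ hs₁, h3 g₂ s₁ hs₁]
  congr 2
  apply hmk
  simp only [QuotientGroup.mk_mul, (QuotientGroup.eq_one_iff s₁).2 hs₁,
    (QuotientGroup.eq_one_iff s₂).2 hs₂, mul_one]

theorem d23_mem_C3 (hρ : IsSmooth 𝒰 ρ) {f : G × G → V} (hf : f ∈ C2 k V 𝒰) :
    d23 ρ f ∈ C3 k V 𝒰 := by
  obtain ⟨U, hU, h1, _, h3⟩ := hρ.exists_level_C2 hf
  have := 𝒰.normal U hU
  have hmk := (rightInv₂_iff_mk U f).1 h1
  refine ⟨U, hU, fun g₁ g₂ g₃ s₁ s₂ s₃ hs₁ hs₂ hs₃ => ?_⟩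
  simp only [d23_apply, map_mul, Module.End.mul_apply]
  rw [h1 g₂ g₃ s₂ s₃ hs₂ hs₃, h1 g₁ g₂ s₁ s₂ hs₁ hs₂, h3 (g₂, g₃) s₁ hs₁]
  have e1 : f (g₁ * s₁ * (g₂ * s₂), g₃ * s₃) = f (g₁ * g₂, g₃) := by
    apply hmk <;>
    simp only [QuotientGroup.mk_mul, (QuotientGroup.eq_one_iff s₁).2 hs₁,
      (QuotientGroup.eq_one_iff s₂).2 hs₂, (QuotientGroup.eq_one_iff s₃).2 hs₃, mul_one]
  have e2 : f (g₁ * s₁, g₂ * s₂ * (g₃ * s₃)) = f (g₁, g₂ * g₃) := by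
    apply hmk <;>
    simp only [QuotientGroup.mk_mul, (QuotientGroup.eq_one_iff s₁).2 hs₁,
      (QuotientGroup.eq_one_iff s₂).2 hs₂, (QuotientGroup.eq_one_iff s₃).2 hs₃, mul_one]
  rw [e1, e2]

theorem B1_le_Z1 (hρ : IsSmooth 𝒰 ρ) : B1 ρ ≤ Z1 𝒰 ρ := by
  rintro _ ⟨x, rfl⟩
  exact ⟨d12_d01 x, d01_mem_C1 hρ x⟩

theorem B2_le_Z2 (hρ : IsSmooth 𝒰 ρ) : B2 𝒰 ρ ≤ Z2 𝒰 ρ := by
  rintro _ ⟨f, hf, rfl⟩
  exact ⟨d23_d12 f, d12_mem_C2 hρ hf⟩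

/-! functoriality in the module -/
theorem d01_comp (f : V →ₗ[k] W) (hf : ∀ g v, f (ρ g v) = σ g (f v)) (x : V) :
    d01 σ (f x) = f ∘ d01 ρ x := by
  funext g
  simp [hf]

theorem d12_comp (f : V →ₗ[k] W) (hf : ∀ g v, f (ρ g v) = σ g (f v)) (a : G → V) :
    d12 σ (f ∘ a) = f ∘ d12 ρ a := by
  funext g
  simp [hf]

theorem d23_comp (f : V →ₗ[k] W) (hf : ∀ g v, f (ρ g v) = σ g (f v)) (a : G × G → V) :
    d23 σ (f ∘ a) = f ∘ d23 ρ a := by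
  funext g
  simp [hf]

theorem comp_mem_C1 (f : V → W) {a : G → V} (ha : a ∈ C1 k V 𝒰) : f ∘ a ∈ C1 k W 𝒰 := ha.comp f
theorem comp_mem_C2 (f : V → W) {a : G × G → V} (ha : a ∈ C2 k V 𝒰) : f ∘ a ∈ C2 k W 𝒰 :=
  ha.comp f
theorem comp_mem_C3 (f : V → W) {a : G × G × G → V} (ha : a ∈ C3 k V 𝒰) : f ∘ a ∈ C3 k W 𝒰 :=
  ha.comp f

theorem comp_mem_Z1 (f : V →ₗ[k] W) (hf : ∀ g v, f (ρ g v) = σ g (f v)) {a : G → V}
    (ha : a ∈ Z1 𝒰 ρ) : f ∘ a ∈ Z1 𝒰 σ := by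
  refine ⟨LinearMap.mem_ker.2 ?_, comp_mem_C1 f ha.2⟩
  rw [d12_comp f hf, LinearMap.mem_ker.1 ha.1]
  funext g
  simp

theorem comp_mem_B1 (f : V →ₗ[k] W) (hf : ∀ g v, f (ρ g v) = σ g (f v)) {a : G → V}
    (ha : a ∈ B1 ρ) : f ∘ a ∈ B1 σ := by
  obtain ⟨x, rfl⟩ := ha
  exact ⟨f x, d01_comp f hf x⟩

theorem comp_mem_Z2 (f : V →ₗ[k] W) (hf : ∀ g v, f (ρ g v) = σ g (f v)) {a : G × G → V}
    (ha : a ∈ Z2 𝒰 ρ) : f ∘ a ∈ Z2 𝒰 σ := by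
  refine ⟨LinearMap.mem_ker.2 ?_, comp_mem_C2 f ha.2⟩
  rw [d23_comp f hf, LinearMap.mem_ker.1 ha.1]
  funext g
  simp

theorem comp_mem_B2 (f : V →ₗ[k] W) (hf : ∀ g v, f (ρ g v) = σ g (f v)) {a : G × G → V}
    (ha : a ∈ B2 𝒰 ρ) : f ∘ a ∈ B2 𝒰 σ := by
  obtain ⟨x, hx, rfl⟩ := ha
  exact ⟨f ∘ x, comp_mem_C1 f hx, d12_comp f hf x⟩

/-! lifting along surjections, descending along injections -/
theorem exists_lift_C1 (f : V → W) (hf : Function.Surjective f) {c : G → W}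
    (hc : c ∈ C1 k W 𝒰) : ∃ c' ∈ C1 k V 𝒰, f ∘ c' = c :=
  ⟨Function.surjInv hf ∘ c, hc.comp _, funext fun g => Function.surjInv_eq hf (c g)⟩

theorem exists_lift_C2 (f : V → W) (hf : Function.Surjective f) {c : G × G → W}
    (hc : c ∈ C2 k W 𝒰) : ∃ c' ∈ C2 k V 𝒰, f ∘ c' = c :=
  ⟨Function.surjInv hf ∘ c, hc.comp _, funext fun g => Function.surjInv_eq hf (c g)⟩

theorem mem_C1_of_comp (f : V → W) (hf : Function.Injective f) {a : G → V}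
    (h : f ∘ a ∈ C1 k W 𝒰) : a ∈ C1 k V 𝒰 := by
  obtain ⟨U, hU, hh⟩ := h
  exact ⟨U, hU, fun g s hs => hf (hh g s hs)⟩

theorem mem_C2_of_comp (f : V → W) (hf : Function.Injective f) {a : G × G → V}
    (h : f ∘ a ∈ C2 k W 𝒰) : a ∈ C2 k V 𝒰 := by
  obtain ⟨U, hU, hh⟩ := h
  exact ⟨U, hU, fun g₁ g₂ s₁ s₂ hs₁ hs₂ => hf (hh g₁ g₂ s₁ s₂ hs₁ hs₂)⟩

theorem mem_C3_of_comp (f : V → W) (hf : Function.Injective f) {a : G × G × G → V}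
    (h : f ∘ a ∈ C3 k W 𝒰) : a ∈ C3 k V 𝒰 := by
  obtain ⟨U, hU, hh⟩ := h
  exact ⟨U, hU, fun g₁ g₂ g₃ s₁ s₂ s₃ hs₁ hs₂ hs₃ => hf (hh g₁ g₂ g₃ s₁ s₂ s₃ hs₁ hs₂ hs₃)⟩

/-! pull-back along a continuous group homomorphism -/
variable {H : Type} [Group H] {𝒱 : Levels H} (r : H →* G)
  (hr : ∀ U ∈ 𝒰.carrier, ∃ W ∈ 𝒱.carrier, W ≤ U.comap r)
include hr
theorem comp_hom_mem_C1 {a : G → V} (ha : a ∈ C1 k V 𝒰) : a ∘ r ∈ C1 k V 𝒱 := by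
  obtain ⟨U, hU, h⟩ := ha
  obtain ⟨W, hW, hWU⟩ := hr U hU
  refine ⟨W, hW, fun g s hs => ?_⟩
  simp only [Function.comp_apply, map_mul]
  exact h _ _ (hWU hs)

theorem comp_hom_mem_C2 {a : G × G → V} (ha : a ∈ C2 k V 𝒰) :
    a ∘ Prod.map r r ∈ C2 k V 𝒱 := by
  obtain ⟨U, hU, h⟩ := ha
  obtain ⟨W, hW, hWU⟩ := hr U hU
  refine ⟨W, hW, fun g₁ g₂ s₁ s₂ hs₁ hs₂ => ?_⟩
  simp only [Function.comp_apply, Prod.map_apply, map_mul]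
  exact h _ _ _ _ (hWU hs₁) (hWU hs₂)

theorem IsSmooth.comp_hom (hρ : IsSmooth 𝒰 ρ) : IsSmooth 𝒱 (ρ.comp r) := by
  intro v
  obtain ⟨U, hU, h⟩ := hρ v
  obtain ⟨W, hW, hWU⟩ := hr U hU
  exact ⟨W, hW, fun s hs => h _ (hWU hs)⟩

theorem comp_hom_mem_Z1 {a : G → V} (ha : a ∈ Z1 𝒰 ρ) : a ∘ r ∈ Z1 𝒱 (ρ.comp r) := by
  refine ⟨LinearMap.mem_ker.2 ?_, comp_hom_mem_C1 r hr ha.2⟩
  funext g
  have := congrFun (LinearMap.mem_ker.1 ha.1) (r g.1, r g.2)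
  simpa using this

theorem comp_hom_mem_Z2 {a : G × G → V} (ha : a ∈ Z2 𝒰 ρ) :
    a ∘ Prod.map r r ∈ Z2 𝒱 (ρ.comp r) := by
  refine ⟨LinearMap.mem_ker.2 ?_, comp_hom_mem_C2 r hr ha.2⟩
  funext ⟨g₁, g₂, g₃⟩
  have := congrFun (LinearMap.mem_ker.1 ha.1) (r g₁, r g₂, r g₃)
  simpa using this

theorem comp_hom_mem_B2 {a : G × G → V} (ha : a ∈ B2 𝒰 ρ) :
    a ∘ Prod.map r r ∈ B2 𝒱 (ρ.comp r) := by
  obtain ⟨x, hx, rfl⟩ := ha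
  refine ⟨x ∘ r, comp_hom_mem_C1 r hr hx, ?_⟩
  funext g
  simp

omit hr
theorem comp_hom_mem_B1 {a : G → V} (ha : a ∈ B1 ρ) : a ∘ r ∈ B1 (ρ.comp r) := by
  obtain ⟨x, rfl⟩ := ha
  exact ⟨x, rfl⟩

end

section Field
variable {k : Type} [Field k] {G : Type} [Group G] {V : Type} [AddCommGroup V] [Module k V]
  {𝒰 : Levels G} {ρ : Representation k G V}

theorem IsSmooth.exists_trivial [FiniteDimensional k V] (hρ : IsSmooth 𝒰 ρ) :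
    ∃ U ∈ 𝒰.carrier, ∀ s ∈ U, ∀ v, ρ s v = v := by
  let b := Module.finBasis k V
  choose u hu hus using fun i => hρ (b i)
  obtain ⟨W, hW, hWu⟩ := 𝒰.exists_le_of_finite u hu
  refine ⟨W, hW, fun s hs v => ?_⟩
  have : ρ s = LinearMap.id := b.ext fun i => hus i s (hWu i hs)
  rw [this, LinearMap.id_apply]

theorem IsSmooth.dualTwist [FiniteDimensional k V] (hρ : IsSmooth 𝒰 ρ) {χ : G →* kˣ}
    (hχ : ∃ U ∈ 𝒰.carrier, ∀ s ∈ U, χ s = 1) : IsSmooth 𝒰 (ρ.dual.twist χ) := by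
  obtain ⟨U, hU, h⟩ := hρ.exists_trivial
  obtain ⟨U', hU', h'⟩ := hχ
  obtain ⟨W, hW, h1, h2⟩ := 𝒰.directed U hU U' hU'
  intro f
  refine ⟨W, hW, fun s hs => ?_⟩
  ext v
  rw [Representation.twist_apply_apply, h' s (h2 hs)]
  simp only [Units.val_one, one_smul, Representation.dual_apply, Module.Dual.transpose_apply,
    LinearMap.comp_apply, h s⁻¹ (inv_mem (h1 hs))]

theorem isSmooth_chiRep {χ : G →* kˣ} (hχ : ∃ U ∈ 𝒰.carrier, ∀ s ∈ U, χ s = 1) :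
    IsSmooth 𝒰 (chiRep χ) := by
  obtain ⟨U, hU, h⟩ := hχ
  intro v
  refine ⟨U, hU, fun s hs => ?_⟩
  rw [chiRep, Representation.twist_apply_apply, h s hs]
  simp

theorem IsSmooth.mapRep (hρ : IsSmooth 𝒰 ρ) {U : Subgroup G} (hU : U ∈ 𝒰.carrier) :
    IsSmooth 𝒰 (mapRep U ρ) := by
  intro F
  have := 𝒰.finiteIndex U hU
  have := 𝒰.normal U hU
  choose u hu hus using fun x : G ⧸ U => hρ (F x)
  obtain ⟨W₀, hW₀, hW₀u⟩ := 𝒰.exists_le_of_finite u hu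
  obtain ⟨W, hW, hWW₀, hWU⟩ := 𝒰.directed W₀ hW₀ U hU
  refine ⟨W, hW, fun s hs => funext fun x => ?_⟩
  have hx : s⁻¹ • x = x := by
    induction x using QuotientGroup.induction_on with
    | H g =>
      show ((s⁻¹ * g : G) : G ⧸ U) = g
      exact mk_mul_of_mem' g (inv_mem (hWU hs))
  rw [mapRep_apply, hx]
  exact hus x s (hW₀u x (hWW₀ hs))

end Field

end Fermat.Agent.CFT
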