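import Fermat.Agent.CFT.F.Ctx
import Fermat.Agent.CFT.F.Basic

/-! # CFT / Part F, WP F5: effacement by `V → Map(G/U,V)` (explicit formulas), the quotient sequence.
Formulas: for `a ∈ Z^1`: `F x = - a x̃`;  for `a ∈ Z^2`: `h g x = a (g, g⁻¹ x̃)` (`x̃` any lift of `x`). -/

set_option autoImplicit false

namespace Fermat.Agent.CFT

variable {k : Type} [CommRing k] {G : Type} [Group G] {V : Type} [AddCommGroup V] [Module k V]
  {𝒰 : Levels G} {ρ : Representation k G V}

theorem mapRepConst_equiv (U : Subgroup G) (g : G) (v : V) :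
    mapRepConst (k := k) U (ρ g v) = mapRep U ρ g (mapRepConst (k := k) U v) := by
  ext x
  simp [mapRepConst]

theorem mapRepConst_injective (U : Subgroup G) :
    Function.Injective (mapRepConst (k := k) (V := V) U) := by
  intro v w h
  exact congrFun h ((1 : G) : G ⧸ U)

/-- a right-`U`-invariant function does not see the choice of a representative -/
theorem apply_smul_out {X : Type*} {U : Subgroup G} {a : G → X}
    (haU : ∀ g s, s ∈ U → a (g * s) = a g) (g : G) (x : G ⧸ U) :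
    a (g • x).out = a (g * x.out) := by
  have h : (g • x) = ((g * x.out : G) : G ⧸ U) := by
    conv_lhs => rw [← QuotientGroup.out_eq' x]
    rfl
  rw [h]
  obtain ⟨u, hu⟩ := QuotientGroup.mk_out_eq_mul U (g * x.out)
  rw [hu, haU _ _ u.2]

/-- effacement in degree 1 -/
theorem efface1 {U : Subgroup G} (_hU : U ∈ 𝒰.carrier) {a : G → V} (ha : d12 ρ a = 0)
    (haU : ∀ g s, s ∈ U → a (g * s) = a g) :
    ∃ F : G ⧸ U → V, d01 (mapRep U ρ) F = mapRepConst (k := k) U ∘ a := by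
  refine ⟨fun x => - a x.out, ?_⟩
  funext g x
  have hc := congrFun ha (g, g⁻¹ * x.out)
  simp only [d12_apply, mul_inv_cancel_left, Pi.zero_apply] at hc
  simp only [d01_apply, Pi.sub_apply, mapRep_apply, Function.comp_apply, mapRepConst,
    LinearMap.coe_mk, AddHom.coe_mk]
  rw [apply_smul_out haU, map_neg, sub_neg_eq_add]
  have : ρ g (a (g⁻¹ * x.out)) = a x.out - a g := by
    rw [eq_sub_iff_add_eq, ← sub_eq_zero, ← hc]
    abel
  rw [this]
  abel

/-- effacement in degree 2 -/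
theorem efface2 {U : Subgroup G} (hU : U ∈ 𝒰.carrier) {a : G × G → V} (ha : d23 ρ a = 0)
    (haU : ∀ g₁ g₂ s₁ s₂, s₁ ∈ U → s₂ ∈ U → a (g₁ * s₁, g₂ * s₂) = a (g₁, g₂)) :
    ∃ h ∈ C1 k (G ⧸ U → V) 𝒰, d12 (mapRep U ρ) h = mapRepConst (k := k) U ∘ a := by
  have hn : U.Normal := 𝒰.normal U hU
  have haU2 : ∀ g₁ g₂ s, s ∈ U → a (g₁, g₂ * s) = a (g₁, g₂) := fun g₁ g₂ s hs => by
    have := haU g₁ g₂ 1 s U.one_mem hs
    rwa [mul_one] at this
  refine ⟨fun g x => a (g, g⁻¹ * x.out), ⟨U, hU, fun g s hs => ?_⟩, ?_⟩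
  · funext x
    have h1 : (g * s)⁻¹ * x.out = g⁻¹ * x.out * ((g⁻¹ * x.out)⁻¹ * s⁻¹ * (g⁻¹ * x.out)) := by
      group
    have h2 : (g⁻¹ * x.out)⁻¹ * s⁻¹ * (g⁻¹ * x.out) ∈ U := by
      have := hn.conj_mem s⁻¹ (U.inv_mem hs) (g⁻¹ * x.out)⁻¹
      rwa [inv_inv] at this
    change a (g * s, (g * s)⁻¹ * x.out) = a (g, g⁻¹ * x.out)
    rw [h1]
    exact haU _ _ _ _ hs h2
  · funext g x
    obtain ⟨g₁, g₂⟩ := g
    have hc := congrFun ha (g₁, g₂, g₂⁻¹ * (g₁⁻¹ * x.out))
    simp only [d23_apply, mul_inv_cancel_left, Pi.zero_apply] at hc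
    simp only [d12_apply, Pi.add_apply, Pi.sub_apply, mapRep_apply, Function.comp_apply,
      mapRepConst, LinearMap.coe_mk, AddHom.coe_mk]
    have h3 : a (g₂, g₂⁻¹ * (g₁⁻¹ • x).out) = a (g₂, g₂⁻¹ * (g₁⁻¹ * x.out)) :=
      apply_smul_out (a := fun y => a (g₂, g₂⁻¹ * y))
        (fun g s hs => by rw [← mul_assoc]; exact haU2 _ _ _ hs) g₁⁻¹ x
    rw [h3, mul_inv_rev, mul_assoc, ← sub_eq_zero, ← hc]

/-- the quotient representation `Map(G/U,V)/V` -/
noncomputable def quotRep (U : Subgroup G) (ρ : Representation k G V) :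
    Representation k G ((G ⧸ U → V) ⧸ LinearMap.range (mapRepConst (k := k) (V := V) U)) where
  toFun g := Submodule.mapQ _ _ (mapRep U ρ g) (by
    rintro _ ⟨v, rfl⟩
    exact ⟨ρ g v, mapRepConst_equiv U g v⟩)
  map_one' := by
    ext x
    simp
  map_mul' g h := by
    ext x
    simp

theorem isSES_mapRep (U : Subgroup G) :
    IsSES ρ (mapRep U ρ) (quotRep U ρ) (mapRepConst U) (Submodule.mkQ _) where
  i_equiv g n := mapRepConst_equiv U g n
  π_equiv _ _ := rfl
  inj := mapRepConst_injective U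
  surj := Submodule.mkQ_surjective _
  exact x := by
    rw [Submodule.mkQ_apply, Submodule.Quotient.mk_eq_zero]
    rfl

/-- `Map(G/U,V)` is smooth (any commutative ring of coefficients) -/
theorem isSmooth_mapRep (hρ : IsSmooth 𝒰 ρ) {U : Subgroup G} (hU : U ∈ 𝒰.carrier) :
    IsSmooth 𝒰 (Fermat.Agent.CFT.mapRep U ρ) := by
  classical
  intro F
  have hn : U.Normal := 𝒰.normal U hU
  have hfi : U.FiniteIndex := 𝒰.finiteIndex U hU
  have : Fintype (G ⧸ U) := Fintype.ofFinite _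
  choose W hW hWF using fun x : G ⧸ U => hρ (F x)
  obtain ⟨W₀, hW₀, hle⟩ := 𝒰.exists_le_finset (insert U (Finset.univ.image W)) (by
    intro U' hU'
    rcases Finset.mem_insert.1 hU' with rfl | h
    · exact hU
    · obtain ⟨x, -, rfl⟩ := Finset.mem_image.1 h
      exact hW x)
  refine ⟨W₀, hW₀, fun s hs => ?_⟩
  funext x
  have hsU : s ∈ U := hle U (Finset.mem_insert_self _ _) hs
  have hsx : s⁻¹ • x = x := by
    induction x using QuotientGroup.induction_on with
    | H g =>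
      change ((s⁻¹ * g : G) : G ⧸ U) = (g : G ⧸ U)
      rw [eq_comm, QuotientGroup.eq]
      have := hn.conj_mem s⁻¹ (U.inv_mem hsU) g⁻¹
      rwa [inv_inv, mul_assoc] at this
  rw [mapRep_apply, hsx]
  exact hWF x s (hle (W x) (Finset.mem_insert_of_mem (Finset.mem_image_of_mem _ (Finset.mem_univ x))) hs)

theorem IsSmooth.quotRep (hρ : IsSmooth 𝒰 ρ) {U : Subgroup G} (hU : U ∈ 𝒰.carrier) :
    IsSmooth 𝒰 (quotRep U ρ) := by
  intro v
  obtain ⟨F, rfl⟩ := Submodule.mkQ_surjective _ v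
  obtain ⟨W, hW, h⟩ := isSmooth_mapRep hρ hU F
  refine ⟨W, hW, fun s hs => ?_⟩
  change Submodule.mkQ _ (Fermat.Agent.CFT.mapRep U ρ s F) = _
  rw [h s hs]

end Fermat.Agent.CFT
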