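import Fermat.Agent.CFT.F.CupDefs
import Fermat.Agent.CFT.F.Basic

/-! # CFT / Part F, WP F2: Leibniz rules for the low degree cup products, level-constancy. -/

set_option autoImplicit false

namespace Fermat.Agent.CFT

section
variable {k : Type} [CommRing k] {G : Type} [Group G] {V V' : Type} [AddCommGroup V] [Module k V]
  [AddCommGroup V'] [Module k V'] {ρ : Representation k G V} {ρ' : Representation k G V'}
  {χ : G →* kˣ} {β : V →ₗ[k] V' →ₗ[k] k}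

@[simp] lemma chiRep_apply (χ : G →* kˣ) (g : G) (x : k) : chiRep χ g x = (χ g : k) * x := by
  simp [chiRep, Representation.twist_apply_apply]

theorem leibniz01 (hβ : IsEquivPairing ρ ρ' χ β) (x : V) (b : G → V') :
    d12 (chiRep χ) (cup01 β x b) = cup11 ρ' β (d01 ρ x) b + cup02 β x (d12 ρ' b) := by
  ext ⟨g, h⟩
  simp only [d12_apply, cup01, cup11, cup02, d01_apply, Pi.add_apply, chiRep_apply, map_sub, map_add,
    LinearMap.sub_apply, ← hβ g x (b h)]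
  abel

theorem leibniz10 (hβ : IsEquivPairing ρ ρ' χ β) (a : G → V) (y : V') :
    d12 (chiRep χ) (cup10 ρ' β a y) = cup20 ρ' β (d12 ρ a) y - cup11 ρ' β a (d01 ρ' y) := by
  ext ⟨g, h⟩
  simp only [d12_apply, cup10, cup11, cup20, d01_apply, Pi.sub_apply, chiRep_apply, map_sub, map_add,
    LinearMap.sub_apply, LinearMap.add_apply, ← hβ g (a h) (ρ' h y), map_mul, Module.End.mul_apply]
  abel

theorem leibniz02 (hβ : IsEquivPairing ρ ρ' χ β) (x : V) (b : G × G → V') :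
    d23 (chiRep χ) (cup02 β x b) = cup12 ρ' β (d01 ρ x) b + cup03 β x (d23 ρ' b) := by
  ext ⟨g, h, j⟩
  simp only [d23_apply, cup02, cup12, cup03, d01_apply, Pi.add_apply, chiRep_apply, map_sub, map_add,
    LinearMap.sub_apply, ← hβ g x (b (h, j))]
  abel

theorem leibniz11 (hβ : IsEquivPairing ρ ρ' χ β) (a : G → V) (b : G → V') :
    d23 (chiRep χ) (cup11 ρ' β a b) = cup21 ρ' β (d12 ρ a) b - cup12 ρ' β a (d12 ρ' b) := by
  ext ⟨g, h, j⟩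
  simp only [d23_apply, d12_apply, cup11, cup12, cup21, Pi.sub_apply, chiRep_apply, map_sub, map_add,
    LinearMap.sub_apply, LinearMap.add_apply, ← hβ g (a h) (ρ' h (b j)), map_mul,
    Module.End.mul_apply]
  abel

theorem leibniz20 (hβ : IsEquivPairing ρ ρ' χ β) (a : G × G → V) (y : V') :
    d23 (chiRep χ) (cup20 ρ' β a y) = cup30 ρ' β (d23 ρ a) y + cup21 ρ' β a (d01 ρ' y) := by
  ext ⟨g, h, j⟩
  simp only [d23_apply, d01_apply, cup20, cup30, cup21, Pi.add_apply, chiRep_apply, map_sub, map_add,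
    LinearMap.sub_apply, LinearMap.add_apply, ← hβ g (a (h, j)) (ρ' h (ρ' j y)), map_mul,
    Module.End.mul_apply, mul_assoc]
  abel

/-- the evaluation pairing is equivariant -/
theorem isEquivPairing_evalP (ρ : Representation k G V) (χ : G →* kˣ) :
    IsEquivPairing ρ (ρ.dual.twist χ) χ (evalP k V) := by
  intro g x y
  simp only [Module.Dual.eval_apply, Representation.twist_apply_apply, Representation.dual_apply,
    LinearMap.smul_apply, Module.Dual.transpose_apply, LinearMap.comp_apply, smul_eq_mul]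
  rw [← Module.End.mul_apply, ← map_mul, inv_mul_cancel, map_one, Module.End.one_apply]

/-! level-constancy -/
variable {𝒰 : Levels G}

theorem cup01_mem_C1 (x : V) {b : G → V'} (hb : b ∈ C1 k V' 𝒰) : cup01 β x b ∈ C1 k k 𝒰 :=
  comp_mem_C1 (β x) hb
theorem cup10_mem_C1 (hρ' : IsSmooth 𝒰 ρ') {a : G → V} (ha : a ∈ C1 k V 𝒰) (y : V') :
    cup10 ρ' β a y ∈ C1 k k 𝒰 := by
  obtain ⟨U, hU, h⟩ := ha
  obtain ⟨U', hU', h'⟩ := hρ' y
  obtain ⟨W, hW, h1, h2⟩ := 𝒰.directed U hU U' hU'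
  refine ⟨W, hW, fun g s hs => ?_⟩
  simp only [cup10, h g s (h1 hs), map_mul, Module.End.mul_apply, h' s (h2 hs)]
theorem cup02_mem_C2 (x : V) {b : G × G → V'} (hb : b ∈ C2 k V' 𝒰) : cup02 β x b ∈ C2 k k 𝒰 :=
  comp_mem_C2 (β x) hb
theorem cup11_mem_C2 (hρ' : IsSmooth 𝒰 ρ') {a : G → V} (ha : a ∈ C1 k V 𝒰) {b : G → V'}
    (hb : b ∈ C1 k V' 𝒰) : cup11 ρ' β a b ∈ C2 k k 𝒰 := by
  obtain ⟨U, hU, h⟩ := ha
  obtain ⟨U', hU', h', -, h''⟩ := hρ'.exists_level_C1 hb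
  obtain ⟨W, hW, h1, h2⟩ := 𝒰.directed U hU U' hU'
  refine ⟨W, hW, fun g₁ g₂ s₁ s₂ hs₁ hs₂ => ?_⟩
  simp only [cup11, h g₁ s₁ (h1 hs₁), h' g₂ s₂ (h2 hs₂), map_mul, Module.End.mul_apply,
    h'' g₂ s₁ (h2 hs₁)]
theorem cup20_mem_C2 (hρ' : IsSmooth 𝒰 ρ') {a : G × G → V} (ha : a ∈ C2 k V 𝒰) (y : V') :
    cup20 ρ' β a y ∈ C2 k k 𝒰 := by
  obtain ⟨U, hU, h⟩ := ha
  obtain ⟨U', hU', h'⟩ := hρ' y
  obtain ⟨W, hW, h1, h2⟩ := 𝒰.directed U hU U' hU'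
  refine ⟨W, hW, fun g₁ g₂ s₁ s₂ hs₁ hs₂ => ?_⟩
  have hn : g₂⁻¹ * s₁ * g₂ ∈ W := by
    have := (𝒰.normal W hW).conj_mem s₁ hs₁ g₂⁻¹
    simpa using this
  have e : g₁ * s₁ * (g₂ * s₂) = g₁ * g₂ * (g₂⁻¹ * s₁ * g₂) * s₂ := by group
  simp only [cup20, h g₁ g₂ s₁ s₂ (h1 hs₁) (h1 hs₂)]
  rw [e, map_mul, map_mul, Module.End.mul_apply, Module.End.mul_apply, h' s₂ (h2 hs₂),
    h' _ (h2 hn)]

end

section Cone
variable {D : Datum} {k : Type} [CommRing k] {V V' : Type} [AddCommGroup V] [Module k V]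
  [AddCommGroup V'] [Module k V'] {ρ : Representation k D.G V} {ρ' : Representation k D.G V'}
  {χ : D.G →* kˣ} {β : V →ₗ[k] V' →ₗ[k] k}

lemma IsEquivPairing.loc (hβ : IsEquivPairing ρ ρ' χ β) (v : D.ι) :
    IsEquivPairing (D.loc ρ v) (D.loc ρ' v) (χ.comp (D.r v)) β :=
  fun g x y => hβ (D.r v g) x y

lemma loc_chiRep (v : D.ι) : D.loc (chiRep χ) v = chiRep (χ.comp (D.r v)) := by
  ext g
  simp

/-- cone Leibniz rules: `d_c (a ∪ c) = da ∪ c + (-1)^{deg a} a ∪ d_c c` -/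
theorem cleibniz02 (hβ : IsEquivPairing ρ ρ' χ β) (x : V) (c : D.CC2 V') :
    D.dc2 (chiRep χ) (D.ccup02 β x c) = D.ccup12 ρ' β (d01 ρ x) c + D.ccup03 β x (D.dc2 ρ' c) := by
  rw [Datum.dc2_apply, Datum.dc2_apply]
  refine Prod.ext (leibniz02 hβ x c.1) ?_
  funext v
  have h1 := leibniz01 (hβ.loc v) x (c.2 v)
  rw [← loc_chiRep] at h1
  simp only [Datum.ccup02, Datum.ccup12, Datum.ccup03, Prod.snd_add, Pi.add_apply]
  rw [h1]
  ext ⟨g, h⟩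
  simp only [cup02, cup11, Pi.sub_apply, Pi.add_apply, Pi.neg_apply, Function.comp_apply,
    Prod.map_apply, map_sub, d01_apply, Datum.loc, MonoidHom.comp_apply]
  abel
theorem cleibniz11 (hβ : IsEquivPairing ρ ρ' χ β) (a : D.G → V) (c : D.CC1 V') :
    D.dc2 (chiRep χ) (D.ccup11 ρ' β a c)
      = D.ccup21 ρ' β (d12 ρ a) c - D.ccup12 ρ' β a (D.dc1 ρ' c) := by
  rw [Datum.dc2_apply, Datum.dc1_apply]
  refine Prod.ext (leibniz11 hβ a c.1) ?_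
  funext v
  have h1 := leibniz10 (hβ.loc v) (a ∘ D.r v) (c.2 v)
  rw [← loc_chiRep] at h1
  simp only [Datum.ccup11, Datum.ccup21, Datum.ccup12, Prod.snd_sub, Pi.sub_apply, map_neg]
  rw [h1]
  ext ⟨g, h⟩
  simp only [cup11, cup20, Pi.sub_apply, Pi.neg_apply, Function.comp_apply,
    Prod.map_apply, map_sub, d12_apply, map_mul, Datum.loc, MonoidHom.comp_apply]
  abel
theorem cleibniz20 (hβ : IsEquivPairing ρ ρ' χ β) (a : D.G × D.G → V) (y : V') :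
    D.dc2 (chiRep χ) (D.ccup20 ρ' β a y)
      = (cup30 ρ' β (d23 ρ a) y, 0) + D.ccup21 ρ' β a (D.dc0 ρ' y) := by
  rw [Datum.dc2_apply, Datum.dc0_apply]
  refine Prod.ext (leibniz20 hβ a y) ?_
  funext v
  ext ⟨g, h⟩
  simp [Datum.ccup20, Datum.ccup21, cup20]

/-! level-constancy of the degree 2 cone cups -/
theorem ccup02_mem_LCC2 (x : V) {c : D.CC2 V'} (hc : c ∈ D.LCC2 k V') :
    D.ccup02 β x c ∈ D.LCC2 k k :=
  ⟨cup02_mem_C2 x hc.1, fun v _ => cup01_mem_C1 x (hc.2 v trivial)⟩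
theorem ccup11_mem_LCC2 (hρ' : IsSmooth D.lev ρ') {a : D.G → V} (ha : a ∈ C1 k V D.lev)
    {c : D.CC1 V'} (hc : c ∈ D.LCC1 k V') : D.ccup11 ρ' β a c ∈ D.LCC2 k k :=
  ⟨cup11_mem_C2 hρ' ha hc.1, fun v _ => Submodule.neg_mem _
    (cup10_mem_C1 (hρ'.comp_hom (D.r v) (D.cont v)) (comp_hom_mem_C1 (D.r v) (D.cont v) ha) _)⟩
theorem ccup20_mem_LCC2 (hρ' : IsSmooth D.lev ρ') {a : D.G × D.G → V} (ha : a ∈ C2 k V D.lev)
    (y : V') : D.ccup20 ρ' β a y ∈ D.LCC2 k k :=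
  ⟨cup20_mem_C2 hρ' ha y, fun _ _ => Submodule.zero_mem _⟩

/-! ### consequences: the pairings are well defined modulo `BC3` -/
theorem ccup12_mem_BC3_of_B1 (hβ : IsEquivPairing ρ ρ' χ β) {a : D.G → V} (ha : a ∈ B1 ρ)
    {c : D.CC2 V'} (hc : c ∈ D.ZC2 ρ') : D.ccup12 ρ' β a c ∈ D.BC3 (chiRep χ) := by
  obtain ⟨x, rfl⟩ := ha
  refine ⟨D.ccup02 β x c, ccup02_mem_LCC2 x hc.2, ?_⟩
  rw [cleibniz02 hβ, LinearMap.mem_ker.1 hc.1]
  have : D.ccup03 β x (0 : D.CC3 V') = 0 := by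
    refine Prod.ext ?_ ?_
    · ext g; simp [Datum.ccup03, cup03]
    · funext v; ext g; simp [Datum.ccup03, cup02]
  rw [this, add_zero]
theorem ccup12_mem_BC3_of_BC2 (hβ : IsEquivPairing ρ ρ' χ β) (hρ' : IsSmooth D.lev ρ')
    {a : D.G → V} (ha : a ∈ Z1 D.lev ρ) {c : D.CC2 V'} (hc : c ∈ D.BC2 ρ') :
    D.ccup12 ρ' β a c ∈ D.BC3 (chiRep χ) := by
  obtain ⟨c', hc', rfl⟩ := hc
  refine ⟨- D.ccup11 ρ' β a c', Submodule.neg_mem _ (ccup11_mem_LCC2 hρ' ha.2 hc'), ?_⟩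
  rw [map_neg, cleibniz11 hβ, LinearMap.mem_ker.1 ha.1]
  have : D.ccup21 ρ' β (0 : D.G × D.G → V) c' = 0 := by
    refine Prod.ext ?_ ?_
    · ext g; simp [Datum.ccup21, cup21]
    · funext v; ext g; simp [Datum.ccup21, cup20]
  rw [this, zero_sub, neg_neg]
theorem ccup21_mem_BC3_of_B2 (hβ : IsEquivPairing ρ ρ' χ β) (hρ' : IsSmooth D.lev ρ')
    {a : D.G × D.G → V} (ha : a ∈ B2 D.lev ρ) {c : D.CC1 V'} (hc : c ∈ D.ZC1 ρ') :
    D.ccup21 ρ' β a c ∈ D.BC3 (chiRep χ) := by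
  obtain ⟨a', ha', rfl⟩ := ha
  refine ⟨D.ccup11 ρ' β a' c, ccup11_mem_LCC2 hρ' ha' hc.2, ?_⟩
  rw [cleibniz11 hβ, LinearMap.mem_ker.1 hc.1]
  have : D.ccup12 ρ' β a' (0 : D.CC2 V') = 0 := by
    refine Prod.ext ?_ ?_
    · ext g; simp [Datum.ccup12, cup12]
    · funext v; ext g; simp [Datum.ccup12, cup11]
  rw [this, sub_zero]
theorem ccup21_mem_BC3_of_BC1 (hβ : IsEquivPairing ρ ρ' χ β) (hρ' : IsSmooth D.lev ρ')
    {a : D.G × D.G → V} (ha : a ∈ Z2 D.lev ρ) {c : D.CC1 V'} (hc : c ∈ D.BC1 ρ') :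
    D.ccup21 ρ' β a c ∈ D.BC3 (chiRep χ) := by
  obtain ⟨y, rfl⟩ := hc
  refine ⟨D.ccup20 ρ' β a y, ccup20_mem_LCC2 hρ' ha.2 y, ?_⟩
  rw [cleibniz20 hβ, LinearMap.mem_ker.1 ha.1]
  have : ((cup30 ρ' β (0 : D.G × D.G × D.G → V) y, 0) : D.CC3 k) = 0 := by
    refine Prod.ext ?_ rfl
    ext g; simp [cup30]
  rw [this, zero_add]

/-! ### local vanishing (used for `Sha`) -/
/-- `a ∈ ShaZ2`, `c = (0,(y_v))` with `y_v` invariant under `G_v` -/
theorem ccup21_mem_BC3_of_ShaZ2 (hβ : IsEquivPairing ρ ρ' χ β) {a : D.G × D.G → V}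
    (ha : a ∈ D.ShaZ2 ρ) (y : D.ι → V') (hy : ∀ v g, D.loc ρ' v g (y v) = y v) :
    D.ccup21 ρ' β a (0, y) ∈ D.BC3 (chiRep χ) := by
  have hloc : ∀ v, ∃ h ∈ C1 k V (D.levv v), d12 (D.loc ρ v) h = a ∘ Prod.map (D.r v) (D.r v) :=
    fun v => ha.2 v trivial
  choose h hh1 hh2 using hloc
  refine ⟨(0, fun v => - cup10 (D.loc ρ' v) β (h v) (y v)), ⟨Submodule.zero_mem _, fun v _ =>
    Submodule.neg_mem _ ?_⟩, ?_⟩
  · have : cup10 (D.loc ρ' v) β (h v) (y v) = (fun z => β z (y v)) ∘ h v := by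
      ext g
      simp only [cup10, hy v g, Function.comp_apply]
    rw [this]
    exact comp_mem_C1 _ (hh1 v)
  · rw [Datum.dc2_apply]
    refine Prod.ext ?_ ?_
    · ext g; simp [Datum.ccup21, cup21]
    · funext v
      have h1 := leibniz10 (hβ.loc v) (h v) (y v)
      rw [← loc_chiRep] at h1
      simp only [Datum.ccup21, map_neg]
      rw [h1, hh2 v]
      have h2 : d01 (D.loc ρ' v) (y v) = 0 := by
        ext g
        rw [d01_apply, hy v g, sub_self]; rfl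
      rw [h2]
      ext g
      simp [cup11]
/-- `a ∈ ShaZ1`, `c = (0,(b_v))` with `b_v` local 1-cocycles -/
theorem ccup12_mem_BC3_of_ShaZ1 (hβ : IsEquivPairing ρ ρ' χ β) {a : D.G → V}
    (ha : a ∈ D.ShaZ1 ρ) (b : ∀ v, D.Gv v → V') (hb : b ∈ D.ZL1 ρ') :
    D.ccup12 ρ' β a (0, b) ∈ D.BC3 (chiRep χ) := by
  have hloc : ∀ v, ∃ x : V, d01 (D.loc ρ v) x = a ∘ D.r v := fun v => ha.2 v trivial
  choose x hx using hloc
  refine ⟨(0, fun v => cup01 β (x v) (b v)), ⟨Submodule.zero_mem _, fun v _ =>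
    cup01_mem_C1 _ (hb v trivial).2⟩, ?_⟩
  rw [Datum.dc2_apply]
  refine Prod.ext ?_ ?_
  · ext g; simp [Datum.ccup12, cup12]
  · funext v
    have h1 := leibniz01 (hβ.loc v) (x v) (b v)
    rw [← loc_chiRep] at h1
    simp only [Datum.ccup12]
    rw [h1, hx v, LinearMap.mem_ker.1 (hb v trivial).1]
    ext g
    simp [cup02]

end Cone

end Fermat.Agent.CFT
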