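import Fermat.Agent.CFT.F.Ctx
import Fermat.Agent.CFT.F.Cup

/-! # CFT / Part F, WP F3: the adjunction formulas `⟨δ y, c⟩ = ± ⟨y, δ c⟩` at cochain level,
naturality of the cups, dual short exact sequence. -/

set_option autoImplicit false

namespace Fermat.Agent.CFT

variable {D : Datum} {k : Type} [Field k] {χ : D.G →* kˣ} {N I Q : Type}
    [AddCommGroup N] [Module k N] [AddCommGroup I] [Module k I] [AddCommGroup Q] [Module k Q]
    {ρN : Representation k D.G N} {ρI : Representation k D.G I} {ρQ : Representation k D.G Q}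
    {i : N →ₗ[k] I} {π : I →ₗ[k] Q}

/-- the transpose of an equivariant map is equivariant for the twisted duals -/
theorem dualMap_twist_equiv {G : Type} [Group G] {χ : G →* kˣ}
    {ρI : Representation k G I} {ρQ : Representation k G Q}
    (hπ : ∀ g x, π (ρI g x) = ρQ g (π x)) (g : G) (n : Module.Dual k Q) :
    π.dualMap ((ρQ.dual.twist χ) g n) = (ρI.dual.twist χ) g (π.dualMap n) := by
  ext x
  simp only [Representation.twist_apply_apply, map_smul, LinearMap.smul_apply,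
    LinearMap.dualMap_apply, Representation.dual_apply, Module.Dual.transpose_apply, LinearMap.comp_apply, hπ]

/-- the dual sequence `0 → Q' → I' → N' → 0` -/
theorem IsSES.dual (h : IsSES ρN ρI ρQ i π) :
    IsSES (ρQ.dual.twist χ) (ρI.dual.twist χ) (ρN.dual.twist χ) π.dualMap i.dualMap where
  i_equiv := dualMap_twist_equiv h.π_equiv
  π_equiv := dualMap_twist_equiv h.i_equiv
  inj := LinearMap.dualMap_injective_of_surjective h.surj
  surj := LinearMap.dualMap_surjective_of_injective h.inj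
  exact x := by
    have h1 : LinearMap.ker π = LinearMap.range i := by
      ext y
      simp only [LinearMap.mem_ker, LinearMap.mem_range, h.exact]
    have h2 : LinearMap.ker i.dualMap = LinearMap.range π.dualMap := by
      rw [LinearMap.ker_dualMap_eq_dualAnnihilator_range,
        LinearMap.range_dualMap_eq_dualAnnihilator_ker, h1]
    have h3 : x ∈ LinearMap.ker i.dualMap ↔ x ∈ LinearMap.range π.dualMap := by rw [h2]
    simpa only [LinearMap.mem_ker, LinearMap.mem_range] using h3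

/-- naturality of the degree (1,2) cup in an equivariant map `π : I → Q` -/
theorem ccup12_natural (hπ : ∀ g x, π (ρI g x) = ρQ g (π x)) (y : D.G → I)
    (e : D.CC2 (Module.Dual k Q)) :
    D.ccup12 (ρQ.dual.twist χ) (evalP k Q) (π ∘ y) e
      = D.ccup12 (ρI.dual.twist χ) (evalP k I) y (D.push2 π.dualMap e) := by
  refine Prod.ext ?_ ?_
  · funext g
    simp only [Datum.ccup12, Datum.push2, cup12, Function.comp_apply, Module.Dual.eval_apply,
      ← dualMap_twist_equiv hπ, LinearMap.dualMap_apply]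
  · funext v g
    simp only [Datum.ccup12, Datum.push2, cup11, Function.comp_apply, Module.Dual.eval_apply,
      Pi.neg_apply, Datum.loc, MonoidHom.comp_apply, ← dualMap_twist_equiv hπ, LinearMap.dualMap_apply]

/-- naturality of the degree (2,1) cup in an equivariant map `π : I → Q` -/
theorem ccup21_natural (hπ : ∀ g x, π (ρI g x) = ρQ g (π x)) (y : D.G × D.G → I)
    (e : D.CC1 (Module.Dual k Q)) :
    D.ccup21 (ρQ.dual.twist χ) (evalP k Q) (π ∘ y) e
      = D.ccup21 (ρI.dual.twist χ) (evalP k I) y (D.push1 π.dualMap e) := by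
  refine Prod.ext ?_ ?_
  · funext g
    simp only [Datum.ccup21, Datum.push1, cup21, Function.comp_apply, Module.Dual.eval_apply,
      ← dualMap_twist_equiv hπ, LinearMap.dualMap_apply]
  · funext v g
    simp only [Datum.ccup21, Datum.push1, cup20, Function.comp_apply, Module.Dual.eval_apply,
      Datum.loc, MonoidHom.comp_apply, ← dualMap_twist_equiv hπ, LinearMap.dualMap_apply]

/-- naturality of the degree (0,3) cup -/
theorem ccup03_natural (y : I) (e : D.CC3 (Module.Dual k Q)) :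
    D.ccup03 (evalP k Q) (π y) e = D.ccup03 (evalP k I) y (D.push3 π.dualMap e) := rfl

/-- degree (0,2)/(1,2): `F ∈ I`, `dF = i ∘ a`; `c̃ ∈ C^2_c(I')`, `d c̃ = π^T ∘ e`. Then
`a ∪ (i^T c̃) + (π F) ∪ e` is a coboundary. -/
theorem adj0 (h : IsSES ρN ρI ρQ i π) (a : D.G → N) (F : I) (hF : d01 ρI F = i ∘ a)
    (c : D.CC2 (Module.Dual k I)) (hc : c ∈ D.LCC2 k (Module.Dual k I))
    (e : D.CC3 (Module.Dual k Q)) (he : D.dc2 (ρI.dual.twist χ) c = D.push3 π.dualMap e) :
    D.ccup12 (ρN.dual.twist χ) (evalP k N) a (D.push2 i.dualMap c)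
      + D.ccup03 (evalP k Q) (π F) e ∈ D.BC3 (chiRep χ) := by
  refine ⟨D.ccup02 (evalP k I) F c, ccup02_mem_LCC2 F hc, ?_⟩
  rw [cleibniz02 (isEquivPairing_evalP ρI χ) F c, hF, he, ccup12_natural h.i_equiv,
    ccup03_natural]

/-- degree (1,1)/(2,1): `h ∈ C^1(I)`, `dh = i ∘ a`; `c̃ ∈ C^1_c(I')`, `d c̃ = π^T ∘ e`. Then
`a ∪ (i^T c̃) - (π ∘ h) ∪ e` is a coboundary. -/
theorem adj1 (h : IsSES ρN ρI ρQ i π) (hI : IsSmooth D.lev (ρI.dual.twist χ))
    (a : D.G × D.G → N) (f : D.G → I) (hf : f ∈ C1 k I D.lev) (hd : d12 ρI f = i ∘ a)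
    (c : D.CC1 (Module.Dual k I)) (hc : c ∈ D.LCC1 k (Module.Dual k I))
    (e : D.CC2 (Module.Dual k Q)) (he : D.dc1 (ρI.dual.twist χ) c = D.push2 π.dualMap e) :
    D.ccup21 (ρN.dual.twist χ) (evalP k N) a (D.push1 i.dualMap c)
      - D.ccup12 (ρQ.dual.twist χ) (evalP k Q) (π ∘ f) e ∈ D.BC3 (chiRep χ) := by
  refine ⟨D.ccup11 (ρI.dual.twist χ) (evalP k I) f c, ccup11_mem_LCC2 hI hf hc, ?_⟩
  rw [cleibniz11 (isEquivPairing_evalP ρI χ) f c, hd, he, ccup21_natural h.i_equiv,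
    ccup12_natural h.π_equiv]

/-- naturality of the degree 0 pairing -/
theorem ell_natural (lam : ∀ v : D.ι, (D.Gv v × D.Gv v → k) →ₗ[k] k) (y : I)
    (e : ∀ v : D.ι, D.Gv v × D.Gv v → Module.Dual k Q) :
    D.ell lam (π y) e = D.ell lam y (fun v => π.dualMap ∘ e v) := rfl

/-! push-forward of cone cochains: compatibility with `dc`, `ZC`, `BC`, `LCC`, `ZL`, `RL` -/
section push
variable {V W : Type} [AddCommGroup V] [Module k V] [AddCommGroup W] [Module k W]
  {ρ : Representation k D.G V} {σ : Representation k D.G W} (f : V →ₗ[k] W)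
  (hf : ∀ g v, f (ρ g v) = σ g (f v))


include hf
theorem dc1_push1 (c : D.CC1 V) : D.dc1 σ (D.push1 f c) = D.push2 f (D.dc1 ρ c) := by
  refine Prod.ext ?_ ?_
  · funext g
    simp only [Datum.dc1_apply, Datum.push1, Datum.push2, d12_apply, Function.comp_apply, map_add,
      map_sub, hf]
  · funext v g
    simp only [Datum.dc1_apply, Datum.push1, Datum.push2, d01_apply, Function.comp_apply, map_sub,
      Pi.sub_apply, Datum.loc, MonoidHom.comp_apply, hf]
theorem dc2_push2 (c : D.CC2 V) : D.dc2 σ (D.push2 f c) = D.push3 f (D.dc2 ρ c) := by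
  refine Prod.ext ?_ ?_
  · funext g
    simp only [Datum.dc2_apply, Datum.push3, Datum.push2, d23_apply, Function.comp_apply, map_add,
      map_sub, hf]
  · funext v g
    simp only [Datum.dc2_apply, Datum.push3, Datum.push2, d12_apply, Function.comp_apply, map_sub,
      map_add, Pi.sub_apply, Datum.loc, MonoidHom.comp_apply, hf]
omit hf
theorem push1_mem_LCC1 {c : D.CC1 V} (hc : c ∈ D.LCC1 k V) : D.push1 f c ∈ D.LCC1 k W :=
  ⟨Levels.LC1.comp hc.1 f, trivial⟩
theorem push2_mem_LCC2 {c : D.CC2 V} (hc : c ∈ D.LCC2 k V) : D.push2 f c ∈ D.LCC2 k W :=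
  ⟨Levels.LC2.comp hc.1 f, fun v hv => Levels.LC1.comp (hc.2 v hv) f⟩
theorem push3_zero : D.push3 f (0 : D.CC3 V) = 0 := by
  refine Prod.ext ?_ ?_
  · funext g; simp [Datum.push3]
  · funext v g; simp [Datum.push3]
theorem push2_zero : D.push2 f (0 : D.CC2 V) = 0 := by
  refine Prod.ext ?_ ?_
  · funext g; simp [Datum.push2]
  · funext v g; simp [Datum.push2]
include hf
theorem push1_mem_ZC1 {c : D.CC1 V} (hc : c ∈ D.ZC1 ρ) : D.push1 f c ∈ D.ZC1 σ := by
  refine ⟨?_, push1_mem_LCC1 f hc.2⟩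
  have h0 : D.dc1 ρ c = 0 := hc.1
  show D.dc1 σ (D.push1 f c) = 0
  rw [dc1_push1 f hf, h0, push2_zero]
theorem push2_mem_ZC2 {c : D.CC2 V} (hc : c ∈ D.ZC2 ρ) : D.push2 f c ∈ D.ZC2 σ := by
  refine ⟨?_, push2_mem_LCC2 f hc.2⟩
  have h0 : D.dc2 ρ c = 0 := hc.1
  show D.dc2 σ (D.push2 f c) = 0
  rw [dc2_push2 f hf, h0, push3_zero]
theorem push2_mem_BC2 {c : D.CC2 V} (hc : c ∈ D.BC2 ρ) : D.push2 f c ∈ D.BC2 σ := by
  obtain ⟨b, hb, rfl⟩ := hc
  exact ⟨D.push1 f b, push1_mem_LCC1 f hb, dc1_push1 f hf b⟩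
theorem comp_mem_ZL2 {e : ∀ v : D.ι, D.Gv v × D.Gv v → V} (he : e ∈ D.ZL2 ρ) :
    (fun v => f ∘ e v) ∈ D.ZL2 σ := by
  intro v hv
  obtain ⟨h1, h2⟩ := he v hv
  refine ⟨?_, Levels.LC2.comp h2 f⟩
  have h0 : d23 (D.loc ρ v) (e v) = 0 := h1
  show d23 (D.loc σ v) (f ∘ e v) = 0
  funext g
  have := congrArg f (congrFun h0 g)
  simpa only [d23_apply, Function.comp_apply, map_sub, map_add, Datum.loc, MonoidHom.comp_apply, hf,
    Pi.zero_apply, map_zero] using this
theorem comp_mem_RL2 {e : ∀ v : D.ι, D.Gv v × D.Gv v → V} (he : e ∈ D.RL2 ρ) :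
    (fun v => f ∘ e v) ∈ D.RL2 σ := by
  obtain ⟨b, hb, z, hz, rfl⟩ := Submodule.mem_sup.1 he
  obtain ⟨a, ha, rfl⟩ := hz
  refine Submodule.mem_sup.2 ⟨fun v => f ∘ b v, ?_, D.res2 (k := k) (f ∘ a), ⟨f ∘ a, ?_, rfl⟩, ?_⟩
  · intro v hv
    obtain ⟨t, ht, hbt⟩ := hb v hv
    refine ⟨f ∘ t, Levels.LC1.comp ht f, ?_⟩
    funext g
    have := congrArg f (congrFun hbt g)
    simpa only [d12_apply, Function.comp_apply, map_sub, map_add, Datum.loc, MonoidHom.comp_apply, hf]
      using this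
  · refine ⟨?_, Levels.LC2.comp ha.2 f⟩
    have h0 : d23 ρ a = 0 := ha.1
    show d23 σ (f ∘ a) = 0
    funext g
    have := congrArg f (congrFun h0 g)
    simpa only [d23_apply, Function.comp_apply, map_sub, map_add, hf,
      Pi.zero_apply, map_zero] using this
  · funext v g
    simp only [Pi.add_apply, Function.comp_apply, Datum.res2_apply, map_add]
omit hf
theorem exists_lift_LCC1 (hs : Function.Surjective f) {c : D.CC1 W} (hc : c ∈ D.LCC1 k W) :
    ∃ c' ∈ D.LCC1 k V, D.push1 f c' = c := by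
  obtain ⟨s, hs'⟩ := hs.hasRightInverse
  refine ⟨(s ∘ c.1, fun v => s (c.2 v)), ⟨Levels.LC1.comp hc.1 s, trivial⟩, ?_⟩
  refine Prod.ext ?_ ?_
  · funext g; exact hs' _
  · funext v; exact hs' _
theorem exists_lift_LCC2 (hs : Function.Surjective f) {c : D.CC2 W} (hc : c ∈ D.LCC2 k W) :
    ∃ c' ∈ D.LCC2 k V, D.push2 f c' = c := by
  obtain ⟨s, hs'⟩ := hs.hasRightInverse
  refine ⟨(s ∘ c.1, fun v => s ∘ c.2 v),
    ⟨Levels.LC2.comp hc.1 s, fun v hv => Levels.LC1.comp (hc.2 v hv) s⟩, ?_⟩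
  refine Prod.ext ?_ ?_
  · funext g; exact hs' _
  · funext v g; exact hs' _
end push

end Fermat.Agent.CFT
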