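import Fermat.Agent.CFT.F.Deg0
import Fermat.Agent.CFT.F.Adj
import Fermat.Agent.CFT.F.Efface

/-! # CFT / Part F, WP F10: `φ¹ : H^1(G,N) → H^2_c(N')^*` is injective.

Proof. `U` adapted to `ρ` and a level of `a`. `I = Map(G/U,N)`, `Q = I/N`. `efface1`: `dF = const ∘ a`.
`ȳ = π F ∈ Q^G`. Claim: `ell ȳ e = 0` for all `e ∈ ZL2 Q'` with `π^T ∘ e ∈ RL2 I'`: write
`π^T e_v = res g̃ + d h_v`, `c̃ = (g̃, -h)`, `dc2 c̃ = push3 π^T (0,e)`, `c = push2 i^T c̃ ∈ ZC2 N'`, `adj0`.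
Linear algebra: there is `u` on `∏ (G_v×G_v → I')` killing `RL2 I'` with `u (π^T e) = ell ȳ e` on `ZL2 Q'`.
`deg0_surjective`: `u = ell y_I`. `ell_natural` + `deg0_injective` for `Q`: `ȳ = π y_I`.
So `F - y_I = const n` and `a = d01 n`. -/

set_option autoImplicit false

namespace Fermat.Agent.CFT

variable {D : Datum} {k : Type} [Field k] {χ : D.G →* kˣ}
  {lam : ∀ v : D.ι, (D.Gv v × D.Gv v → k) →ₗ[k] k} {Φ : D.CC3 k →ₗ[k] k}

/-- adapted levels are cofinal -/
theorem exists_adapted (ctx : D.Ctx χ lam Φ) {N : Type} [AddCommGroup N] [Module k N]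
    [FiniteDimensional k N] {ρ : Representation k D.G N} (hρ : IsSmooth D.lev ρ)
    {U₀ : Subgroup D.G} (hU₀ : U₀ ∈ D.lev.carrier) : ∃ U, U ≤ U₀ ∧ D.Adapted χ ρ U := by
  obtain ⟨U₁, hU₁, h₁⟩ := ctx.chi_smooth
  obtain ⟨U₂, hU₂, h₂⟩ := hρ.exists_trivial
  obtain ⟨W₁, hW₁, hW₁0, hW₁1⟩ := D.lev.directed U₀ hU₀ U₁ hU₁
  obtain ⟨W₂, hW₂, hW₂1, hW₂2⟩ := D.lev.directed W₁ hW₁ U₂ hU₂
  obtain ⟨W, hW, hWW₂, hgood⟩ := ctx.good W₂ hW₂
  exact ⟨W, hWW₂.trans (hW₂1.trans hW₁0), hW, hgood,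
    fun s hs v => h₂ s (hW₂2 (hWW₂ hs)) v, fun s hs => h₁ s (hW₁1 (hW₂1 (hWW₂ hs)))⟩

/-- `ell` as a linear map in the second variable -/
noncomputable def Datum.ellL (D : Datum) {k : Type} [Field k]
    (lam : ∀ v : D.ι, (D.Gv v × D.Gv v → k) →ₗ[k] k) {W : Type} [AddCommGroup W] [Module k W]
    (y : W) : (∀ v : D.ι, D.Gv v × D.Gv v → Module.Dual k W) →ₗ[k] k where
  toFun e := D.ell lam y e
  map_add' e e' := by
    simp only [Datum.ell, ← Finset.sum_add_distrib, ← map_add]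
    rfl
  map_smul' c e := by
    simp only [Datum.ell, Finset.smul_sum, ← map_smul, RingHom.id_apply]
    rfl

@[simp] lemma Datum.ellL_apply (lam : ∀ v : D.ι, (D.Gv v × D.Gv v → k) →ₗ[k] k) {W : Type}
    [AddCommGroup W] [Module k W] (y : W) (e : ∀ v : D.ι, D.Gv v × D.Gv v → Module.Dual k W) :
    D.ellL lam y e = D.ell lam y e := rfl

lemma Datum.ell_sub_left (lam : ∀ v : D.ι, (D.Gv v × D.Gv v → k) →ₗ[k] k) {W : Type}
    [AddCommGroup W] [Module k W] (y y' : W) (e : ∀ v : D.ι, D.Gv v × D.Gv v → Module.Dual k W) :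
    D.ell lam (y - y') e = D.ell lam y e - D.ell lam y' e := by
  simp only [Datum.ell, ← Finset.sum_sub_distrib, ← map_sub]
  refine Finset.sum_congr rfl fun v _ => ?_
  congr 1
  ext g
  simp [cup02]

/-- post-composition of families of local 2-cochains with a linear map, as a linear map -/
def Datum.compL2 (D : Datum) {k : Type} [Field k] {V W : Type} [AddCommGroup V] [Module k V]
    [AddCommGroup W] [Module k W] (f : V →ₗ[k] W) :
    (∀ v : D.ι, D.Gv v × D.Gv v → V) →ₗ[k] (∀ v : D.ι, D.Gv v × D.Gv v → W) where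
  toFun e v := f ∘ e v
  map_add' e e' := by
    ext v g
    simp
  map_smul' c e := by
    ext v g
    simp

/-- extension of functionals: if `L` vanishes on `ker f` it factors through `f` -/
theorem exists_dual_factor {X Y : Type} [AddCommGroup X] [Module k X] [AddCommGroup Y] [Module k Y]
    (f : X →ₗ[k] Y) (L : X →ₗ[k] k) (h : ∀ x, f x = 0 → L x = 0) :
    ∃ u : Y →ₗ[k] k, ∀ x, u (f x) = L x := by
  have hL : L ∈ (LinearMap.ker f).dualAnnihilator := by
    rw [Submodule.mem_dualAnnihilator]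
    intro x hx
    exact h x hx
  rw [← LinearMap.range_dualMap_eq_dualAnnihilator_ker] at hL
  obtain ⟨u, hu⟩ := hL
  exact ⟨u, fun x => by rw [← hu]; rfl⟩

/-- extension of functionals, relative version -/
theorem exists_functional {X Y : Type} [AddCommGroup X] [Module k X] [AddCommGroup Y] [Module k Y]
    (P : X →ₗ[k] Y) (Z : Submodule k X) (R : Submodule k Y) (L : X →ₗ[k] k)
    (h : ∀ x ∈ Z, P x ∈ R → L x = 0) :
    ∃ u : Y →ₗ[k] k, (∀ y ∈ R, u y = 0) ∧ ∀ x ∈ Z, u (P x) = L x := by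
  obtain ⟨u', hu'⟩ := exists_dual_factor (R.mkQ ∘ₗ P ∘ₗ Z.subtype) (L ∘ₗ Z.subtype) (by
    rintro ⟨x, hx⟩ hx'
    simp only [LinearMap.comp_apply, Submodule.subtype_apply, Submodule.mkQ_apply,
      Submodule.Quotient.mk_eq_zero] at hx'
    exact h x hx hx')
  refine ⟨u' ∘ₗ R.mkQ, fun y hy => ?_, fun x hx => hu' ⟨x, hx⟩⟩
  rw [LinearMap.comp_apply, Submodule.mkQ_apply, (Submodule.Quotient.mk_eq_zero _).2 hy, map_zero]

/-- the chase, for an abstract short exact sequence `0 → N → I → Q → 0` -/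
theorem inj1_aux (ctx : D.Ctx χ lam Φ) {N I Q : Type} [AddCommGroup N] [Module k N]
    [AddCommGroup I] [Module k I] [AddCommGroup Q] [Module k Q] [FiniteDimensional k Q]
    {ρ : Representation k D.G N} {ρI : Representation k D.G I} {ρQ : Representation k D.G Q}
    {i : N →ₗ[k] I} {π : I →ₗ[k] Q} (hses : IsSES ρ ρI ρQ i π) (hQ : IsSmooth D.lev ρQ)
    (hsurj : ∀ u : (∀ v : D.ι, D.Gv v × D.Gv v → Module.Dual k I) →ₗ[k] k,
      (∀ e ∈ D.RL2 (ρI.dual.twist χ), u e = 0) →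
      ∃ y : I, (∀ g, ρI g y = y) ∧ ∀ e ∈ D.ZL2 (ρI.dual.twist χ), u e = D.ell lam y e)
    {a : D.G → N} {F : I} (hF : d01 ρI F = i ∘ a)
    (h : ∀ c ∈ D.ZC2 (ρ.dual.twist χ), Φ (D.ccup12 (ρ.dual.twist χ) (evalP k N) a c) = 0) :
    a ∈ B1 ρ := by
  have hsesd := hses.dual (χ := χ)
  -- `π F` is invariant
  have hFg : ∀ g, ρI g F = F + i (a g) := by
    intro g
    have := congrFun hF g
    simp only [d01_apply, Function.comp] at this
    rw [← this]; abel
  have hy : ∀ g, ρQ g (π F) = π F := by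
    intro g
    rw [← hses.π_equiv, hFg, map_add, (hses.exact _).2 ⟨a g, rfl⟩, add_zero]
  -- the claim
  have claim : ∀ e ∈ D.ZL2 (ρQ.dual.twist χ),
      D.compL2 π.dualMap e ∈ D.RL2 (ρI.dual.twist χ) → D.ell lam (π F) e = 0 := by
    intro e he hPe
    obtain ⟨b, hb, r, hr, hbr⟩ := Submodule.mem_sup.1 hPe
    obtain ⟨gt, hgt, rfl⟩ := hr
    have hb' : ∀ v, ∃ hv ∈ C1 k (Module.Dual k I) (D.levv v),
        d12 (D.loc (ρI.dual.twist χ) v) hv = b v := fun v => hb v (Set.mem_univ v)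
    choose hh hhC hhd using hb'
    let ct : D.CC2 (Module.Dual k I) := (gt, fun v => - hh v)
    have hct : ct ∈ D.LCC2 k (Module.Dual k I) := ⟨hgt.2, fun v _ => neg_mem (hhC v)⟩
    have hdct : D.dc2 (ρI.dual.twist χ) ct = D.push3 π.dualMap (0, e) := by
      rw [Datum.dc2_apply]
      refine Prod.ext ?_ ?_
      · have : d23 (ρI.dual.twist χ) gt = 0 := LinearMap.mem_ker.1 hgt.1
        simp only [ct, this, Datum.push3]
        ext g
        simp
      · funext v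
        have h1 := congrFun hbr v
        simp only [ct, Datum.push3, map_neg, sub_neg_eq_add, hhd]
        rw [add_comm]
        exact h1
    have hc : D.push2 i.dualMap ct ∈ D.ZC2 (ρ.dual.twist χ) := by
      refine ⟨?_, push2_mem_LCC2 _ hct⟩
      rw [SetLike.mem_coe, LinearMap.mem_ker, dc2_push2 i.dualMap hsesd.π_equiv ct, hdct]
      refine Prod.ext ?_ ?_
      · ext g
        simp [Datum.push3]
      · funext v
        ext g n
        simp only [Datum.push3, Function.comp, LinearMap.dualMap_apply]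
        rw [(hses.exact _).2 ⟨n, rfl⟩]
        simp
    have hadj := adj0 (χ := χ) hses a F hF ct hct (0, e) hdct
    have h1 := ctx.inv.bdry _ hadj
    rw [map_add, h _ hc, zero_add, Phi_ccup03 ctx (π F) hy he] at h1
    exact h1
  -- the functional `u`
  obtain ⟨u, hu0, hu⟩ := exists_functional (D.compL2 π.dualMap) (D.ZL2 (ρQ.dual.twist χ))
    (D.RL2 (ρI.dual.twist χ)) (D.ellL lam (π F)) claim
  obtain ⟨yI, hyI, hyu⟩ := hsurj u hu0
  -- `π F = π yI`
  have hzero : π F - π yI = 0 := by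
    apply deg0_injective ctx hQ
    · intro g
      rw [map_sub, hy, ← hses.π_equiv, hyI]
    · intro e he
      rw [Datum.ell_sub_left, ell_natural lam yI e, sub_eq_zero]
      have h1 := hu e he
      have h2 := hyu (D.compL2 π.dualMap e) (comp_mem_ZL2 π.dualMap hsesd.i_equiv he)
      rw [Datum.ellL_apply] at h1
      rw [← h1, h2]
      rfl
  rw [← map_sub] at hzero
  obtain ⟨n, hn⟩ := (hses.exact _).1 hzero
  refine ⟨n, ?_⟩
  funext g
  apply hses.inj
  rw [d01_apply, map_sub, hses.i_equiv, hn, map_sub, hyI, hFg]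
  abel

theorem inj1 (ctx : D.Ctx χ lam Φ) {N : Type} [AddCommGroup N] [Module k N]
    [FiniteDimensional k N] {ρ : Representation k D.G N} (hρ : IsSmooth D.lev ρ)
    {a : D.G → N} (ha : a ∈ Z1 D.lev ρ)
    (h : ∀ c ∈ D.ZC2 (ρ.dual.twist χ), Φ (D.ccup12 (ρ.dual.twist χ) (evalP k N) a c) = 0) :
    a ∈ B1 ρ := by
  obtain ⟨haZ, U₀, hU₀, haU₀⟩ := ha
  obtain ⟨U, hUU₀, hU⟩ := exists_adapted ctx hρ hU₀
  have : U.Normal := D.lev.normal U hU.mem
  have : U.FiniteIndex := D.lev.finiteIndex U hU.mem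
  obtain ⟨F, hF⟩ := efface1 (𝒰 := D.lev) (ρ := ρ) hU.mem (LinearMap.mem_ker.1 haZ)
    (fun g s hs => haU₀ g s (hUU₀ hs))
  exact inj1_aux ctx (isSES_mapRep (k := k) (ρ := ρ) U) (hρ.quotRep hU.mem)
    (fun u hu => deg0_surjective ctx hρ hU u hu) hF h

end Fermat.Agent.CFT
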