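import Fermat.Agent.CFT.F.Ctx
import Fermat.Agent.CFT.F.Basic

/-! # CFT / Part F, WP F8: the cone sequences.
`0 → Coker1 → HC2 → Sha2 → 0`,  `(b_v) ↦ [(0,-b_v)]` (sign to taste), `[(a,b)] ↦ [a]`. -/

set_option autoImplicit false

namespace Fermat.Agent.CFT

open Module

variable {D : Datum} {k : Type} [Field k] {V : Type} [AddCommGroup V] [Module k V]
  {ρ : Representation k D.G V}

namespace ConeSeq

/-! ### membership lemmas -/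

lemma res2_d12 (f : D.G → V) (v : D.ι) :
    D.res2 (k := k) (d12 ρ f) v = d12 (D.loc ρ v) (D.res1 (k := k) f v) := by
  funext g
  simp only [Datum.res2_apply, d12_apply, Datum.res1_apply, map_mul]
  rfl

lemma res1_d01 (x : V) (v : D.ι) :
    D.res1 (k := k) (d01 ρ x) v = d01 (D.loc ρ v) x := by
  funext g
  rfl

lemma dc2_apply (a : D.G × D.G → V) (b : ∀ v : D.ι, D.Gv v → V) :
    D.dc2 ρ (a, b) = (d23 ρ a, fun v => D.res2 (k := k) a v - d12 (D.loc ρ v) (b v)) := rfl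

lemma dc1_apply (f : D.G → V) (y : D.ι → V) :
    D.dc1 ρ (f, y) = (d12 ρ f, fun v => D.res1 (k := k) f v - d01 (D.loc ρ v) (y v)) := rfl

lemma dc0_apply (x : V) : D.dc0 ρ x = (d01 ρ x, fun _ => x) := rfl

lemma mem_ZC2 {x : D.CC2 V} : x ∈ D.ZC2 ρ ↔
    d23 ρ x.1 = 0 ∧ (∀ v, D.res2 (k := k) x.1 v = d12 (D.loc ρ v) (x.2 v)) ∧
      x.1 ∈ C2 k V D.lev ∧ ∀ v, x.2 v ∈ C1 k V (D.levv v) := by
  obtain ⟨a, b⟩ := x
  constructor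
  · rintro ⟨h1, h2, h3⟩
    have h1' : D.dc2 ρ (a, b) = 0 := h1
    rw [dc2_apply, Prod.mk_eq_zero] at h1'
    exact ⟨h1'.1, fun v => sub_eq_zero.mp (congrFun h1'.2 v), h2, fun v => h3 v trivial⟩
  · rintro ⟨h1, h2, h3, h4⟩
    refine ⟨?_, h3, fun v _ => h4 v⟩
    show D.dc2 ρ (a, b) = 0
    rw [dc2_apply, Prod.mk_eq_zero]
    exact ⟨h1, funext fun v => sub_eq_zero.mpr (h2 v)⟩

lemma mem_ZC1 {x : D.CC1 V} : x ∈ D.ZC1 ρ ↔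
    d12 ρ x.1 = 0 ∧ (∀ v, D.res1 (k := k) x.1 v = d01 (D.loc ρ v) (x.2 v)) ∧
      x.1 ∈ C1 k V D.lev := by
  obtain ⟨a, b⟩ := x
  constructor
  · rintro ⟨h1, h2, -⟩
    have h1' : D.dc1 ρ (a, b) = 0 := h1
    rw [dc1_apply, Prod.mk_eq_zero] at h1'
    exact ⟨h1'.1, fun v => sub_eq_zero.mp (congrFun h1'.2 v), h2⟩
  · rintro ⟨h1, h2, h3⟩
    refine ⟨?_, h3, trivial⟩
    show D.dc1 ρ (a, b) = 0
    rw [dc1_apply, Prod.mk_eq_zero]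
    exact ⟨h1, funext fun v => sub_eq_zero.mpr (h2 v)⟩

lemma mem_ShaZ2 {a : D.G × D.G → V} : a ∈ D.ShaZ2 ρ ↔
    a ∈ Z2 D.lev ρ ∧ ∀ v, D.res2 (k := k) a v ∈ B2 (D.levv v) (D.loc ρ v) :=
  ⟨fun h => ⟨h.1, fun v => h.2 v trivial⟩, fun h => ⟨h.1, fun v _ => h.2 v⟩⟩

lemma mem_ShaZ1 {a : D.G → V} : a ∈ D.ShaZ1 ρ ↔
    a ∈ Z1 D.lev ρ ∧ ∀ v, D.res1 (k := k) a v ∈ B1 (D.loc ρ v) :=
  ⟨fun h => ⟨h.1, fun v => h.2 v trivial⟩, fun h => ⟨h.1, fun v _ => h.2 v⟩⟩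

lemma mem_Z2 {G : Type} [Group G] {𝒰 : Levels G} {σ : Representation k G V} {a : G × G → V} :
    a ∈ Z2 𝒰 σ ↔ d23 σ a = 0 ∧ a ∈ C2 k V 𝒰 := Iff.rfl

lemma mem_Z1 {G : Type} [Group G] {𝒰 : Levels G} {σ : Representation k G V} {a : G → V} :
    a ∈ Z1 𝒰 σ ↔ d12 σ a = 0 ∧ a ∈ C1 k V 𝒰 := Iff.rfl

lemma mem_ZL1 {z : ∀ v : D.ι, D.Gv v → V} :
    z ∈ D.ZL1 ρ ↔ ∀ v, z v ∈ Z1 (D.levv v) (D.loc ρ v) :=
  ⟨fun h v => h v trivial, fun h v _ => h v⟩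

lemma res1_mem_C1 {f : D.G → V} (hf : f ∈ C1 k V D.lev) (v : D.ι) :
    D.res1 (k := k) f v ∈ C1 k V (D.levv v) :=
  comp_hom_mem_C1 (D.r v) (D.cont v) hf

/-! ### a general lemma -/

lemma nonempty_quot_equiv {M Q : Type*} [AddCommGroup M] [Module k M] [AddCommGroup Q] [Module k Q]
    (φ : M →ₗ[k] Q) (hφ : Function.Surjective φ) (N : Submodule k M)
    (hN : ∀ x, φ x = 0 ↔ x ∈ N) : Nonempty ((M ⧸ N) ≃ₗ[k] Q) := by
  have h : N = LinearMap.ker φ := by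
    ext x
    rw [LinearMap.mem_ker, hN]
  exact ⟨(Submodule.quotEquivOfEq _ _ h).trans (φ.quotKerEquivOfSurjective hφ)⟩

/-! ### degree 2 -/

variable (ρ) in
/-- `(a,b) ↦ a` -/
def fst2 : ↥(D.ZC2 ρ) →ₗ[k] ↥(D.ShaZ2 ρ) :=
  LinearMap.codRestrict _ ((LinearMap.fst k _ _).comp (D.ZC2 ρ).subtype) (by
    intro x
    obtain ⟨h1, h2, h3, h4⟩ := mem_ZC2.mp x.2
    exact mem_ShaZ2.mpr ⟨mem_Z2.mpr ⟨h1, h3⟩, fun v => ⟨_, h4 v, (h2 v).symm⟩⟩)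

variable (ρ) in
/-- `(a,b) ↦ [a]` -/
def toSha2 : ↥(D.ZC2 ρ) →ₗ[k] D.Sha2 ρ :=
  (Submodule.mkQ _).comp (fst2 ρ)

lemma fst2_surjective : Function.Surjective (fst2 (D := D) ρ) := by
  intro a
  obtain ⟨ha1, ha2⟩ := mem_ShaZ2.mp a.2
  obtain ⟨h1, h3⟩ := mem_Z2.mp ha1
  choose b hb1 hb2 using ha2
  exact ⟨⟨(a.1, b), mem_ZC2.mpr ⟨h1, fun v => (hb2 v).symm, h3, hb1⟩⟩, Subtype.ext rfl⟩

lemma toSha2_surjective : Function.Surjective (toSha2 (D := D) ρ) :=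
  (Submodule.mkQ_surjective _).comp fst2_surjective

lemma toSha2_eq_zero_iff_fst (x : ↥(D.ZC2 ρ)) : toSha2 ρ x = 0 ↔ x.1.1 ∈ B2 D.lev ρ := by
  rw [toSha2, LinearMap.comp_apply, Submodule.mkQ_apply, Submodule.Quotient.mk_eq_zero]
  rfl

/-- the key computation: a cone 2-cocycle whose global part is a coboundary -/
lemma exists_of_fst_mem_B2 {x : D.CC2 V} (hx : x ∈ D.ZC2 ρ) (h : x.1 ∈ B2 D.lev ρ) :
    ∃ f ∈ C1 k V D.lev, ∃ z ∈ D.ZL1 ρ, x = D.dc1 ρ (f, 0) + (0, z) := by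
  obtain ⟨a, b⟩ := x
  obtain ⟨h1, h2, h3, h4⟩ := mem_ZC2.mp hx
  obtain ⟨f, hf, hfa⟩ := h
  have hfa' : d12 ρ f = a := hfa
  refine ⟨f, hf, fun v => b v - D.res1 (k := k) f v, mem_ZL1.mpr fun v => mem_Z1.mpr ⟨?_, ?_⟩, ?_⟩
  · rw [map_sub, ← h2 v, ← res2_d12, hfa', sub_self]
  · exact Submodule.sub_mem _ (h4 v) (res1_mem_C1 hf v)
  · rw [dc1_apply, Prod.mk_add_mk, add_zero, hfa']
    congr 1
    funext v
    simp

end ConeSeq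

/-- the submodule of `ZC1` spanned by coboundaries and by `(0,(y_v))`, `y_v ∈ H^0(G_v)` -/
noncomputable def Datum.NC1 (D : Datum) {k : Type} [Field k] {V : Type} [AddCommGroup V] [Module k V]
    (ρ : Representation k D.G V) : Submodule k (D.CC1 V) :=
  D.BC1 ρ ⊔ (Submodule.prod ⊥ (Submodule.pi Set.univ fun v => (D.loc ρ v).invariants))

/-- the submodule of `ZC2` spanned by coboundaries and by `(0,(b_v))`, `b_v ∈ Z^1(G_v)` -/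
noncomputable def Datum.NC2 (D : Datum) {k : Type} [Field k] {V : Type} [AddCommGroup V] [Module k V]
    (ρ : Representation k D.G V) : Submodule k (D.CC2 V) :=
  D.BC2 ρ ⊔ (Submodule.prod ⊥ (D.ZL1 ρ))

namespace ConeSeq

lemma fst_mem_B2_of_mem_NC2 {x : D.CC2 V} (h : x ∈ D.NC2 ρ) : x.1 ∈ B2 D.lev ρ := by
  obtain ⟨y, hy, z, hz, rfl⟩ := Submodule.mem_sup.mp h
  obtain ⟨⟨f, c⟩, hfc, rfl⟩ := hy
  have hz1 : z.1 = 0 := hz.1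
  rw [Prod.fst_add, hz1, add_zero, dc1_apply]
  exact ⟨f, hfc.1, rfl⟩

lemma toSha2_eq_zero_iff (x : ↥(D.ZC2 ρ)) :
    toSha2 ρ x = 0 ↔ x ∈ (D.NC2 ρ).submoduleOf (D.ZC2 ρ) := by
  rw [toSha2_eq_zero_iff_fst]
  constructor
  · intro h
    obtain ⟨f, hf, z, hz, hx⟩ := exists_of_fst_mem_B2 x.2 h
    show x.1 ∈ D.NC2 ρ
    rw [hx]
    exact Submodule.add_mem_sup ⟨(f, 0), ⟨hf, trivial⟩, rfl⟩ ⟨rfl, hz⟩
  · intro h
    exact fst_mem_B2_of_mem_NC2 h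

/-! ### degree 1 -/

variable (ρ) in
/-- `(a,y) ↦ a` -/
def fst1 : ↥(D.ZC1 ρ) →ₗ[k] ↥(D.ShaZ1 ρ) :=
  LinearMap.codRestrict _ ((LinearMap.fst k _ _).comp (D.ZC1 ρ).subtype) (by
    intro x
    obtain ⟨h1, h2, h3⟩ := mem_ZC1.mp x.2
    exact mem_ShaZ1.mpr ⟨mem_Z1.mpr ⟨h1, h3⟩, fun v => ⟨_, (h2 v).symm⟩⟩)

variable (ρ) in
/-- `(a,y) ↦ [a]` -/
def toSha1 : ↥(D.ZC1 ρ) →ₗ[k] D.Sha1 ρ :=
  (Submodule.mkQ _).comp (fst1 ρ)

lemma fst1_surjective : Function.Surjective (fst1 (D := D) ρ) := by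
  intro a
  obtain ⟨ha1, ha2⟩ := mem_ShaZ1.mp a.2
  obtain ⟨h1, h3⟩ := mem_Z1.mp ha1
  choose y hy using ha2
  exact ⟨⟨(a.1, y), mem_ZC1.mpr ⟨h1, fun v => (hy v).symm, h3⟩⟩, Subtype.ext rfl⟩

lemma toSha1_surjective : Function.Surjective (toSha1 (D := D) ρ) :=
  (Submodule.mkQ_surjective _).comp fst1_surjective

lemma toSha1_eq_zero_iff_fst (x : ↥(D.ZC1 ρ)) : toSha1 ρ x = 0 ↔ x.1.1 ∈ B1 ρ := by
  rw [toSha1, LinearMap.comp_apply, Submodule.mkQ_apply, Submodule.Quotient.mk_eq_zero]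
  rfl

lemma d01_eq_zero_iff {G : Type} [Group G] {σ : Representation k G V} {y : V} :
    d01 σ y = 0 ↔ y ∈ σ.invariants := by
  rw [Representation.mem_invariants]
  constructor
  · intro h g
    have := congrFun h g
    rwa [d01_apply, Pi.zero_apply, sub_eq_zero] at this
  · intro h
    funext g
    rw [d01_apply, h g, sub_self, Pi.zero_apply]

lemma toSha1_eq_zero_iff (x : ↥(D.ZC1 ρ)) :
    toSha1 ρ x = 0 ↔ x ∈ (D.NC1 ρ).submoduleOf (D.ZC1 ρ) := by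
  rw [toSha1_eq_zero_iff_fst]
  obtain ⟨⟨a, y⟩, hx⟩ := x
  obtain ⟨h1, h2, h3⟩ := mem_ZC1.mp hx
  constructor
  · rintro ⟨x₀, hx₀⟩
    have hx₀' : d01 ρ x₀ = a := hx₀
    show (a, y) ∈ D.NC1 ρ
    have : (a, y) = D.dc0 ρ x₀ + (0, fun v => y v - x₀) := by
      rw [dc0_apply, Prod.mk_add_mk, add_zero, hx₀']
      congr 1
      funext v
      simp
    rw [this]
    refine Submodule.add_mem_sup ⟨x₀, rfl⟩ ⟨rfl, fun v _ => ?_⟩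
    show y v - x₀ ∈ (D.loc ρ v).invariants
    rw [← d01_eq_zero_iff, map_sub, ← h2 v, ← res1_d01, hx₀', sub_self]
  · intro h
    obtain ⟨u, ⟨x₀, rfl⟩, z, hz, huz⟩ := Submodule.mem_sup.mp h
    have hz1 : z.1 = 0 := hz.1
    have := congrArg Prod.fst huz
    rw [Prod.fst_add, hz1, add_zero, dc0_apply] at this
    exact ⟨x₀, this⟩

/-! ### the sequence `0 → Coker1 → HC2 → Sha2 → 0` -/

lemma BC2_le_NC2 : D.BC2 ρ ≤ D.NC2 ρ := le_sup_left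

variable (ρ) in
/-- `HC2 → Sha2` -/
def hcToSha2 : D.HC2 ρ →ₗ[k] D.Sha2 ρ :=
  Submodule.liftQ _ (toSha2 ρ) (by
    intro x hx
    rw [LinearMap.mem_ker, toSha2_eq_zero_iff]
    exact BC2_le_NC2 hx)

lemma hcToSha2_mk (x : ↥(D.ZC2 ρ)) : hcToSha2 ρ (Submodule.Quotient.mk x) = toSha2 ρ x := rfl

lemma hcToSha2_surjective : Function.Surjective (hcToSha2 (D := D) ρ) := by
  intro y
  obtain ⟨x, rfl⟩ := toSha2_surjective y
  exact ⟨Submodule.Quotient.mk x, rfl⟩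

lemma zero_mk_mem_ZC2 {z : ∀ v : D.ι, D.Gv v → V} (hz : z ∈ D.ZL1 ρ) :
    ((0, z) : D.CC2 V) ∈ D.ZC2 ρ := by
  refine mem_ZC2.mpr ⟨map_zero _, fun v => ?_, Submodule.zero_mem _, fun v => (mem_ZL1.mp hz v).2⟩
  have h : d12 (D.loc ρ v) (z v) = 0 := (mem_ZL1.mp hz v).1
  show D.res2 (k := k) 0 v = d12 (D.loc ρ v) (z v)
  rw [h, map_zero]
  rfl

variable (ρ) in
/-- `z ↦ (0,z)` -/
def inclZL1 : ↥(D.ZL1 ρ) →ₗ[k] ↥(D.ZC2 ρ) :=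
  LinearMap.codRestrict _ ((LinearMap.inr k _ _).comp (D.ZL1 ρ).subtype)
    (fun z => zero_mk_mem_ZC2 z.2)

variable (ρ) in
/-- `z ↦ [(0,z)]` -/
def zlToHC2 : ↥(D.ZL1 ρ) →ₗ[k] D.HC2 ρ := (Submodule.mkQ _).comp (inclZL1 ρ)

lemma zlToHC2_eq_zero_iff (z : ↥(D.ZL1 ρ)) :
    zlToHC2 ρ z = 0 ↔ z ∈ (D.RL1 ρ).submoduleOf (D.ZL1 ρ) := by
  rw [zlToHC2, LinearMap.comp_apply, Submodule.mkQ_apply, Submodule.Quotient.mk_eq_zero]
  show ((0, z.1) : D.CC2 V) ∈ D.BC2 ρ ↔ z.1 ∈ D.RL1 ρ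
  constructor
  · rintro ⟨⟨f, y⟩, hfy, h⟩
    rw [dc1_apply, Prod.mk.injEq] at h
    obtain ⟨h1, h2⟩ := h
    rw [← h2]
    have : (fun v => D.res1 (k := k) f v - d01 (D.loc ρ v) (y v)) =
        (fun v => d01 (D.loc ρ v) (- y v)) + D.res1 (k := k) f := by
      funext v
      rw [Pi.add_apply, map_neg]
      abel
    rw [this]
    exact Submodule.add_mem_sup (fun v _ => ⟨_, rfl⟩) ⟨f, mem_Z1.mpr ⟨h1, hfy.1⟩, rfl⟩
  · intro h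
    obtain ⟨β, hβ, w, ⟨f, hf, rfl⟩, hz⟩ := Submodule.mem_sup.mp h
    have hβ' : ∀ v, ∃ y, d01 (D.loc ρ v) y = β v := fun v => hβ v trivial
    choose y hy using hβ'
    refine ⟨(f, fun v => - y v), ⟨(mem_Z1.mp hf).2, trivial⟩, ?_⟩
    rw [dc1_apply, (mem_Z1.mp hf).1, ← hz]
    congr 1
    funext v
    rw [Pi.add_apply, map_neg, hy v]
    abel

variable (ρ) in
/-- `Coker1 → HC2` -/
def cokerToHC2 : D.Coker1 ρ →ₗ[k] D.HC2 ρ :=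
  Submodule.liftQ _ (zlToHC2 ρ) (by
    intro z hz
    rw [LinearMap.mem_ker, zlToHC2_eq_zero_iff]
    exact hz)

lemma cokerToHC2_injective : Function.Injective (cokerToHC2 (D := D) ρ) := by
  rw [← LinearMap.ker_eq_bot, cokerToHC2, Submodule.ker_liftQ_eq_bot']
  ext z
  rw [LinearMap.mem_ker, zlToHC2_eq_zero_iff]

lemma range_cokerToHC2 :
    LinearMap.range (cokerToHC2 (D := D) ρ) = LinearMap.ker (hcToSha2 ρ) := by
  ext c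
  obtain ⟨x, rfl⟩ := Submodule.Quotient.mk_surjective _ c
  rw [LinearMap.mem_ker, hcToSha2_mk, toSha2_eq_zero_iff_fst, LinearMap.mem_range]
  constructor
  · rintro ⟨w, hw⟩
    obtain ⟨z, rfl⟩ := Submodule.Quotient.mk_surjective _ w
    have h1 : (Submodule.Quotient.mk (inclZL1 ρ z) : D.HC2 ρ) = Submodule.Quotient.mk x := hw
    rw [Submodule.Quotient.eq] at h1
    have h2 : ((0, z.1) : D.CC2 V) - x.1 ∈ D.BC2 ρ := h1
    have h3 := fst_mem_B2_of_mem_NC2 (BC2_le_NC2 h2)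
    rw [Prod.fst_sub, zero_sub] at h3
    simpa using Submodule.neg_mem _ h3
  · intro h
    obtain ⟨f, hf, z, hz, hx⟩ := exists_of_fst_mem_B2 x.2 h
    refine ⟨Submodule.Quotient.mk ⟨z, hz⟩, ?_⟩
    show (Submodule.Quotient.mk (inclZL1 ρ ⟨z, hz⟩) : D.HC2 ρ) = Submodule.Quotient.mk x
    rw [Submodule.Quotient.eq]
    show ((0, z) : D.CC2 V) - x.1 ∈ D.BC2 ρ
    rw [hx, sub_add_cancel_right]
    exact Submodule.neg_mem _ ⟨(f, 0), ⟨hf, trivial⟩, rfl⟩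

end ConeSeq

theorem finite_HC2 (hρ : IsSmooth D.lev ρ) [Module.Finite k (D.Coker1 ρ)]
    [Module.Finite k (D.Sha2 ρ)] : Module.Finite k (D.HC2 ρ) := by
  have h1 : Module.Finite k (LinearMap.ker (ConeSeq.hcToSha2 (D := D) ρ)) := by
    rw [← ConeSeq.range_cokerToHC2]
    infer_instance
  have h2 : Module.Finite k (D.HC2 ρ ⧸ LinearMap.ker (ConeSeq.hcToSha2 (D := D) ρ)) :=
    Module.Finite.equiv
      ((ConeSeq.hcToSha2 (D := D) ρ).quotKerEquivOfSurjective ConeSeq.hcToSha2_surjective).symm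
  exact Module.Finite.of_submodule_quotient (LinearMap.ker (ConeSeq.hcToSha2 (D := D) ρ))

theorem finrank_HC2 (hρ : IsSmooth D.lev ρ) [Module.Finite k (D.Coker1 ρ)]
    [Module.Finite k (D.Sha2 ρ)] :
    finrank k (D.HC2 ρ) = finrank k (D.Coker1 ρ) + finrank k (D.Sha2 ρ) := by
  have := finite_HC2 hρ
  rw [← LinearMap.finrank_range_add_finrank_ker (ConeSeq.hcToSha2 (D := D) ρ),
    LinearMap.range_eq_top.mpr ConeSeq.hcToSha2_surjective, finrank_top,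
    ← ConeSeq.range_cokerToHC2, LinearMap.finrank_range_of_inj ConeSeq.cokerToHC2_injective,
    add_comm]

/-- `ZC1 / NC1 ≃ Sha1`, `[(a,y)] ↦ [a]` -/
theorem ZC1_quot_equiv (hρ : IsSmooth D.lev ρ) :
    Nonempty ((↥(D.ZC1 ρ) ⧸ (D.NC1 ρ).submoduleOf (D.ZC1 ρ)) ≃ₗ[k] D.Sha1 ρ) :=
  ConeSeq.nonempty_quot_equiv (ConeSeq.toSha1 ρ) ConeSeq.toSha1_surjective _
    ConeSeq.toSha1_eq_zero_iff

/-- `ZC2 / NC2 ≃ Sha2`, `[(a,b)] ↦ [a]` -/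
theorem ZC2_quot_equiv (hρ : IsSmooth D.lev ρ) :
    Nonempty ((↥(D.ZC2 ρ) ⧸ (D.NC2 ρ).submoduleOf (D.ZC2 ρ)) ≃ₗ[k] D.Sha2 ρ) :=
  ConeSeq.nonempty_quot_equiv (ConeSeq.toSha2 ρ) ConeSeq.toSha2_surjective _
    ConeSeq.toSha2_eq_zero_iff

end Fermat.Agent.CFT
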