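import Fermat.Agent.CFT.F.CupDefs

/-! # CFT / Part F: the cone cups and the push-forwards as (bi)linear maps. -/

set_option autoImplicit false

namespace Fermat.Agent.CFT

variable (D : Datum) {k : Type} [CommRing k] {V V' : Type} [AddCommGroup V] [Module k V]
  [AddCommGroup V'] [Module k V'] (ρ' : Representation k D.G V') (β : V →ₗ[k] V' →ₗ[k] k)

/-- `push1` as a linear map -/
def Datum.push1L {W W' : Type} [AddCommGroup W] [Module k W] [AddCommGroup W'] [Module k W']
    (f : W →ₗ[k] W') : D.CC1 W →ₗ[k] D.CC1 W' where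
  toFun := D.push1 f
  map_add' c c' := by
    refine Prod.ext (funext fun g => ?_) (funext fun v => ?_) <;> simp [Datum.push1]
  map_smul' r c := by
    refine Prod.ext (funext fun g => ?_) (funext fun v => ?_) <;> simp [Datum.push1]

/-- `push2` as a linear map -/
def Datum.push2L {W W' : Type} [AddCommGroup W] [Module k W] [AddCommGroup W'] [Module k W']
    (f : W →ₗ[k] W') : D.CC2 W →ₗ[k] D.CC2 W' where
  toFun := D.push2 f
  map_add' c c' := by
    refine Prod.ext (funext fun g => ?_) (funext fun v => funext fun g => ?_) <;> simp [Datum.push2]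
  map_smul' r c := by
    refine Prod.ext (funext fun g => ?_) (funext fun v => funext fun g => ?_) <;> simp [Datum.push2]

/-- `push3` as a linear map -/
def Datum.push3L {W W' : Type} [AddCommGroup W] [Module k W] [AddCommGroup W'] [Module k W']
    (f : W →ₗ[k] W') : D.CC3 W →ₗ[k] D.CC3 W' where
  toFun := D.push3 f
  map_add' c c' := by
    refine Prod.ext (funext fun g => ?_) (funext fun v => funext fun g => ?_) <;> simp [Datum.push3]
  map_smul' r c := by
    refine Prod.ext (funext fun g => ?_) (funext fun v => funext fun g => ?_) <;> simp [Datum.push3]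

@[simp] lemma Datum.push1L_apply {W W' : Type} [AddCommGroup W] [Module k W] [AddCommGroup W']
    [Module k W'] (f : W →ₗ[k] W') (c : D.CC1 W) : D.push1L f c = D.push1 f c := rfl
@[simp] lemma Datum.push2L_apply {W W' : Type} [AddCommGroup W] [Module k W] [AddCommGroup W']
    [Module k W'] (f : W →ₗ[k] W') (c : D.CC2 W) : D.push2L f c = D.push2 f c := rfl
@[simp] lemma Datum.push3L_apply {W W' : Type} [AddCommGroup W] [Module k W] [AddCommGroup W']
    [Module k W'] (f : W →ₗ[k] W') (c : D.CC3 W) : D.push3L f c = D.push3 f c := rfl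

/-- `ccup03` as a bilinear map -/
def Datum.ccup03L : V →ₗ[k] D.CC3 V' →ₗ[k] D.CC3 k :=
  LinearMap.mk₂ k (D.ccup03 β)
    (fun a a' c => by
      refine Prod.ext (funext fun g => ?_) (funext fun v => funext fun g => ?_) <;>
        simp [Datum.ccup03, cup03, cup02])
    (fun r a c => by
      refine Prod.ext (funext fun g => ?_) (funext fun v => funext fun g => ?_) <;>
        simp [Datum.ccup03, cup03, cup02])
    (fun a c c' => by
      refine Prod.ext (funext fun g => ?_) (funext fun v => funext fun g => ?_) <;>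
        simp [Datum.ccup03, cup03, cup02])
    (fun r a c => by
      refine Prod.ext (funext fun g => ?_) (funext fun v => funext fun g => ?_) <;>
        simp [Datum.ccup03, cup03, cup02])

/-- `ccup12` as a bilinear map -/
def Datum.ccup12L : (D.G → V) →ₗ[k] D.CC2 V' →ₗ[k] D.CC3 k :=
  LinearMap.mk₂ k (D.ccup12 ρ' β)
    (fun a a' c => by
      refine Prod.ext (funext fun g => ?_) (funext fun v => funext fun g => ?_) <;>
        simp [Datum.ccup12, cup12, cup11, add_comm])
    (fun r a c => by
      refine Prod.ext (funext fun g => ?_) (funext fun v => funext fun g => ?_) <;>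
        simp [Datum.ccup12, cup12, cup11])
    (fun a c c' => by
      refine Prod.ext (funext fun g => ?_) (funext fun v => funext fun g => ?_) <;>
        simp [Datum.ccup12, cup12, cup11, add_comm])
    (fun r a c => by
      refine Prod.ext (funext fun g => ?_) (funext fun v => funext fun g => ?_) <;>
        simp [Datum.ccup12, cup12, cup11])

/-- `ccup21` as a bilinear map -/
def Datum.ccup21L : (D.G × D.G → V) →ₗ[k] D.CC1 V' →ₗ[k] D.CC3 k :=
  LinearMap.mk₂ k (D.ccup21 ρ' β)
    (fun a a' c => by
      refine Prod.ext (funext fun g => ?_) (funext fun v => funext fun g => ?_) <;>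
        simp [Datum.ccup21, cup21, cup20])
    (fun r a c => by
      refine Prod.ext (funext fun g => ?_) (funext fun v => funext fun g => ?_) <;>
        simp [Datum.ccup21, cup21, cup20])
    (fun a c c' => by
      refine Prod.ext (funext fun g => ?_) (funext fun v => funext fun g => ?_) <;>
        simp [Datum.ccup21, cup21, cup20])
    (fun r a c => by
      refine Prod.ext (funext fun g => ?_) (funext fun v => funext fun g => ?_) <;>
        simp [Datum.ccup21, cup21, cup20])

@[simp] lemma Datum.ccup03L_apply (x : V) (c : D.CC3 V') :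
    D.ccup03L β x c = D.ccup03 β x c := rfl
@[simp] lemma Datum.ccup12L_apply (a : D.G → V) (c : D.CC2 V') :
    D.ccup12L ρ' β a c = D.ccup12 ρ' β a c := rfl
@[simp] lemma Datum.ccup21L_apply (a : D.G × D.G → V) (c : D.CC1 V') :
    D.ccup21L ρ' β a c = D.ccup21 ρ' β a c := rfl

/-- `a ↦ (c ↦ Φ (a ∪ c))`, degrees (1,2) -/
def Datum.pair12 (Φ : D.CC3 k →ₗ[k] k) : (D.G → V) →ₗ[k] D.CC2 V' →ₗ[k] k :=
  (D.ccup12L ρ' β).compr₂ Φ
/-- `a ↦ (c ↦ Φ (a ∪ c))`, degrees (2,1) -/
def Datum.pair21 (Φ : D.CC3 k →ₗ[k] k) : (D.G × D.G → V) →ₗ[k] D.CC1 V' →ₗ[k] k :=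
  (D.ccup21L ρ' β).compr₂ Φ

@[simp] lemma Datum.pair12_apply (Φ : D.CC3 k →ₗ[k] k) (a : D.G → V) (c : D.CC2 V') :
    D.pair12 ρ' β Φ a c = Φ (D.ccup12 ρ' β a c) := rfl
@[simp] lemma Datum.pair21_apply (Φ : D.CC3 k →ₗ[k] k) (a : D.G × D.G → V) (c : D.CC1 V') :
    D.pair21 ρ' β Φ a c = Φ (D.ccup21 ρ' β a c) := rfl

/-- composition of push-forwards -/
lemma Datum.push2_push2 {W W' W'' : Type} [AddCommGroup W] [Module k W] [AddCommGroup W']
    [Module k W'] [AddCommGroup W''] [Module k W''] (f : W →ₗ[k] W') (f' : W' →ₗ[k] W'')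
    (c : D.CC2 W) : D.push2 f' (D.push2 f c) = D.push2 (f' ∘ₗ f) c := rfl

lemma Datum.push2_zero {W W' : Type} [AddCommGroup W] [Module k W] [AddCommGroup W']
    [Module k W'] (c : D.CC2 W) : D.push2 (0 : W →ₗ[k] W') c = 0 := rfl

end Fermat.Agent.CFT
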