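import Mathlib

/-! # CFT / Part F: three pure linear algebra lemmas used by the chases (F9, F10, F11, F12).

* `LinAlg.exists_factor` : a functional vanishing on `ker f` factors through `f`.
* `LinAlg.exists_extend_functional` : `w` on `Z₁ ≤ Y₁`, `P : Y₁ → Y₂`, `B₂ ≤ Y₂`; if `w e = 0` whenever
  `e ∈ Z₁`, `P e ∈ B₂`, then there is `u` on `Y₂` killing `B₂` with `u (P e) = w e` on `Z₁`.
* `LinAlg.exists_rep_of_finrank_le` : a pairing `Ψ` between `Z/B` and `ZC/BC` which is injective on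
  the left, with `dim ZC/BC ≤ dim Z/B < ∞`: every functional on `ZC/BC` is `Ψ a`.
-/

set_option autoImplicit false

namespace Fermat.Agent.CFT.LinAlg

open Module

variable {k : Type*} [Field k]

/-- a functional vanishing on `ker f` factors through `f` -/
theorem exists_factor {A B : Type*} [AddCommGroup A] [Module k A] [AddCommGroup B] [Module k B]
    (f : A →ₗ[k] B) (g : A →ₗ[k] k) (h : ∀ x, f x = 0 → g x = 0) :
    ∃ u : B →ₗ[k] k, ∀ x, u (f x) = g x := by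
  have hg : g ∈ LinearMap.range f.dualMap := by
    rw [LinearMap.range_dualMap_eq_dualAnnihilator_ker]
    rw [Submodule.mem_dualAnnihilator]
    intro x hx
    exact h x hx
  obtain ⟨u, hu⟩ := hg
  exact ⟨u, fun x => by rw [← hu]; rfl⟩

theorem exists_extend_functional {Y₁ Y₂ : Type*} [AddCommGroup Y₁] [Module k Y₁]
    [AddCommGroup Y₂] [Module k Y₂] (P : Y₁ →ₗ[k] Y₂) (Z₁ : Submodule k Y₁) (B₂ : Submodule k Y₂)
    (w : Y₁ →ₗ[k] k) (hw : ∀ e ∈ Z₁, P e ∈ B₂ → w e = 0) :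
    ∃ u : Y₂ →ₗ[k] k, (∀ c ∈ B₂, u c = 0) ∧ ∀ e ∈ Z₁, u (P e) = w e := by
  obtain ⟨u, hu⟩ := exists_factor (B₂.mkQ ∘ₗ P ∘ₗ Z₁.subtype) (w ∘ₗ Z₁.subtype) (by
    intro x hx
    have : P x ∈ B₂ := by simpa using hx
    exact hw x x.2 this)
  refine ⟨u ∘ₗ B₂.mkQ, fun c hc => ?_, fun e he => hu ⟨e, he⟩⟩
  have : B₂.mkQ c = 0 := by simpa using hc
  simp [this]

theorem exists_rep_of_finrank_le {X Y : Type*} [AddCommGroup X] [Module k X]
    [AddCommGroup Y] [Module k Y] (Z B : Submodule k X) (ZC BC : Submodule k Y)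
    (Ψ : X →ₗ[k] Y →ₗ[k] k)
    (h1 : ∀ a ∈ Z, ∀ c ∈ BC, Ψ a c = 0)
    (h2 : ∀ a ∈ Z, (∀ c ∈ ZC, Ψ a c = 0) → a ∈ B)
    [Module.Finite k (↥ZC ⧸ BC.submoduleOf ZC)] [Module.Finite k (↥Z ⧸ B.submoduleOf Z)]
    (hle : finrank k (↥ZC ⧸ BC.submoduleOf ZC) ≤ finrank k (↥Z ⧸ B.submoduleOf Z))
    (u : Y →ₗ[k] k) (hu : ∀ c ∈ BC, u c = 0) :
    ∃ a ∈ Z, ∀ c ∈ ZC, u c = Ψ a c := by
  -- the map `T : Z → (ZC/BC)^*`
  let T₀ : ↥Z →ₗ[k] (↥ZC →ₗ[k] k) :=
    (LinearMap.lcomp k k ZC.subtype) ∘ₗ Ψ ∘ₗ Z.subtype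
  have hT₀ : ∀ a : ↥Z, BC.submoduleOf ZC ≤ LinearMap.ker (T₀ a) := by
    intro a c hc
    exact h1 a a.2 c hc
  let T : ↥Z →ₗ[k] Module.Dual k (↥ZC ⧸ BC.submoduleOf ZC) :=
    { toFun := fun a => (BC.submoduleOf ZC).liftQ (T₀ a) (hT₀ a)
      map_add' := fun a b => by
        ext c
        simp
      map_smul' := fun r a => by
        ext c
        simp }
  have hTapp : ∀ (a : ↥Z) (c : ↥ZC), T a ((BC.submoduleOf ZC).mkQ c) = Ψ a c := fun a c => rfl
  have hker : LinearMap.ker T ≤ B.submoduleOf Z := by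
    intro a ha
    refine h2 a a.2 fun c hc => ?_
    have := hTapp a ⟨c, hc⟩
    rw [LinearMap.mem_ker.mp ha] at this
    simpa using this.symm
  have hsurj : LinearMap.range T = ⊤ := by
    apply Submodule.eq_top_of_finrank_eq
    apply le_antisymm (Submodule.finrank_le _)
    rw [Subspace.dual_finrank_eq]
    refine hle.trans ?_
    rw [← (LinearMap.quotKerEquivRange T).finrank_eq]
    have : Module.Finite k (↥Z ⧸ LinearMap.ker T) :=
      Module.Finite.equiv (LinearMap.quotKerEquivRange T).symm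
    exact LinearMap.finrank_le_finrank_of_surjective (f := Submodule.factor hker)
      (Submodule.factor_surjective hker)
  let u' : Module.Dual k (↥ZC ⧸ BC.submoduleOf ZC) :=
    (BC.submoduleOf ZC).liftQ (u ∘ₗ ZC.subtype) (fun c hc => hu c hc)
  obtain ⟨a, ha⟩ : u' ∈ LinearMap.range T := hsurj ▸ Submodule.mem_top
  refine ⟨a, a.2, fun c hc => ?_⟩
  rw [← hTapp a ⟨c, hc⟩, ha]
  rfl

end Fermat.Agent.CFT.LinAlg
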