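import Fermat.Agent.CFT.F.Chase1
import Fermat.Agent.CFT.F.ConeSeq
import Fermat.Agent.CFT.F.LinAlg
import Fermat.Agent.CFT.F.CupLin

/-! # CFT / Part F: dimension bounds from one-sided non-degeneracy, and the bound
`dim Coker1 P + dim Sha2 P ≤ dim H1 P` for `P = k[G/U]` from the numerical input `ineq'`.

`0 → Sha1 P → H1 P → ∏ H1_v P → Coker1 P → 0`, `dim Sha1 P ≤ dim Sha2 P'` (`inj1`), `P' ≅ P`. -/

set_option autoImplicit false

namespace Fermat.Agent.CFT

open Module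

/-- linear algebra: a pairing `ZA/BA × ZC/NC → k` which is non-degenerate on the left bounds the
dimension of `ZA/BA`. -/
theorem finrank_quot_le_of_pairing {k : Type} [Field k] {A C : Type} [AddCommGroup A] [Module k A]
    [AddCommGroup C] [Module k C] (ZA BA : Submodule k A) (ZC NC : Submodule k C)
    (P : A →ₗ[k] C →ₗ[k] k)
    (h1 : ∀ a ∈ BA, a ∈ ZA → ∀ c ∈ ZC, P a c = 0)
    (h2 : ∀ a ∈ ZA, ∀ c ∈ NC, c ∈ ZC → P a c = 0)
    (h3 : ∀ a ∈ ZA, (∀ c ∈ ZC, P a c = 0) → a ∈ BA)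
    [Module.Finite k (↥ZC ⧸ NC.submoduleOf ZC)] :
    Module.Finite k (↥ZA ⧸ BA.submoduleOf ZA) ∧
      finrank k (↥ZA ⧸ BA.submoduleOf ZA) ≤ finrank k (↥ZC ⧸ NC.submoduleOf ZC) := by
  -- the map `ZA → Dual (ZC / NC)`
  let P1 : ↥ZA →ₗ[k] Module.Dual k (↥ZC ⧸ NC.submoduleOf ZC) :=
    { toFun := fun a => (NC.submoduleOf ZC).liftQ ((P a.1).comp ZC.subtype) (by
        intro c hc
        exact h2 a.1 a.2 c.1 hc c.2)
      map_add' := by
        intro a b
        apply Submodule.linearMap_qext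
        ext c
        show P (a.1 + b.1) c.1 = P a.1 c.1 + P b.1 c.1
        rw [map_add, LinearMap.add_apply]
      map_smul' := by
        intro r a
        apply Submodule.linearMap_qext
        ext c
        show P (r • a.1) c.1 = r • P a.1 c.1
        rw [map_smul, LinearMap.smul_apply] }
  have hP1 : ∀ (a : ↥ZA) (c : ↥ZC), P1 a (Submodule.Quotient.mk c) = P a.1 c.1 := fun a c => rfl
  let P2 : (↥ZA ⧸ BA.submoduleOf ZA) →ₗ[k] Module.Dual k (↥ZC ⧸ NC.submoduleOf ZC) :=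
    (BA.submoduleOf ZA).liftQ P1 (by
      intro a ha
      rw [LinearMap.mem_ker]
      apply Submodule.linearMap_qext
      ext c
      exact h1 a.1 ha a.2 c.1 c.2)
  have hinj : Function.Injective P2 := by
    rw [← LinearMap.ker_eq_bot, Submodule.ker_liftQ_eq_bot']
    apply le_antisymm
    · intro a ha
      rw [LinearMap.mem_ker]
      apply Submodule.linearMap_qext
      ext c
      exact h1 a.1 ha a.2 c.1 c.2
    · intro a ha
      rw [LinearMap.mem_ker] at ha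
      apply h3 a.1 a.2
      intro c hc
      have := congrArg (fun f => f (Submodule.Quotient.mk ⟨c, hc⟩)) ha
      simpa [hP1] using this
  refine ⟨Module.Finite.of_injective P2 hinj, ?_⟩
  calc finrank k (↥ZA ⧸ BA.submoduleOf ZA)
      ≤ finrank k (Module.Dual k (↥ZC ⧸ NC.submoduleOf ZC)) := LinearMap.finrank_le_finrank_of_injective hinj
    _ = finrank k (↥ZC ⧸ NC.submoduleOf ZC) := Subspace.dual_finrank_eq


variable {D : Datum} {k : Type} [Field k] {χ : D.G →* kˣ}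
  {lam : ∀ v : D.ι, (D.Gv v × D.Gv v → k) →ₗ[k] k} {Φ : D.CC3 k →ₗ[k] k}

/-- generic form of `sha2_le` -/
theorem sha2_le_aux {V V' : Type} [AddCommGroup V] [Module k V] [AddCommGroup V'] [Module k V']
    {ρ : Representation k D.G V} {ρ' : Representation k D.G V'} {β : V →ₗ[k] V' →ₗ[k] k}
    (hβ : IsEquivPairing ρ ρ' χ β) (hρ' : IsSmooth D.lev ρ') [Module.Finite k (D.Sha1 ρ')]
    (hbdry : ∀ c ∈ D.BC3 (chiRep χ), Φ c = 0)
    (hinj : ∀ a ∈ Z2 D.lev ρ, (∀ c ∈ D.ZC1 ρ', Φ (D.ccup21 ρ' β a c) = 0) → a ∈ B2 D.lev ρ) :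
    Module.Finite k (D.Sha2 ρ) ∧ finrank k (D.Sha2 ρ) ≤ finrank k (D.Sha1 ρ') := by
  obtain ⟨e⟩ := ZC1_quot_equiv (D := D) hρ'
  have hfin' : Module.Finite k (↥(D.ZC1 ρ') ⧸ (D.NC1 ρ').submoduleOf (D.ZC1 ρ')) :=
    Module.Finite.equiv e.symm
  have key := finrank_quot_le_of_pairing (D.ShaZ2 ρ) (B2 D.lev ρ) (D.ZC1 ρ')
    (D.NC1 ρ') (D.pair21 ρ' β Φ)
    (fun a ha _ c hc => hbdry _ (ccup21_mem_BC3_of_B2 hβ hρ' ha hc))
    (fun a ha c hc _ => by
      obtain ⟨c₁, hc₁, c₂, hc₂, rfl⟩ := Submodule.mem_sup.mp hc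
      rw [map_add]
      have e1 : D.pair21 ρ' β Φ a c₁ = 0 :=
        hbdry _ (ccup21_mem_BC3_of_BC1 hβ hρ' ha.1 hc₁)
      have e2 : D.pair21 ρ' β Φ a c₂ = 0 := by
        obtain ⟨c₂₁, y⟩ := c₂
        obtain ⟨h0, hy⟩ := Submodule.mem_prod.mp hc₂
        have h0' : c₂₁ = 0 := (Submodule.mem_bot k).mp h0
        subst h0'
        exact hbdry _ (ccup21_mem_BC3_of_ShaZ2 hβ ha y
          (fun v g => (Submodule.mem_pi.mp hy v (Set.mem_univ v)) g))
      rw [e1, e2, add_zero])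
    (fun a ha h => hinj a ha.1 h)
  exact ⟨key.1, key.2.trans_eq e.finrank_eq⟩

/-- generic form of `sha1_le` -/
theorem sha1_le_aux {V V' : Type} [AddCommGroup V] [Module k V] [AddCommGroup V'] [Module k V']
    {ρ : Representation k D.G V} {ρ' : Representation k D.G V'} {β : V →ₗ[k] V' →ₗ[k] k}
    (hβ : IsEquivPairing ρ ρ' χ β) (hρ' : IsSmooth D.lev ρ') [Module.Finite k (D.Sha2 ρ')]
    (hbdry : ∀ c ∈ D.BC3 (chiRep χ), Φ c = 0)
    (hinj : ∀ a ∈ Z1 D.lev ρ, (∀ c ∈ D.ZC2 ρ', Φ (D.ccup12 ρ' β a c) = 0) → a ∈ B1 ρ) :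
    finrank k (D.Sha1 ρ) ≤ finrank k (D.Sha2 ρ') := by
  obtain ⟨e⟩ := ZC2_quot_equiv (D := D) hρ'
  have hfin' : Module.Finite k (↥(D.ZC2 ρ') ⧸ (D.NC2 ρ').submoduleOf (D.ZC2 ρ')) :=
    Module.Finite.equiv e.symm
  have key := finrank_quot_le_of_pairing (D.ShaZ1 ρ) (B1 ρ) (D.ZC2 ρ')
    (D.NC2 ρ') (D.pair12 ρ' β Φ)
    (fun a ha _ c hc => hbdry _ (ccup12_mem_BC3_of_B1 hβ ha hc))
    (fun a ha c hc _ => by
      obtain ⟨c₁, hc₁, c₂, hc₂, rfl⟩ := Submodule.mem_sup.mp hc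
      rw [map_add]
      have e1 : D.pair12 ρ' β Φ a c₁ = 0 :=
        hbdry _ (ccup12_mem_BC3_of_BC2 hβ hρ' ha.1 hc₁)
      have e2 : D.pair12 ρ' β Φ a c₂ = 0 := by
        obtain ⟨c₂₁, b⟩ := c₂
        obtain ⟨h0, hb⟩ := Submodule.mem_prod.mp hc₂
        have h0' : c₂₁ = 0 := (Submodule.mem_bot k).mp h0
        subst h0'
        exact hbdry _ (ccup12_mem_BC3_of_ShaZ1 hβ ha b hb)
      rw [e1, e2, add_zero])
    (fun a ha h => hinj a ha.1 h)
  exact key.2.trans_eq e.finrank_eq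

/-- four term exact sequence `0 → Sha → ZA/BA → ZC/BC → Coker → 0`, dimension count -/
theorem LinAlg.finrank_four_term {k : Type} [Field k] {A C : Type} [AddCommGroup A] [Module k A]
    [AddCommGroup C] [Module k C] (ZA BA : Submodule k A) (ZC BC : Submodule k C) (r : A →ₗ[k] C)
    (hZ : ∀ a ∈ ZA, r a ∈ ZC) (hB : ∀ a ∈ BA, r a ∈ BC)
    [Module.Finite k (↥ZA ⧸ BA.submoduleOf ZA)] [Module.Finite k (↥ZC ⧸ BC.submoduleOf ZC)] :
    Module.Finite k (↥ZC ⧸ (BC ⊔ ZA.map r).submoduleOf ZC) ∧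
    finrank k (↥ZC ⧸ (BC ⊔ ZA.map r).submoduleOf ZC) + finrank k (↥ZA ⧸ BA.submoduleOf ZA) =
      finrank k (↥ZC ⧸ BC.submoduleOf ZC) +
        finrank k (↥(ZA ⊓ BC.comap r) ⧸ BA.submoduleOf (ZA ⊓ BC.comap r)) := by
  -- the map `φ : ZA/BA → ZC/BC`
  let r₀ : ↥ZA →ₗ[k] ↥ZC := r.restrict hZ
  let φ : (↥ZA ⧸ BA.submoduleOf ZA) →ₗ[k] (↥ZC ⧸ BC.submoduleOf ZC) :=
    Submodule.mapQ _ _ r₀ (fun a ha => hB a.1 ha)
  have hφ : ∀ a : ↥ZA, φ (Submodule.Quotient.mk a) = Submodule.Quotient.mk (r₀ a) := fun a => rfl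
  -- `j : Sha → ZA/BA`
  have hle : ZA ⊓ BC.comap r ≤ ZA := inf_le_left
  let j : (↥(ZA ⊓ BC.comap r) ⧸ BA.submoduleOf (ZA ⊓ BC.comap r)) →ₗ[k]
      (↥ZA ⧸ BA.submoduleOf ZA) :=
    Submodule.mapQ _ _ (Submodule.inclusion hle) (fun a ha => ha)
  have hj : Function.Injective j := by
    rw [← LinearMap.ker_eq_bot, LinearMap.ker_eq_bot']
    intro x hx
    obtain ⟨a, rfl⟩ := Submodule.Quotient.mk_surjective _ x
    have h1 : j (Submodule.Quotient.mk a) = Submodule.Quotient.mk (Submodule.inclusion hle a) := rfl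
    rw [h1, Submodule.Quotient.mk_eq_zero] at hx
    rw [Submodule.Quotient.mk_eq_zero]
    exact hx
  have hjr : LinearMap.range j = LinearMap.ker φ := by
    apply le_antisymm
    · rintro _ ⟨x, rfl⟩
      obtain ⟨a, rfl⟩ := Submodule.Quotient.mk_surjective _ x
      rw [LinearMap.mem_ker]
      have h1 : φ (j (Submodule.Quotient.mk a)) =
          Submodule.Quotient.mk (r₀ (Submodule.inclusion hle a)) := rfl
      rw [h1, Submodule.Quotient.mk_eq_zero]
      exact a.2.2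
    · intro x hx
      obtain ⟨a, rfl⟩ := Submodule.Quotient.mk_surjective _ x
      rw [LinearMap.mem_ker, hφ, Submodule.Quotient.mk_eq_zero] at hx
      exact ⟨Submodule.Quotient.mk ⟨a.1, a.2, hx⟩, rfl⟩
  -- `q : ZC/BC → Coker`
  let q : (↥ZC ⧸ BC.submoduleOf ZC) →ₗ[k] (↥ZC ⧸ (BC ⊔ ZA.map r).submoduleOf ZC) :=
    Submodule.mapQ _ _ LinearMap.id (fun c hc => Submodule.mem_sup_left (show c.1 ∈ BC from hc))
  have hq : Function.Surjective q := by
    intro x
    obtain ⟨c, rfl⟩ := Submodule.Quotient.mk_surjective _ x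
    exact ⟨Submodule.Quotient.mk c, rfl⟩
  have hqk : LinearMap.ker q = LinearMap.range φ := by
    apply le_antisymm
    · intro x hx
      obtain ⟨c, rfl⟩ := Submodule.Quotient.mk_surjective _ x
      rw [LinearMap.mem_ker] at hx
      have h1 : q (Submodule.Quotient.mk c) = Submodule.Quotient.mk c := rfl
      rw [h1, Submodule.Quotient.mk_eq_zero] at hx
      obtain ⟨b, hb, _, ⟨a, ha, rfl⟩, hc⟩ := Submodule.mem_sup.mp (show c.1 ∈ BC ⊔ ZA.map r from hx)
      refine ⟨Submodule.Quotient.mk ⟨a, ha⟩, ?_⟩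
      rw [hφ, Submodule.Quotient.eq]
      show r a - c.1 ∈ BC
      rw [← hc]
      simpa using BC.neg_mem hb
    · rintro _ ⟨x, rfl⟩
      obtain ⟨a, rfl⟩ := Submodule.Quotient.mk_surjective _ x
      rw [LinearMap.mem_ker]
      have h1 : q (φ (Submodule.Quotient.mk a)) = Submodule.Quotient.mk (r₀ a) := rfl
      rw [h1, Submodule.Quotient.mk_eq_zero]
      exact Submodule.mem_sup_right ⟨a.1, a.2, rfl⟩
  refine ⟨Module.Finite.of_surjective q hq, ?_⟩
  have e1 := LinearMap.finrank_range_add_finrank_ker φ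
  have e2 := LinearMap.finrank_range_add_finrank_ker q
  have e3 : finrank k (LinearMap.range q) = finrank k (↥ZC ⧸ (BC ⊔ ZA.map r).submoduleOf ZC) := by
    rw [LinearMap.range_eq_top.mpr hq, finrank_top]
  have e4 : finrank k (LinearMap.range j) =
      finrank k (↥(ZA ⊓ BC.comap r) ⧸ BA.submoduleOf (ZA ⊓ BC.comap r)) :=
    LinearMap.finrank_range_of_inj hj
  rw [hqk] at e2
  rw [← hjr] at e1
  omega

/-- subquotients of a product over a finite family -/
theorem LinAlg.quot_pi_family {k : Type} [Field k] {ι : Type} [Fintype ι] [DecidableEq ι]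
    {A : ι → Type} [∀ i, AddCommGroup (A i)] [∀ i, Module k (A i)] (Z B : ∀ i, Submodule k (A i)) :
    Nonempty ((↥(Submodule.pi Set.univ Z) ⧸
        (Submodule.pi Set.univ B).submoduleOf (Submodule.pi Set.univ Z)) ≃ₗ[k]
      ∀ i, ↥(Z i) ⧸ (B i).submoduleOf (Z i)) := by
  let e : ↥(Submodule.pi Set.univ Z) ≃ₗ[k] (∀ i, ↥(Z i)) :=
    { toFun := fun a i => ⟨a.1 i, a.2 i (Set.mem_univ i)⟩
      invFun := fun a => ⟨fun i => (a i).1, fun i _ => (a i).2⟩
      map_add' := fun a b => rfl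
      map_smul' := fun c a => rfl
      left_inv := fun a => rfl
      right_inv := fun a => rfl }
  refine ⟨(Submodule.Quotient.equiv _ (Submodule.pi Set.univ fun i => (B i).submoduleOf (Z i)) e
    ?_).trans (Submodule.quotientPi _)⟩
  ext x
  simp only [Submodule.mem_map, Submodule.mem_pi, Set.mem_univ, forall_true_left]
  constructor
  · rintro ⟨y, hy, rfl⟩ i
    exact hy i (Set.mem_univ i)
  · intro hx
    exact ⟨e.symm x, fun i _ => hx i, e.apply_symm_apply x⟩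

theorem LinAlg.finrank_fin_pi {k : Type*} [Field k] (n : ℕ) (X : Type*) [AddCommGroup X]
    [Module k X] [Module.Finite k X] : finrank k (Fin n → X) = n * finrank k X := by
  rw [finrank_pi_fintype]
  simp

theorem LinAlg.finrank_pi_family {k : Type} [Field k] {ι : Type} [Fintype ι] (X : ι → Type)
    [∀ i, AddCommGroup (X i)] [∀ i, Module k (X i)] [∀ i, Module.Finite k (X i)] :
    finrank k (∀ i, X i) = ∑ i, finrank k (X i) :=
  Module.finrank_pi_fintype k

/-- `0 → Sha1 → H1 → ∏ H1_v → Coker1 → 0` -/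
theorem finrank_Coker1 {V : Type} [AddCommGroup V] [Module k V] (ρ : Representation k D.G V)
    [Module.Finite k (H1 D.lev ρ)] [∀ v, Module.Finite k (H1 (D.levv v) (D.loc ρ v))] :
    Module.Finite k (D.Coker1 ρ) ∧
    finrank k (D.Coker1 ρ) + finrank k (H1 D.lev ρ) =
      (∑ v, finrank k (H1 (D.levv v) (D.loc ρ v))) + finrank k (D.Sha1 ρ) := by
  obtain ⟨e⟩ := LinAlg.quot_pi_family (k := k) (fun v => Z1 (D.levv v) (D.loc ρ v))
    (fun v => B1 (D.loc ρ v))
  have hfin : Module.Finite k (↥(Submodule.pi Set.univ fun v => Z1 (D.levv v) (D.loc ρ v)) ⧸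
      (Submodule.pi Set.univ fun v => B1 (D.loc ρ v)).submoduleOf
        (Submodule.pi Set.univ fun v => Z1 (D.levv v) (D.loc ρ v))) := Module.Finite.equiv e.symm
  have key := LinAlg.finrank_four_term (Z1 D.lev ρ) (B1 ρ)
    (Submodule.pi Set.univ fun v => Z1 (D.levv v) (D.loc ρ v))
    (Submodule.pi Set.univ fun v => B1 (D.loc ρ v)) (D.res1 (k := k))
    (fun a ha v _ => comp_hom_mem_Z1 (D.r v) (D.cont v) ha)
    (fun a ha v _ => comp_hom_mem_B1 (D.r v) ha)
  have e5 : finrank k (∀ v, H1 (D.levv v) (D.loc ρ v)) =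
      ∑ v, finrank k (H1 (D.levv v) (D.loc ρ v)) :=
    LinAlg.finrank_pi_family (fun v => H1 (D.levv v) (D.loc ρ v))
  rw [e.finrank_eq] at key
  rw [← e5]
  exact key

theorem isSmooth_one (𝒰 : Levels D.G) : IsSmooth 𝒰 (1 : Representation k D.G k) := by
  intro v
  obtain ⟨U, hU⟩ := 𝒰.nonempty
  exact ⟨U, hU, fun _ _ => rfl⟩

/-- the numerical input in the form used by the chase -/
theorem coker1_bound (ctx : D.Ctx χ lam Φ) {U : Subgroup D.G} (hmem : U ∈ D.lev.carrier)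
    (hgood : D.GoodLevel k U) (hchi : ∀ s ∈ U, χ s = 1) :
    Module.Finite k (D.Coker1 (permRep k U)) ∧
    finrank k (D.Coker1 (permRep k U)) + finrank k (D.Sha2 (permRep k U))
      ≤ finrank k (H1 D.lev (permRep k U)) := by
  have : U.Normal := D.lev.normal U hmem
  have : U.FiniteIndex := D.lev.finiteIndex U hmem
  have := hgood.finH1
  have := hgood.finLoc1
  have := hgood.finSha2
  have hsm : IsSmooth D.lev (permRep k U) := (isSmooth_one D.lev).mapRep hmem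
  have hsm' : IsSmooth D.lev ((permRep k U).dual.twist χ) := hsm.dualTwist ctx.chi_smooth
  have iso' : IsoRep ((permRep k U).dual.twist χ) (piRep (finrank k k) (permRep k U)) :=
    isoRep_mapRep_dualTwist (ρ := (1 : Representation k D.G k)) (fun _ _ _ => rfl) hchi
  obtain ⟨e2⟩ := iso'.Sha2 (D := D)
  obtain ⟨e2'⟩ := Sha2_piRep (D := D) (ρ := permRep k U) (finrank k k)
  have hfin2 : Module.Finite k (D.Sha2 ((permRep k U).dual.twist χ)) :=
    Module.Finite.equiv (e2.trans e2').symm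
  have h1 : finrank k (D.Sha1 (permRep k U)) ≤ finrank k (D.Sha2 ((permRep k U).dual.twist χ)) :=
    sha1_le_aux (isEquivPairing_evalP (permRep k U) χ) hsm' ctx.inv.bdry
      (fun a ha h => inj1 ctx hsm ha h)
  have h2 : finrank k (D.Sha2 ((permRep k U).dual.twist χ)) = finrank k (D.Sha2 (permRep k U)) := by
    rw [(e2.trans e2').finrank_eq, LinAlg.finrank_fin_pi, finrank_self, one_mul]
  obtain ⟨hf, h3⟩ := finrank_Coker1 (D := D) (permRep k U)
  have h4 := hgood.ineq'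
  refine ⟨hf, ?_⟩
  omega

end Fermat.Agent.CFT
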