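import Fermat.Agent.CFT.F.Chase1
import Fermat.Agent.CFT.F.ConeSeq
import Fermat.Agent.CFT.F.LinAlg
import Fermat.Agent.CFT.F.CupLin
import Fermat.Agent.CFT.F.ShaLe

/-! # CFT / Part F, WP F11: `φ² : H^2(G,N) → H^1_c(N')^*` is injective.

(c') `deg1_surjective`: `H1(I) → (HC2 I')^*` is injective by `inj1`, and
`dim HC2 I' = dim Coker1 I' + dim Sha2 I' = n (dim Coker1 P + dim Sha2 P) ≤ n dim H1 P = dim H1 I`.
`inj2`: `efface2`: `d h = const ∘ a`, `h̄ = π ∘ h ∈ Z1 Q`. For `e ∈ ZC2 Q'` with `push2 π^T e = dc1 c̃`: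
`Φ (h̄ ∪ e) = Φ (a ∪ i^T c̃) = 0` (`adj1`). So there is `u` on `CC2 I'` killing `BC2 I'` with
`u (push2 π^T e) = Φ (h̄ ∪ e)` on `ZC2 Q'`; `u = Φ (y_I ∪ ·)`; `inj1` for `Q`: `h̄ - π ∘ y_I = d01 q`. -/

set_option autoImplicit false

namespace Fermat.Agent.CFT

open Module

variable {D : Datum} {k : Type} [Field k] {χ : D.G →* kˣ}
  {lam : ∀ v : D.ι, (D.Gv v × D.Gv v → k) →ₗ[k] k} {Φ : D.CC3 k →ₗ[k] k}

theorem finrank_HC2_le (ctx : D.Ctx χ lam Φ) {N : Type} [AddCommGroup N] [Module k N]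
    [FiniteDimensional k N] {ρ : Representation k D.G N} (hρ : IsSmooth D.lev ρ)
    {U : Subgroup D.G} (hU : D.Adapted χ ρ U) :
    Module.Finite k (D.HC2 ((mapRep U ρ).dual.twist χ)) ∧
    Module.Finite k (H1 D.lev (mapRep U ρ)) ∧
      finrank k (D.HC2 ((mapRep U ρ).dual.twist χ)) ≤ finrank k (H1 D.lev (mapRep U ρ)) := by
  have : U.Normal := D.lev.normal U hU.mem
  have : U.FiniteIndex := D.lev.finiteIndex U hU.mem
  have := hU.good.finH1
  obtain ⟨hfc, hineq⟩ := coker1_bound ctx hU.mem hU.good hU.chi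
  have := hU.good.finSha2
  set n := finrank k N with hn
  have iso' : IsoRep ((mapRep U ρ).dual.twist χ) (piRep n (permRep k U)) :=
    isoRep_mapRep_dualTwist hU.triv hU.chi
  have iso : IsoRep (mapRep U ρ) (piRep n (permRep k U)) := isoRep_mapRep hU.triv
  obtain ⟨e1⟩ := iso'.Coker1 (D := D)
  obtain ⟨e1'⟩ := Coker1_piRep (D := D) (ρ := permRep k U) n
  obtain ⟨e2⟩ := iso'.Sha2 (D := D)
  obtain ⟨e2'⟩ := Sha2_piRep (D := D) (ρ := permRep k U) n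
  obtain ⟨e3⟩ := iso.H1 (D := D)
  obtain ⟨e3'⟩ := H1_piRep (D := D) (ρ := permRep k U) n
  have : Module.Finite k (D.Coker1 ((mapRep U ρ).dual.twist χ)) :=
    Module.Finite.equiv (e1.trans e1').symm
  have : Module.Finite k (D.Sha2 ((mapRep U ρ).dual.twist χ)) :=
    Module.Finite.equiv (e2.trans e2').symm
  have hfin3 : Module.Finite k (H1 D.lev (mapRep U ρ)) :=
    Module.Finite.equiv (e3.trans e3').symm
  have hsm : IsSmooth D.lev ((mapRep U ρ).dual.twist χ) :=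
    (hρ.mapRep hU.mem).dualTwist ctx.chi_smooth
  refine ⟨finite_HC2 hsm, hfin3, ?_⟩
  rw [finrank_HC2 hsm, (e1.trans e1').finrank_eq, (e2.trans e2').finrank_eq,
    (e3.trans e3').finrank_eq, LinAlg.finrank_fin_pi, LinAlg.finrank_fin_pi,
    LinAlg.finrank_fin_pi]
  rw [← Nat.mul_add]
  exact Nat.mul_le_mul_left _ hineq

theorem deg1_surjective (ctx : D.Ctx χ lam Φ) {N : Type} [AddCommGroup N] [Module k N]
    [FiniteDimensional k N] {ρ : Representation k D.G N} (hρ : IsSmooth D.lev ρ)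
    {U : Subgroup D.G} (hU : D.Adapted χ ρ U)
    (u : D.CC2 (Module.Dual k (D.G ⧸ U → N)) →ₗ[k] k)
    (hu : ∀ c ∈ D.BC2 ((mapRep U ρ).dual.twist χ), u c = 0) :
    ∃ y ∈ Z1 D.lev (mapRep U ρ), ∀ c ∈ D.ZC2 ((mapRep U ρ).dual.twist χ),
      u c = Φ (D.ccup12 ((mapRep U ρ).dual.twist χ) (evalP k (D.G ⧸ U → N)) y c) := by
  have : U.Normal := D.lev.normal U hU.mem
  have : U.FiniteIndex := D.lev.finiteIndex U hU.mem
  obtain ⟨f1, f2, hle⟩ := finrank_HC2_le ctx hρ hU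
  have hsmI : IsSmooth D.lev (mapRep U ρ) := hρ.mapRep hU.mem
  have hsm' : IsSmooth D.lev ((mapRep U ρ).dual.twist χ) := hsmI.dualTwist ctx.chi_smooth
  exact LinAlg.exists_rep_of_finrank_le (Z1 D.lev (mapRep U ρ)) (B1 (mapRep U ρ))
    (D.ZC2 ((mapRep U ρ).dual.twist χ)) (D.BC2 ((mapRep U ρ).dual.twist χ))
    (D.pair12 ((mapRep U ρ).dual.twist χ) (evalP k (D.G ⧸ U → N)) Φ)
    (fun a ha c hc => ctx.inv.bdry _
      (ccup12_mem_BC3_of_BC2 (isEquivPairing_evalP _ χ) hsm' ha hc))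
    (fun a ha h => inj1 ctx hsmI ha h) hle u hu

/-- the chase of `inj2` for an abstract short exact sequence `0 → N → I → Q → 0` -/
theorem inj2_aux (ctx : D.Ctx χ lam Φ) {N I Q : Type} [AddCommGroup N] [Module k N]
    [AddCommGroup I] [Module k I] [AddCommGroup Q] [Module k Q]
    {ρ : Representation k D.G N} {ρI : Representation k D.G I} {ρQ : Representation k D.G Q}
    {i : N →ₗ[k] I} {π : I →ₗ[k] Q} (ses : IsSES ρ ρI ρQ i π)
    (hsmI : IsSmooth D.lev ρI) (hsmI' : IsSmooth D.lev (ρI.dual.twist χ))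
    (surjI : ∀ u : D.CC2 (Module.Dual k I) →ₗ[k] k, (∀ c ∈ D.BC2 (ρI.dual.twist χ), u c = 0) →
      ∃ y ∈ Z1 D.lev ρI, ∀ c ∈ D.ZC2 (ρI.dual.twist χ),
        u c = Φ (D.ccup12 (ρI.dual.twist χ) (evalP k I) y c))
    (injQ : ∀ a ∈ Z1 D.lev ρQ,
      (∀ c ∈ D.ZC2 (ρQ.dual.twist χ), Φ (D.ccup12 (ρQ.dual.twist χ) (evalP k Q) a c) = 0) →
        a ∈ B1 ρQ)
    {a : D.G × D.G → N} {f : D.G → I} (hfC : f ∈ C1 k I D.lev) (hdf : d12 ρI f = i ∘ a)
    (h : ∀ c ∈ D.ZC1 (ρ.dual.twist χ), Φ (D.ccup21 (ρ.dual.twist χ) (evalP k N) a c) = 0) :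
    a ∈ B2 D.lev ρ := by
  have ses' := ses.dual (χ := χ)
  have hπi : ∀ n, π (i n) = 0 := fun n => (ses.exact _).2 ⟨n, rfl⟩
  have hbarZ : π ∘ f ∈ Z1 D.lev ρQ := by
    refine ⟨LinearMap.mem_ker.mpr ?_, comp_mem_C1 π hfC⟩
    rw [d12_comp π ses.π_equiv, hdf]
    ext g
    simp [hπi]
  have claim : ∀ e ∈ D.ZC2 (ρQ.dual.twist χ),
      D.push2L π.dualMap e ∈ D.BC2 (ρI.dual.twist χ) →
        D.pair12 (ρQ.dual.twist χ) (evalP k _) Φ (π ∘ f) e = 0 := by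
    intro e he hB
    obtain ⟨c, hc, hce⟩ := hB
    have h1 := adj1 ses hsmI' a f hfC hdf c hc e hce
    have h2 := ctx.inv.bdry _ h1
    rw [map_sub, sub_eq_zero] at h2
    rw [Datum.pair12_apply, ← h2]
    apply h
    refine ⟨LinearMap.mem_ker.mpr ?_, push1_mem_LCC1 _ hc⟩
    rw [dc1_push1 i.dualMap ses'.π_equiv, hce, Datum.push2L_apply, Datum.push2_push2]
    have h0 : i.dualMap ∘ₗ π.dualMap = 0 := by
      ext φ n
      simp [hπi]
    rw [h0]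
    rfl
  obtain ⟨u, hu0, hu⟩ := LinAlg.exists_extend_functional (D.push2L π.dualMap)
    (D.ZC2 (ρQ.dual.twist χ)) (D.BC2 (ρI.dual.twist χ))
    (D.pair12 (ρQ.dual.twist χ) (evalP k _) Φ (π ∘ f)) claim
  obtain ⟨y, hyZ, hy⟩ := surjI u hu0
  have hB1 : π ∘ f - π ∘ y ∈ B1 ρQ := by
    apply injQ _ (Submodule.sub_mem _ hbarZ (comp_mem_Z1 π ses.π_equiv hyZ))
    intro e he
    have e1 := hu e he
    have e2 := hy _ (push2_mem_ZC2 π.dualMap ses'.i_equiv he)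
    have e3 := ccup12_natural (χ := χ) ses.π_equiv y e
    rw [← Datum.pair12_apply, map_sub, LinearMap.sub_apply, ← e1, Datum.push2L_apply, e2,
      Datum.pair12_apply, e3, sub_self]
  obtain ⟨q, hq⟩ := hB1
  obtain ⟨q', rfl⟩ := ses.surj q
  have hker : ∀ g, π (f g - y g - d01 ρI q' g) = 0 := by
    intro g
    have h3 := congrFun hq g
    have h4 := congrFun (d01_comp π ses.π_equiv q') g
    rw [h4] at h3
    simp only [Function.comp_apply, Pi.sub_apply] at h3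
    rw [map_sub, map_sub, h3, sub_self]
  choose b hb using fun g => (ses.exact _).1 (hker g)
  have hib : i ∘ b = f - y - d01 ρI q' := funext hb
  have hbC : b ∈ C1 k N D.lev := mem_C1_of_comp i ses.inj (by
    rw [hib]
    exact sub_mem (sub_mem hfC hyZ.2) (d01_mem_C1 hsmI q'))
  refine ⟨b, hbC, ?_⟩
  have h5 : i ∘ d12 ρ b = i ∘ a := by
    rw [← d12_comp i ses.i_equiv, hib, map_sub, map_sub, hdf, LinearMap.mem_ker.mp hyZ.1, d12_d01]
    simp
  funext g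
  exact ses.inj (congrFun h5 g)

theorem inj2 (ctx : D.Ctx χ lam Φ) {N : Type} [AddCommGroup N] [Module k N]
    [FiniteDimensional k N] {ρ : Representation k D.G N} (hρ : IsSmooth D.lev ρ)
    {a : D.G × D.G → N} (ha : a ∈ Z2 D.lev ρ)
    (h : ∀ c ∈ D.ZC1 (ρ.dual.twist χ), Φ (D.ccup21 (ρ.dual.twist χ) (evalP k N) a c) = 0) :
    a ∈ B2 D.lev ρ := by
  obtain ⟨hda, U₀, hU₀, haU₀⟩ := ha
  obtain ⟨U, hUU₀, hU⟩ := exists_adapted ctx hρ hU₀
  have : U.Normal := D.lev.normal U hU.mem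
  have : U.FiniteIndex := D.lev.finiteIndex U hU.mem
  obtain ⟨f, hfC, hdf⟩ := efface2 (𝒰 := D.lev) (ρ := ρ) hU.mem (LinearMap.mem_ker.mp hda)
    (fun g₁ g₂ s₁ s₂ h₁ h₂ => haU₀ g₁ g₂ s₁ s₂ (hUU₀ h₁) (hUU₀ h₂))
  have hsmI : IsSmooth D.lev (mapRep U ρ) := hρ.mapRep hU.mem
  exact inj2_aux ctx (isSES_mapRep (ρ := ρ) U) hsmI (hsmI.dualTwist ctx.chi_smooth)
    (fun u hu => deg1_surjective ctx hρ hU u hu)
    (fun a ha h => inj1 ctx (hρ.quotRep hU.mem) ha h) hfC hdf h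

/-- finiteness of `H^1(G,N)`: `N^G → I^G → Q^G → H^1(N) → H^1(I)` -/
theorem finite_H1 (ctx : D.Ctx χ lam Φ) {N : Type} [AddCommGroup N] [Module k N]
    [FiniteDimensional k N] {ρ : Representation k D.G N} (hρ : IsSmooth D.lev ρ) :
    Module.Finite k (H1 D.lev ρ) := by
  obtain ⟨U₀, hU₀⟩ := D.lev.nonempty
  obtain ⟨U, -, hU⟩ := exists_adapted ctx hρ hU₀
  have : U.Normal := D.lev.normal U hU.mem
  have : U.FiniteIndex := D.lev.finiteIndex U hU.mem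
  obtain ⟨-, f2, -⟩ := finrank_HC2_le ctx hρ hU
  let T₀ : ↥(Z1 D.lev ρ) →ₗ[k] ↥(Z1 D.lev (mapRep U ρ)) :=
    ((mapRepConst (k := k) (V := N) U).compLeft D.G).restrict
      (fun a ha => comp_mem_Z1 (mapRepConst (k := k) (V := N) U) (mapRepConst_equiv U) ha)
  let T : ↥(Z1 D.lev ρ) →ₗ[k] H1 D.lev (mapRep U ρ) := (Submodule.mkQ _) ∘ₗ T₀
  have hB : Module.Finite k ↥(B1 (mapRep U ρ)) :=
    inferInstanceAs (Module.Finite k (LinearMap.range (d01 (mapRep U ρ))))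
  have hmem : ∀ x : ↥(LinearMap.ker T), ((T₀ x.1 : ↥(Z1 D.lev (mapRep U ρ))) : D.G → (D.G ⧸ U → N)) ∈
      B1 (mapRep U ρ) := by
    intro x
    have hx : T x.1 = 0 := x.2
    have := (Submodule.Quotient.mk_eq_zero _).mp hx
    exact this
  let S : ↥(LinearMap.ker T) →ₗ[k] ↥(B1 (mapRep U ρ)) :=
    { toFun := fun x => ⟨_, hmem x⟩
      map_add' := fun x y => by
        ext1
        simp
      map_smul' := fun r x => by
        ext1
        simp }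
  have hS : Function.Injective S := by
    intro x y hxy
    have h1 : ((T₀ x.1 : ↥(Z1 D.lev (mapRep U ρ))) : D.G → (D.G ⧸ U → N)) =
        ((T₀ y.1 : ↥(Z1 D.lev (mapRep U ρ))) : D.G → (D.G ⧸ U → N)) :=
      congrArg (fun z : ↥(B1 (mapRep U ρ)) => (z : D.G → (D.G ⧸ U → N))) hxy
    ext g
    exact mapRepConst_injective (k := k) U (congrFun h1 g)
  have h1 : Module.Finite k ↥(LinearMap.ker T) := Module.Finite.of_injective S hS
  have h2 : Module.Finite k (↥(Z1 D.lev ρ) ⧸ LinearMap.ker T) :=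
    Module.Finite.equiv (LinearMap.quotKerEquivRange T).symm
  have h3 : Module.Finite k ↥(Z1 D.lev ρ) := Module.Finite.of_submodule_quotient (LinearMap.ker T)
  infer_instance

end Fermat.Agent.CFT
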