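import Fermat.Agent.CFT.F.Defs

/-!
# CFT / Part F : cup products on low degree cochains (definitions only).

`β : V →ₗ[k] V' →ₗ[k] k` is a pairing, `ρ'` the representation on `V'`.
`(a ∪ b)(g₁..g_{i+j}) = β (a(g₁..g_i)) (g₁⋯g_i • b(g_{i+1}..))`.
Cone version: `a ∪ (b,(b_v)) = (a ∪ b, ((-1)^{deg a} res_v a ∪ b_v))`.
-/

set_option autoImplicit false

namespace Fermat.Agent.CFT

section Cup

variable {k : Type} [CommRing k] {G : Type} [Group G] {V V' : Type} [AddCommGroup V] [Module k V]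
  [AddCommGroup V'] [Module k V'] (ρ' : Representation k G V') (β : V →ₗ[k] V' →ₗ[k] k)

/-- equivariance of a pairing with values in `μ = chiRep χ` -/
def IsEquivPairing (ρ : Representation k G V) (ρ' : Representation k G V') (χ : G →* kˣ)
    (β : V →ₗ[k] V' →ₗ[k] k) : Prop :=
  ∀ g x y, β (ρ g x) (ρ' g y) = (χ g : k) * β x y

def cup01 (x : V) (b : G → V') : G → k := fun g => β x (b g)
def cup10 (a : G → V) (y : V') : G → k := fun g => β (a g) (ρ' g y)
def cup02 (x : V) (b : G × G → V') : G × G → k := fun g => β x (b g)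
def cup11 (a : G → V) (b : G → V') : G × G → k := fun g => β (a g.1) (ρ' g.1 (b g.2))
def cup20 (a : G × G → V) (y : V') : G × G → k := fun g => β (a g) (ρ' (g.1 * g.2) y)
def cup03 (x : V) (b : G × G × G → V') : G × G × G → k := fun g => β x (b g)
def cup12 (a : G → V) (b : G × G → V') : G × G × G → k := fun g => β (a g.1) (ρ' g.1 (b g.2))
def cup21 (a : G × G → V) (b : G → V') : G × G × G → k :=
  fun g => β (a (g.1, g.2.1)) (ρ' (g.1 * g.2.1) (b g.2.2))
def cup30 (a : G × G × G → V) (y : V') : G × G × G → k :=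
  fun g => β (a g) (ρ' (g.1 * g.2.1 * g.2.2) y)

end Cup

section ConeCup

variable (D : Datum) {k : Type} [CommRing k] {V V' : Type} [AddCommGroup V] [Module k V]
  [AddCommGroup V'] [Module k V'] (ρ' : Representation k D.G V') (β : V →ₗ[k] V' →ₗ[k] k)

def Datum.ccup02 (x : V) (c : D.CC2 V') : D.CC2 k :=
  (cup02 β x c.1, fun v => cup01 β x (c.2 v))
def Datum.ccup11 (a : D.G → V) (c : D.CC1 V') : D.CC2 k :=
  (cup11 ρ' β a c.1, fun v => - cup10 (D.loc ρ' v) β (a ∘ D.r v) (c.2 v))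
def Datum.ccup20 (a : D.G × D.G → V) (y : V') : D.CC2 k :=
  (cup20 ρ' β a y, 0)
def Datum.ccup03 (x : V) (c : D.CC3 V') : D.CC3 k :=
  (cup03 β x c.1, fun v => cup02 β x (c.2 v))
def Datum.ccup12 (a : D.G → V) (c : D.CC2 V') : D.CC3 k :=
  (cup12 ρ' β a c.1, fun v => - cup11 (D.loc ρ' v) β (a ∘ D.r v) (c.2 v))
def Datum.ccup21 (a : D.G × D.G → V) (c : D.CC1 V') : D.CC3 k :=
  (cup21 ρ' β a c.1, fun v => cup20 (D.loc ρ' v) β (a ∘ Prod.map (D.r v) (D.r v)) (c.2 v))

/-- push-forward of cone cochains along a linear map -/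
def Datum.push1 {W W' : Type} [AddCommGroup W] [Module k W] [AddCommGroup W'] [Module k W']
    (f : W →ₗ[k] W') (c : D.CC1 W) : D.CC1 W' := (f ∘ c.1, fun v => f (c.2 v))
def Datum.push2 {W W' : Type} [AddCommGroup W] [Module k W] [AddCommGroup W'] [Module k W']
    (f : W →ₗ[k] W') (c : D.CC2 W) : D.CC2 W' := (f ∘ c.1, fun v => f ∘ c.2 v)
def Datum.push3 {W W' : Type} [AddCommGroup W] [Module k W] [AddCommGroup W'] [Module k W']
    (f : W →ₗ[k] W') (c : D.CC3 W) : D.CC3 W' := (f ∘ c.1, fun v => f ∘ c.2 v)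

end ConeCup

/-- the evaluation pairing `V × V^* → k` -/
abbrev evalP (k V : Type) [CommRing k] [AddCommGroup V] [Module k V] :
    V →ₗ[k] Module.Dual k V →ₗ[k] k := Module.Dual.eval k V

/-- An *invariant functional*: a linear form on cone 3-cochains of `μ` killing coboundaries, whose
restriction to the local 2-cocycles is `∑ lam v`. -/
structure Datum.IsInv (D : Datum) {k : Type} [Field k] (χ : D.G →* kˣ)
    (lam : ∀ v : D.ι, (D.Gv v × D.Gv v → k) →ₗ[k] k) (Φ : D.CC3 k →ₗ[k] k) : Prop where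
  bdry : ∀ c ∈ D.BC3 (chiRep χ), Φ c = 0
  loc : ∀ b ∈ D.ZL2 (chiRep χ), Φ (0, b) = ∑ v, lam v (b v)

end Fermat.Agent.CFT
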