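import Fermat.Agent.CFT.F.Spec
import Fermat.Agent.CFT.F.CupDefs

/-! # CFT / Part F: shared context structures (definitions only). -/

set_option autoImplicit false

namespace Fermat.Agent.CFT

/-- short exact sequence of representations, unbundled -/
structure IsSES {k : Type} [CommRing k] {G : Type} [Group G] {N I Q : Type}
    [AddCommGroup N] [Module k N] [AddCommGroup I] [Module k I] [AddCommGroup Q] [Module k Q]
    (ρN : Representation k G N) (ρI : Representation k G I) (ρQ : Representation k G Q)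
    (i : N →ₗ[k] I) (π : I →ₗ[k] Q) : Prop where
  i_equiv : ∀ g n, i (ρN g n) = ρI g (i n)
  π_equiv : ∀ g x, π (ρI g x) = ρQ g (π x)
  inj : Function.Injective i
  surj : Function.Surjective π
  exact : ∀ x, π x = 0 ↔ ∃ n, i n = x

/-- isomorphic representations -/
def IsoRep {k : Type} [CommRing k] {G : Type} [Group G] {V W : Type}
    [AddCommGroup V] [Module k V] [AddCommGroup W] [Module k W]
    (ρ : Representation k G V) (σ : Representation k G W) : Prop :=
  ∃ e : V ≃ₗ[k] W, ∀ g v, e (ρ g v) = σ g (e v)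

/-- `ρ^n` -/
def piRep {k : Type} [CommRing k] {G : Type} [Group G] {V : Type} [AddCommGroup V] [Module k V]
    (n : ℕ) (ρ : Representation k G V) : Representation k G (Fin n → V) where
  toFun g := LinearMap.pi fun j => ρ g ∘ₗ LinearMap.proj j
  map_one' := by ext; simp
  map_mul' g h := by ext; simp

@[simp] lemma piRep_apply {k : Type} [CommRing k] {G : Type} [Group G] {V : Type} [AddCommGroup V]
    [Module k V] (n : ℕ) (ρ : Representation k G V) (g : G) (x : Fin n → V) (j : Fin n) :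
    piRep n ρ g x j = ρ g (x j) := rfl

/-- The working context of the chase: `PTHyp` unpacked, plus the invariant functional `Φ`. -/
structure Datum.Ctx (D : Datum) {k : Type} [Field k] (χ : D.G →* kˣ)
    (lam : ∀ v : D.ι, (D.Gv v × D.Gv v → k) →ₗ[k] k) (Φ : D.CC3 k →ₗ[k] k) : Prop where
  chi_smooth : ∃ U ∈ D.lev.carrier, ∀ s ∈ U, χ s = 1
  good : ∀ U ∈ D.lev.carrier, ∃ W ∈ D.lev.carrier, W ≤ U ∧ D.GoodLevel k W
  lamB : ∀ v, ∀ b ∈ B2 (D.levv v) (D.loc (chiRep χ) v), lam v b = 0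
  lamRes : ∀ a ∈ Z2 D.lev (chiRep χ), ∑ v, lam v (D.res2 (k := k) a v) = 0
  nonvan : ∃ v₀ : D.ι, ∀ W ∈ (D.levv v₀).carrier, ∀ _ : Fintype (D.Gv v₀ ⧸ W),
      ∃ c ∈ Z2 (D.levv v₀) (mapRep W (D.loc (chiRep χ) v₀)),
        lam v₀ (fun g => mapRepSum (k := k) W (c g)) ≠ 0
  inv : D.IsInv χ lam Φ

/-- the degree 0 pairing `y ↦ (e ↦ ∑_v lam_v (y ∪ e_v))` -/
noncomputable def Datum.ell (D : Datum) {k : Type} [Field k]
    (lam : ∀ v : D.ι, (D.Gv v × D.Gv v → k) →ₗ[k] k) {W : Type} [AddCommGroup W] [Module k W]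
    (y : W) (e : ∀ v : D.ι, D.Gv v × D.Gv v → Module.Dual k W) : k :=
  ∑ v, lam v (cup02 (evalP k W) y (e v))

/-- `U` is *adapted* to `(ρ, χ)`: a good level acting trivially on `V` and on `μ`. -/
structure Datum.Adapted (D : Datum) {k : Type} [Field k] (χ : D.G →* kˣ) {V : Type}
    [AddCommGroup V] [Module k V] (ρ : Representation k D.G V) (U : Subgroup D.G) : Prop where
  mem : U ∈ D.lev.carrier
  good : D.GoodLevel k U
  triv : ∀ s ∈ U, ∀ v, ρ s v = v
  chi : ∀ s ∈ U, χ s = 1

end Fermat.Agent.CFT
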