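import Mathlib
import Fermat.Prelude.Def_GroupCohomology_Selmer

/-!
# CFT / Part F : formal Poitou-Tate machine.  Basic definitions.

Everything is unbundled: a representation is `ρ : Representation k G V`.
Cochains are functions on `G`, `G × G`, `G × G × G` (as in Mathlib `LowDegree` and in the Prelude).
A `Levels G` is a directed family of normal subgroups of finite index ("open normal subgroups").
-/

set_option autoImplicit false

namespace Fermat.Agent.CFT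

/-- A level structure: a nonempty directed family of normal subgroups of finite index. -/
structure Levels (G : Type) [Group G] where
  carrier : Set (Subgroup G)
  normal : ∀ U ∈ carrier, U.Normal
  finiteIndex : ∀ U ∈ carrier, U.FiniteIndex
  nonempty : carrier.Nonempty
  directed : ∀ U ∈ carrier, ∀ V ∈ carrier, ∃ W ∈ carrier, W ≤ U ∧ W ≤ V

namespace Levels

variable {G : Type} [Group G] (𝒰 : Levels G)

/-- level-constant 1-cochains -/
def LC1 {X : Type*} (f : G → X) : Prop :=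
  ∃ U ∈ 𝒰.carrier, ∀ g s : G, s ∈ U → f (g * s) = f g

/-- level-constant 2-cochains -/
def LC2 {X : Type*} (f : G × G → X) : Prop :=
  ∃ U ∈ 𝒰.carrier, ∀ g₁ g₂ s₁ s₂ : G, s₁ ∈ U → s₂ ∈ U → f (g₁ * s₁, g₂ * s₂) = f (g₁, g₂)

/-- level-constant 3-cochains -/
def LC3 {X : Type*} (f : G × G × G → X) : Prop :=
  ∃ U ∈ 𝒰.carrier, ∀ g₁ g₂ g₃ s₁ s₂ s₃ : G, s₁ ∈ U → s₂ ∈ U → s₃ ∈ U →
    f (g₁ * s₁, g₂ * s₂, g₃ * s₃) = f (g₁, g₂, g₃)

variable {𝒰}

lemma LC1.add {X : Type*} [Add X] {f f' : G → X} (hf : 𝒰.LC1 f) (hf' : 𝒰.LC1 f') :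
    𝒰.LC1 (f + f') := by
  obtain ⟨U, hU, h⟩ := hf
  obtain ⟨U', hU', h'⟩ := hf'
  obtain ⟨W, hW, h1, h2⟩ := 𝒰.directed U hU U' hU'
  exact ⟨W, hW, fun g s hs => by simp only [Pi.add_apply, h g s (h1 hs), h' g s (h2 hs)]⟩

lemma LC2.add {X : Type*} [Add X] {f f' : G × G → X} (hf : 𝒰.LC2 f) (hf' : 𝒰.LC2 f') :
    𝒰.LC2 (f + f') := by
  obtain ⟨U, hU, h⟩ := hf
  obtain ⟨U', hU', h'⟩ := hf'
  obtain ⟨W, hW, h1, h2⟩ := 𝒰.directed U hU U' hU'
  exact ⟨W, hW, fun g₁ g₂ s₁ s₂ hs₁ hs₂ => by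
    simp only [Pi.add_apply, h g₁ g₂ s₁ s₂ (h1 hs₁) (h1 hs₂), h' g₁ g₂ s₁ s₂ (h2 hs₁) (h2 hs₂)]⟩

lemma LC3.add {X : Type*} [Add X] {f f' : G × G × G → X} (hf : 𝒰.LC3 f) (hf' : 𝒰.LC3 f') :
    𝒰.LC3 (f + f') := by
  obtain ⟨U, hU, h⟩ := hf
  obtain ⟨U', hU', h'⟩ := hf'
  obtain ⟨W, hW, h1, h2⟩ := 𝒰.directed U hU U' hU'
  exact ⟨W, hW, fun g₁ g₂ g₃ s₁ s₂ s₃ hs₁ hs₂ hs₃ => by
    simp only [Pi.add_apply, h g₁ g₂ g₃ s₁ s₂ s₃ (h1 hs₁) (h1 hs₂) (h1 hs₃),
      h' g₁ g₂ g₃ s₁ s₂ s₃ (h2 hs₁) (h2 hs₂) (h2 hs₃)]⟩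

lemma LC1.comp {X Y : Type*} {f : G → X} (hf : 𝒰.LC1 f) (φ : X → Y) : 𝒰.LC1 (φ ∘ f) := by
  obtain ⟨U, hU, h⟩ := hf
  exact ⟨U, hU, fun g s hs => by simp only [Function.comp_apply, h g s hs]⟩

lemma LC2.comp {X Y : Type*} {f : G × G → X} (hf : 𝒰.LC2 f) (φ : X → Y) : 𝒰.LC2 (φ ∘ f) := by
  obtain ⟨U, hU, h⟩ := hf
  exact ⟨U, hU, fun g₁ g₂ s₁ s₂ hs₁ hs₂ => by simp only [Function.comp_apply, h g₁ g₂ s₁ s₂ hs₁ hs₂]⟩

lemma LC3.comp {X Y : Type*} {f : G × G × G → X} (hf : 𝒰.LC3 f) (φ : X → Y) : 𝒰.LC3 (φ ∘ f) := by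
  obtain ⟨U, hU, h⟩ := hf
  exact ⟨U, hU, fun g₁ g₂ g₃ s₁ s₂ s₃ hs₁ hs₂ hs₃ => by
    simp only [Function.comp_apply, h g₁ g₂ g₃ s₁ s₂ s₃ hs₁ hs₂ hs₃]⟩

variable (𝒰)

lemma LC1_const {X : Type*} (x : X) : 𝒰.LC1 (fun _ : G => x) := by
  obtain ⟨U, hU⟩ := 𝒰.nonempty
  exact ⟨U, hU, fun _ _ _ => rfl⟩

lemma LC2_const {X : Type*} (x : X) : 𝒰.LC2 (fun _ : G × G => x) := by
  obtain ⟨U, hU⟩ := 𝒰.nonempty
  exact ⟨U, hU, fun _ _ _ _ _ _ => rfl⟩

lemma LC3_const {X : Type*} (x : X) : 𝒰.LC3 (fun _ : G × G × G => x) := by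
  obtain ⟨U, hU⟩ := 𝒰.nonempty
  exact ⟨U, hU, fun _ _ _ _ _ _ _ _ _ => rfl⟩

end Levels

section Cochains

variable {k : Type} [CommRing k] {G : Type} [Group G] {V : Type} [AddCommGroup V] [Module k V]

/-- `x ↦ (g ↦ g x - x)` -/
def d01 (ρ : Representation k G V) : V →ₗ[k] (G → V) where
  toFun m g := ρ g m - m
  map_add' x y := funext fun g => by simp only [map_add, add_sub_add_comm]; rfl
  map_smul' r x := funext fun g => by simp [smul_sub]

/-- `f ↦ ((g₁,g₂) ↦ g₁ f(g₂) - f(g₁g₂) + f(g₁))` -/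
def d12 (ρ : Representation k G V) : (G → V) →ₗ[k] (G × G → V) where
  toFun f g := ρ g.1 (f g.2) - f (g.1 * g.2) + f g.1
  map_add' x y := funext fun g => by simp only [Pi.add_apply, map_add]; abel
  map_smul' r x := funext fun g => by simp [smul_sub, smul_add]

/-- `f ↦ ((g₁,g₂,g₃) ↦ g₁ f(g₂,g₃) - f(g₁g₂,g₃) + f(g₁,g₂g₃) - f(g₁,g₂))` -/
def d23 (ρ : Representation k G V) : (G × G → V) →ₗ[k] (G × G × G → V) where
  toFun f g := ρ g.1 (f (g.2.1, g.2.2)) - f (g.1 * g.2.1, g.2.2) + f (g.1, g.2.1 * g.2.2)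
    - f (g.1, g.2.1)
  map_add' x y := funext fun g => by simp only [Pi.add_apply, map_add]; abel
  map_smul' r x := funext fun g => by simp [smul_sub, smul_add]

@[simp] lemma d01_apply (ρ : Representation k G V) (m : V) (g : G) : d01 ρ m g = ρ g m - m := rfl
@[simp] lemma d12_apply (ρ : Representation k G V) (f : G → V) (g : G × G) :
    d12 ρ f g = ρ g.1 (f g.2) - f (g.1 * g.2) + f g.1 := rfl
@[simp] lemma d23_apply (ρ : Representation k G V) (f : G × G → V) (g : G × G × G) :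
    d23 ρ f g = ρ g.1 (f (g.2.1, g.2.2)) - f (g.1 * g.2.1, g.2.2) + f (g.1, g.2.1 * g.2.2)
      - f (g.1, g.2.1) := rfl

/-- smooth representation: every vector is fixed by some level. -/
def IsSmooth (𝒰 : Levels G) (ρ : Representation k G V) : Prop :=
  ∀ v : V, ∃ U ∈ 𝒰.carrier, ∀ s ∈ U, ρ s v = v

variable (k V) in
/-- level-constant 1-cochains -/
def C1 (𝒰 : Levels G) : Submodule k (G → V) where
  carrier := {f | 𝒰.LC1 f}
  add_mem' hf hf' := hf.add hf'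
  zero_mem' := 𝒰.LC1_const (0 : V)
  smul_mem' c _ hf := hf.comp (c • ·)

variable (k V) in
/-- level-constant 2-cochains -/
def C2 (𝒰 : Levels G) : Submodule k (G × G → V) where
  carrier := {f | 𝒰.LC2 f}
  add_mem' hf hf' := hf.add hf'
  zero_mem' := 𝒰.LC2_const (0 : V)
  smul_mem' c _ hf := hf.comp (c • ·)

variable (k V) in
/-- level-constant 3-cochains -/
def C3 (𝒰 : Levels G) : Submodule k (G × G × G → V) where
  carrier := {f | 𝒰.LC3 f}
  add_mem' hf hf' := hf.add hf'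
  zero_mem' := 𝒰.LC3_const (0 : V)
  smul_mem' c _ hf := hf.comp (c • ·)

variable (𝒰 : Levels G) (ρ : Representation k G V)

/-- 1-cocycles (level-constant) -/
def Z1 : Submodule k (G → V) := LinearMap.ker (d12 ρ) ⊓ C1 k V 𝒰
/-- 1-coboundaries -/
def B1 : Submodule k (G → V) := LinearMap.range (d01 ρ)
/-- 2-cocycles (level-constant) -/
def Z2 : Submodule k (G × G → V) := LinearMap.ker (d23 ρ) ⊓ C2 k V 𝒰
/-- 2-coboundaries (of level-constant 1-cochains) -/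
def B2 : Submodule k (G × G → V) := (C1 k V 𝒰).map (d12 ρ)
/-- 3-coboundaries (of level-constant 2-cochains) -/
def B3 : Submodule k (G × G × G → V) := (C2 k V 𝒰).map (d23 ρ)

/-- `H^1` of the level group -/
abbrev H1 : Type := ↥(Z1 𝒰 ρ) ⧸ (B1 ρ).submoduleOf (Z1 𝒰 ρ)
/-- `H^2` of the level group -/
abbrev H2 : Type := ↥(Z2 𝒰 ρ) ⧸ (B2 𝒰 ρ).submoduleOf (Z2 𝒰 ρ)

end Cochains

/-- The arithmetic datum: a level group `G` with finitely many "local" level groups `Gv v → G`. -/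
structure Datum where
  G : Type
  [grp : Group G]
  lev : Levels G
  ι : Type
  [fin : Fintype ι]
  [dec : DecidableEq ι]
  Gv : ι → Type
  [grpv : ∀ v, Group (Gv v)]
  levv : ∀ v, Levels (Gv v)
  r : ∀ v, Gv v →* G
  cont : ∀ v, ∀ U ∈ lev.carrier, ∃ W ∈ (levv v).carrier, W ≤ U.comap (r v)

attribute [instance] Datum.grp Datum.fin Datum.dec Datum.grpv

section Cone

variable (D : Datum) {k : Type} [CommRing k] {V : Type} [AddCommGroup V] [Module k V]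
  (ρ : Representation k D.G V)

/-- the restriction of `ρ` to the local group at `v` -/
abbrev Datum.loc (v : D.ι) : Representation k (D.Gv v) V := ρ.comp (D.r v)

variable (V) in
/-- cone cochains of degree 1 -/
abbrev Datum.CC1 : Type := (D.G → V) × (D.ι → V)
variable (V) in
/-- cone cochains of degree 2 -/
abbrev Datum.CC2 : Type := (D.G × D.G → V) × (∀ v : D.ι, D.Gv v → V)
variable (V) in
/-- cone cochains of degree 3 -/
abbrev Datum.CC3 : Type := (D.G × D.G × D.G → V) × (∀ v : D.ι, D.Gv v × D.Gv v → V)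

/-- restriction of 1-cochains to all local groups -/
def Datum.res1 : (D.G → V) →ₗ[k] (∀ v : D.ι, D.Gv v → V) where
  toFun a v := a ∘ D.r v
  map_add' _ _ := rfl
  map_smul' _ _ := rfl

/-- restriction of 2-cochains to all local groups -/
def Datum.res2 : (D.G × D.G → V) →ₗ[k] (∀ v : D.ι, D.Gv v × D.Gv v → V) where
  toFun a v := a ∘ Prod.map (D.r v) (D.r v)
  map_add' _ _ := rfl
  map_smul' _ _ := rfl

@[simp] lemma Datum.res1_apply (a : D.G → V) (v : D.ι) (g : D.Gv v) :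
    D.res1 (k := k) a v g = a (D.r v g) := rfl
@[simp] lemma Datum.res2_apply (a : D.G × D.G → V) (v : D.ι) (g : D.Gv v × D.Gv v) :
    D.res2 (k := k) a v g = a (D.r v g.1, D.r v g.2) := rfl

/-- local differentials, all places at once -/
def Datum.dl01 : (D.ι → V) →ₗ[k] (∀ v : D.ι, D.Gv v → V) :=
  LinearMap.pi fun v => d01 (D.loc ρ v) ∘ₗ LinearMap.proj v
/-- local differentials, all places at once -/
def Datum.dl12 : (∀ v : D.ι, D.Gv v → V) →ₗ[k] (∀ v : D.ι, D.Gv v × D.Gv v → V) :=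
  LinearMap.pi fun v => d12 (D.loc ρ v) ∘ₗ LinearMap.proj v

/-- cone differential `C^0_c = V → C^1_c`, `x ↦ (dx, (x)_v)` -/
def Datum.dc0 : V →ₗ[k] D.CC1 V :=
  (d01 ρ).prod (LinearMap.pi fun _ => LinearMap.id)
/-- cone differential `(a,b) ↦ (da, res a - db)` -/
def Datum.dc1 : D.CC1 V →ₗ[k] D.CC2 V :=
  (d12 ρ ∘ₗ LinearMap.fst k _ _).prod
    (D.res1 ∘ₗ LinearMap.fst k _ _ - D.dl01 ρ ∘ₗ LinearMap.snd k _ _)
/-- cone differential `(a,b) ↦ (da, res a - db)` -/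
def Datum.dc2 : D.CC2 V →ₗ[k] D.CC3 V :=
  (d23 ρ ∘ₗ LinearMap.fst k _ _).prod
    (D.res2 ∘ₗ LinearMap.fst k _ _ - D.dl12 ρ ∘ₗ LinearMap.snd k _ _)

lemma Datum.dc0_apply (x : V) : D.dc0 ρ x = (d01 ρ x, fun _ => x) := rfl
lemma Datum.dc1_apply (c : D.CC1 V) :
    D.dc1 ρ c = (d12 ρ c.1, fun v => c.1 ∘ D.r v - d01 (D.loc ρ v) (c.2 v)) := rfl
lemma Datum.dc2_apply (c : D.CC2 V) :
    D.dc2 ρ c = (d23 ρ c.1, fun v => c.1 ∘ Prod.map (D.r v) (D.r v) - d12 (D.loc ρ v) (c.2 v)) := rfl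

variable (k V) in
/-- level-constant cone cochains -/
def Datum.LCC1 : Submodule k (D.CC1 V) := (C1 k V D.lev).prod ⊤
variable (k V) in
/-- level-constant cone cochains -/
def Datum.LCC2 : Submodule k (D.CC2 V) :=
  (C2 k V D.lev).prod (Submodule.pi Set.univ fun v => C1 k V (D.levv v))
variable (k V) in
/-- level-constant cone cochains -/
def Datum.LCC3 : Submodule k (D.CC3 V) :=
  (C3 k V D.lev).prod (Submodule.pi Set.univ fun v => C2 k V (D.levv v))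

/-- cone cocycles / coboundaries -/
def Datum.ZC1 : Submodule k (D.CC1 V) := LinearMap.ker (D.dc1 ρ) ⊓ D.LCC1 k V
def Datum.BC1 : Submodule k (D.CC1 V) := LinearMap.range (D.dc0 ρ)
def Datum.ZC2 : Submodule k (D.CC2 V) := LinearMap.ker (D.dc2 ρ) ⊓ D.LCC2 k V
def Datum.BC2 : Submodule k (D.CC2 V) := (D.LCC1 k V).map (D.dc1 ρ)
def Datum.BC3 : Submodule k (D.CC3 V) := (D.LCC2 k V).map (D.dc2 ρ)

/-- compactly supported cohomology; `HC3` is `C^3_c / B^3_c` (NO cocycle condition: on purpose). -/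
abbrev Datum.HC1 : Type := ↥(D.ZC1 ρ) ⧸ (D.BC1 ρ).submoduleOf (D.ZC1 ρ)
abbrev Datum.HC2 : Type := ↥(D.ZC2 ρ) ⧸ (D.BC2 ρ).submoduleOf (D.ZC2 ρ)
abbrev Datum.HC3 : Type := ↥(D.LCC3 k V) ⧸ (D.BC3 ρ).submoduleOf (D.LCC3 k V)

/-- cocycles representing `Sha^1`: locally coboundaries -/
def Datum.ShaZ1 : Submodule k (D.G → V) :=
  Z1 D.lev ρ ⊓ (Submodule.pi Set.univ fun v => B1 (D.loc ρ v)).comap D.res1
/-- cocycles representing `Sha^2`: locally coboundaries -/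
def Datum.ShaZ2 : Submodule k (D.G × D.G → V) :=
  Z2 D.lev ρ ⊓ (Submodule.pi Set.univ fun v => B2 (D.levv v) (D.loc ρ v)).comap D.res2

/-- `Sha^1 = ker (H^1(G) → ∏ H^1(G_v))` -/
abbrev Datum.Sha1 : Type := ↥(D.ShaZ1 ρ) ⧸ (B1 ρ).submoduleOf (D.ShaZ1 ρ)
/-- `Sha^2 = ker (H^2(G) → ∏ H^2(G_v))` -/
abbrev Datum.Sha2 : Type := ↥(D.ShaZ2 ρ) ⧸ (B2 D.lev ρ).submoduleOf (D.ShaZ2 ρ)

/-- families of local 2-cocycles -/
def Datum.ZL2 : Submodule k (∀ v : D.ι, D.Gv v × D.Gv v → V) :=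
  Submodule.pi Set.univ fun v => Z2 (D.levv v) (D.loc ρ v)
/-- families of local 2-coboundaries + restrictions of global 2-cocycles -/
def Datum.RL2 : Submodule k (∀ v : D.ι, D.Gv v × D.Gv v → V) :=
  (Submodule.pi Set.univ fun v => B2 (D.levv v) (D.loc ρ v)) ⊔ (Z2 D.lev ρ).map D.res2
/-- families of local 1-cocycles -/
def Datum.ZL1 : Submodule k (∀ v : D.ι, D.Gv v → V) :=
  Submodule.pi Set.univ fun v => Z1 (D.levv v) (D.loc ρ v)
/-- families of local 1-coboundaries + restrictions of global 1-cocycles -/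
def Datum.RL1 : Submodule k (∀ v : D.ι, D.Gv v → V) :=
  (Submodule.pi Set.univ fun v => B1 (D.loc ρ v)) ⊔ (Z1 D.lev ρ).map D.res1

/-- `coker (H^2(G) → ∏ H^2(G_v))` -/
abbrev Datum.Coker2 : Type := ↥(D.ZL2 ρ) ⧸ (D.RL2 ρ).submoduleOf (D.ZL2 ρ)
/-- `coker (H^1(G) → ∏ H^1(G_v))` -/
abbrev Datum.Coker1 : Type := ↥(D.ZL1 ρ) ⧸ (D.RL1 ρ).submoduleOf (D.ZL1 ρ)

end Cone

section Modules

variable {k : Type} [CommRing k] {G : Type} [Group G]

/-- the one-dimensional representation given by a character (`μ`) -/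
def chiRep (χ : G →* kˣ) : Representation k G k := (1 : Representation k G k).twist χ

/-- `Map(G/U, V)` with the diagonal action `(g F)(x) = g (F (g⁻¹ x))` -/
def mapRep {V : Type} [AddCommGroup V] [Module k V] (U : Subgroup G) (ρ : Representation k G V) :
    Representation k G (G ⧸ U → V) where
  toFun g :=
    { toFun := fun F x => ρ g (F (g⁻¹ • x))
      map_add' := fun F F' => funext fun x => by simp
      map_smul' := fun c F => funext fun x => by simp }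
  map_one' := by ext F x; simp
  map_mul' g h := by ext F x; simp [mul_smul]

@[simp] lemma mapRep_apply {V : Type} [AddCommGroup V] [Module k V] (U : Subgroup G)
    (ρ : Representation k G V) (g : G) (F : G ⧸ U → V) (x : G ⧸ U) :
    mapRep U ρ g F x = ρ g (F (g⁻¹ • x)) := rfl

/-- the permutation representation `k[G/U]` -/
abbrev permRep (k : Type) [CommRing k] (U : Subgroup G) : Representation k G (G ⧸ U → k) :=
  mapRep U (1 : Representation k G k)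

/-- the diagonal embedding `V → Map(G/U,V)` -/
def mapRepConst {V : Type} [AddCommGroup V] [Module k V] (U : Subgroup G) :
    V →ₗ[k] (G ⧸ U → V) where
  toFun v _ := v
  map_add' _ _ := rfl
  map_smul' _ _ := rfl

/-- the sum map `Map(G/U,V) → V` -/
noncomputable def mapRepSum {V : Type} [AddCommGroup V] [Module k V] (U : Subgroup G)
    [Fintype (G ⧸ U)] : (G ⧸ U → V) →ₗ[k] V where
  toFun F := ∑ x, F x
  map_add' _ _ := by simp [Finset.sum_add_distrib]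
  map_smul' _ _ := by simp [Finset.smul_sum]

end Modules

end Fermat.Agent.CFT
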