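import Fermat.Agent.CFT.F.Ctx
import Fermat.Agent.CFT.F.Basic

/-! # CFT / Part F, WP F6: structure of `Map(G/U,V)` when `U` acts trivially on `V`. -/

set_option autoImplicit false
set_option linter.unusedSectionVars false

namespace Fermat.Agent.CFT

open Module

section aux

variable {k : Type} [CommRing k] {G : Type} [Group G] {V W X : Type} [AddCommGroup V] [Module k V]
  [AddCommGroup W] [Module k W] [AddCommGroup X] [Module k X]
  {ρ : Representation k G V} {σ : Representation k G W} {τ : Representation k G X}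

lemma isoRep_symm_aux (h : IsoRep ρ σ) : IsoRep σ ρ := by
  obtain ⟨e, he⟩ := h
  refine ⟨e.symm, fun g w => ?_⟩
  apply e.injective
  rw [he, e.apply_symm_apply, e.apply_symm_apply]

lemma isoRep_trans_aux (h : IsoRep ρ σ) (h' : IsoRep σ τ) : IsoRep ρ τ := by
  obtain ⟨e, he⟩ := h
  obtain ⟨e', he'⟩ := h'
  exact ⟨e.trans e', fun g v => by rw [LinearEquiv.trans_apply, he, he', LinearEquiv.trans_apply]⟩

lemma rho_inv_apply_apply (ρ : Representation k G V) (g : G) (v : V) : ρ g⁻¹ (ρ g v) = v := by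
  rw [← Module.End.mul_apply, ← map_mul, inv_mul_cancel, map_one, Module.End.one_apply]

lemma rho_apply_inv_apply (ρ : Representation k G V) (g : G) (v : V) : ρ g (ρ g⁻¹ v) = v := by
  rw [← Module.End.mul_apply, ← map_mul, mul_inv_cancel, map_one, Module.End.one_apply]

/-- two representatives of the same coset act in the same way -/
lemma rho_eq_of_mk_eq {U : Subgroup G} (hU : ∀ s ∈ U, ∀ v, ρ s v = v) {a b : G}
    (hab : (a : G ⧸ U) = (b : G ⧸ U)) (v : V) : ρ a v = ρ b v := by
  have h1 : a⁻¹ * b ∈ U := QuotientGroup.eq.1 hab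
  have h2 : b = a * (a⁻¹ * b) := by group
  rw [h2, map_mul, Module.End.mul_apply, hU _ h1]

lemma rho_inv_eq_of_mk_eq {U : Subgroup G} (hU : ∀ s ∈ U, ∀ v, ρ s v = v) {a b : G}
    (hab : (a : G ⧸ U) = (b : G ⧸ U)) (v : V) : ρ a⁻¹ v = ρ b⁻¹ v := by
  have h1 : a⁻¹ * b ∈ U := QuotientGroup.eq.1 hab
  have h2 : a⁻¹ = (a⁻¹ * b) * b⁻¹ := by group
  rw [h2, map_mul, Module.End.mul_apply, hU _ h1]

lemma mk_smul_out (U : Subgroup G) (g : G) (x : G ⧸ U) :
    ((g * x.out : G) : G ⧸ U) = (((g • x).out : G) : G ⧸ U) := by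
  rw [QuotientGroup.out_eq']
  conv_rhs => rw [← QuotientGroup.out_eq' x]
  rfl

end aux

variable {k : Type} [Field k] {G : Type} [Group G] {V : Type} [AddCommGroup V] [Module k V]
  [FiniteDimensional k V] {ρ : Representation k G V} {χ : G →* kˣ}

/-- untwisting, with an arbitrary index `n = dim V` -/
theorem isoRep_mapRep_aux {U : Subgroup G} (hU : ∀ s ∈ U, ∀ v, ρ s v = v) {n : ℕ}
    (hn : finrank k V = n) : IsoRep (mapRep U ρ) (piRep n (permRep k U)) := by
  subst hn
  let b := finBasis k V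
  let e : (G ⧸ U → V) ≃ₗ[k] (Fin (finrank k V) → G ⧸ U → k) :=
    { toFun := fun F j x => b.equivFun (ρ (x.out)⁻¹ (F x)) j
      map_add' := fun F F' => by ext j x; simp
      map_smul' := fun c F => by ext j x; simp
      invFun := fun Φ x => ρ x.out (b.equivFun.symm (fun j => Φ j x))
      left_inv := fun F => by
        funext x
        show ρ x.out (b.equivFun.symm (b.equivFun (ρ (x.out)⁻¹ (F x)))) = F x
        rw [LinearEquiv.symm_apply_apply]
        exact rho_apply_inv_apply ρ _ _
      right_inv := fun Φ => by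
        funext j x
        show b.equivFun (ρ (x.out)⁻¹ (ρ x.out (b.equivFun.symm (fun j => Φ j x)))) j = Φ j x
        rw [rho_inv_apply_apply, LinearEquiv.apply_symm_apply] }
  refine ⟨e, fun g F => ?_⟩
  funext j x
  show b.equivFun (ρ (x.out)⁻¹ (ρ g (F (g⁻¹ • x)))) j
    = b.equivFun (ρ ((g⁻¹ • x).out)⁻¹ (F (g⁻¹ • x))) j
  rw [← rho_inv_eq_of_mk_eq hU (mk_smul_out U g⁻¹ x), mul_inv_rev, inv_inv, map_mul,
    Module.End.mul_apply]

/-- untwisting `F ↦ (x ↦ ρ(x)⁻¹ F(x))` + a basis of `V` -/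
theorem isoRep_mapRep {U : Subgroup G} [U.Normal] (hU : ∀ s ∈ U, ∀ v, ρ s v = v) :
    IsoRep (mapRep U ρ) (piRep (finrank k V) (permRep k U)) :=
  isoRep_mapRep_aux hU rfl

/-- `Map(G/U,V)^*(χ) ≅ Map(G/U,V^*(χ))` -/
theorem isoRep_mapRep_dual_aux (ρ : Representation k G V) (χ : G →* kˣ) (U : Subgroup G)
    [U.FiniteIndex] : IsoRep (mapRep U (ρ.dual.twist χ)) ((mapRep U ρ).dual.twist χ) := by
  classical
  have : Finite (G ⧸ U) := Subgroup.finite_quotient_of_finiteIndex
  let := Fintype.ofFinite (G ⧸ U)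
  refine ⟨LinearMap.lsum k (fun _ : G ⧸ U => V) k, fun g F' => ?_⟩
  refine LinearMap.ext fun F => ?_
  simp only [LinearMap.lsum_apply, LinearMap.sum_apply, LinearMap.comp_apply, LinearMap.proj_apply,
    mapRep_apply, Representation.twist_apply_apply, Representation.dual_apply,
    LinearMap.smul_apply, Module.Dual.transpose_apply, smul_eq_mul, inv_inv]
  rw [← Finset.mul_sum]
  congr 1
  exact (Equiv.sum_comp (MulAction.toPerm g⁻¹ : Equiv.Perm (G ⧸ U))
    (fun x => F' x (ρ g⁻¹ (F (g • x))))).symm.trans (by simp) |>.symm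

/-- the same for the twisted dual; pairing `⟨F',F⟩ = ∑_x F'(x)(F(x))` -/
theorem isoRep_mapRep_dualTwist {U : Subgroup G} [U.Normal] [U.FiniteIndex]
    (hU : ∀ s ∈ U, ∀ v, ρ s v = v) (hχ : ∀ s ∈ U, χ s = 1) :
    IsoRep ((mapRep U ρ).dual.twist χ) (piRep (finrank k V) (permRep k U)) := by
  refine isoRep_trans_aux (isoRep_symm_aux (isoRep_mapRep_dual_aux ρ χ U))
    (isoRep_mapRep_aux ?_ Subspace.dual_finrank_eq)
  intro s hs f
  ext v
  simp only [Representation.twist_apply_apply, Representation.dual_apply, hχ s hs, Units.val_one,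
    one_smul, Module.Dual.transpose_apply, LinearMap.comp_apply, hU _ (U.inv_mem hs)]

/-- invariants of `Map(G/U,V)`: `y` is determined by `y 1`, which is arbitrary -/
theorem finrank_invariants_mapRep {U : Subgroup G} [U.Normal] (hU : ∀ s ∈ U, ∀ v, ρ s v = v) :
    finrank k (mapRep U ρ).invariants = finrank k V := by
  let ev : (mapRep U ρ).invariants →ₗ[k] V :=
    (LinearMap.proj ((1 : G) : G ⧸ U)) ∘ₗ (mapRep U ρ).invariants.subtype
  have hev : ∀ y : (mapRep U ρ).invariants, ev y = (y : G ⧸ U → V) ((1 : G) : G ⧸ U) := fun _ => rfl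
  have hbij : Function.Bijective ev := by
    constructor
    · rw [← LinearMap.ker_eq_bot, LinearMap.ker_eq_bot']
      intro y hy
      apply Subtype.ext
      funext x
      obtain ⟨g, rfl⟩ := QuotientGroup.mk_surjective x
      have h1 := congrFun (y.2 g) ((g : G) : G ⧸ U)
      rw [mapRep_apply] at h1
      have h2 : g⁻¹ • ((g : G) : G ⧸ U) = ((1 : G) : G ⧸ U) := by
        show ((g⁻¹ * g : G) : G ⧸ U) = _
        rw [inv_mul_cancel]
      rw [h2, ← hev, hy, map_zero] at h1
      exact h1.symm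
    · intro v
      refine ⟨⟨fun x => ρ x.out v, fun g => ?_⟩, ?_⟩
      · funext x
        rw [mapRep_apply, ← Module.End.mul_apply, ← map_mul]
        apply rho_eq_of_mk_eq hU
        rw [mk_smul_out, smul_inv_smul]
      · rw [hev]
        show ρ _ v = v
        have : ρ (((1 : G) : G ⧸ U).out) v = ρ 1 v :=
          rho_eq_of_mk_eq hU (QuotientGroup.out_eq' _) v
        rw [this, map_one, Module.End.one_apply]
  exact (LinearEquiv.ofBijective ev hbij).finrank_eq

instance {U : Subgroup G} [U.FiniteIndex] : FiniteDimensional k (G ⧸ U → V) := by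
  have : Finite (G ⧸ U) := Subgroup.finite_quotient_of_finiteIndex
  infer_instance

/-- double dual -/
theorem isoRep_dualTwist_dualTwist (ρ : Representation k G V) (χ : G →* kˣ) :
    IsoRep ρ ((ρ.dual.twist χ).dual.twist χ) := by
  refine ⟨Module.evalEquiv k V, fun g v => ?_⟩
  ext f
  simp only [Module.evalEquiv_apply, Module.Dual.eval_apply, Representation.twist_apply_apply,
    Representation.dual_apply, LinearMap.smul_apply, Module.Dual.transpose_apply,
    LinearMap.comp_apply, smul_eq_mul, inv_inv, map_smul, map_inv]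
  rw [← mul_assoc, Units.val_inv_eq_inv_val, mul_inv_cancel₀ (Units.ne_zero _), one_mul]

end Fermat.Agent.CFT
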