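import Fermat.Agent.CFT.F.Ctx
import Fermat.Agent.CFT.F.Basic

/-! # CFT / Part F, WP F7: invariance under isomorphism and additivity of `H1, Coker1, Coker2, Sha2`.
Hint: `f ∈ Z2 𝒰 (piRep n ρ) ↔ ∀ j, (fun g => f g j) ∈ Z2 𝒰 ρ` etc., then `Submodule.quotientPi`. -/

set_option autoImplicit false

namespace Fermat.Agent.CFT

namespace Transport

/-! ## Abstract linear algebra -/

section Abstract

variable {k : Type} [CommRing k] {A A' : Type} [AddCommGroup A] [Module k A]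
  [AddCommGroup A'] [Module k A']

theorem mem_submoduleOf_iff {p q : Submodule k A} {x : ↥q} : x ∈ p.submoduleOf q ↔ (x : A) ∈ p :=
  Iff.rfl

/-- subquotients correspond under mutually inverse maps preserving the submodules -/
theorem quot_iso (E : A →ₗ[k] A') (E' : A' →ₗ[k] A) (h1 : ∀ a, E' (E a) = a)
    (h2 : ∀ a, E (E' a) = a) {Z B : Submodule k A} {Z' B' : Submodule k A'}
    (hZ : ∀ a ∈ Z, E a ∈ Z') (hZ' : ∀ a ∈ Z', E' a ∈ Z)
    (hB : ∀ a ∈ B, E a ∈ B') (hB' : ∀ a ∈ B', E' a ∈ B) :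
    Nonempty ((↥Z ⧸ B.submoduleOf Z) ≃ₗ[k] (↥Z' ⧸ B'.submoduleOf Z')) := by
  let e : ↥Z ≃ₗ[k] ↥Z' :=
    { toFun := fun a => ⟨E a, hZ a a.2⟩
      invFun := fun a => ⟨E' a, hZ' a a.2⟩
      map_add' := fun a b => Subtype.ext (by simp)
      map_smul' := fun c a => Subtype.ext (by simp)
      left_inv := fun a => Subtype.ext (h1 a)
      right_inv := fun a => Subtype.ext (h2 a) }
  refine ⟨Submodule.Quotient.equiv _ _ e ?_⟩
  ext x
  simp only [Submodule.mem_map, mem_submoduleOf_iff]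
  constructor
  · rintro ⟨y, hy, rfl⟩
    exact hB _ hy
  · intro hx
    refine ⟨e.symm x, hB' _ hx, e.apply_symm_apply x⟩

/-- subquotients of a finite "biproduct" -/
theorem quot_pi {n : ℕ} (p : Fin n → A' →ₗ[k] A) (i : Fin n → A →ₗ[k] A')
    (hip : ∀ a, ∑ j, i j (p j a) = a) (hpi : ∀ j j' a, p j (i j' a) = if j = j' then a else 0)
    {Z B : Submodule k A} {Z' B' : Submodule k A'}
    (hZp : ∀ j, ∀ a ∈ Z', p j a ∈ Z) (hZi : ∀ j, ∀ a ∈ Z, i j a ∈ Z')
    (hBp : ∀ j, ∀ a ∈ B', p j a ∈ B) (hBi : ∀ j, ∀ a ∈ B, i j a ∈ B') :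
    Nonempty ((↥Z' ⧸ B'.submoduleOf Z') ≃ₗ[k] (Fin n → ↥Z ⧸ B.submoduleOf Z)) := by
  let e : ↥Z' ≃ₗ[k] (Fin n → ↥Z) :=
    { toFun := fun a j => ⟨p j a, hZp j a a.2⟩
      invFun := fun a => ⟨∑ j, i j (a j), Submodule.sum_mem _ fun j _ => hZi j _ (a j).2⟩
      map_add' := fun a b => funext fun j => Subtype.ext (by simp)
      map_smul' := fun c a => funext fun j => Subtype.ext (by simp)
      left_inv := fun a => Subtype.ext (hip a)
      right_inv := fun a => funext fun j => Subtype.ext (by simp [hpi]) }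
  refine ⟨(Submodule.Quotient.equiv _ (Submodule.pi Set.univ fun _ => B.submoduleOf Z) e ?_).trans
    (Submodule.quotientPi _)⟩
  ext x
  simp only [Submodule.mem_map, mem_submoduleOf_iff, Submodule.mem_pi, Set.mem_univ,
    forall_true_left]
  constructor
  · rintro ⟨y, hy, rfl⟩ j
    exact hBp j _ hy
  · intro hx
    refine ⟨e.symm x, ?_, e.apply_symm_apply x⟩
    show ∑ j, i j (x j) ∈ B'
    exact Submodule.sum_mem _ fun j _ => hBi j _ (hx j)

end Abstract

/-! ## Functoriality of all the submodules in the coefficient module -/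

section Funct

variable {D : Datum} {k : Type} [CommRing k] {V W : Type} [AddCommGroup V] [Module k V]
  [AddCommGroup W] [Module k W] {ρ : Representation k D.G V} {σ : Representation k D.G W}

/-- post-composition on families of local 1-cochains -/
def loc1 (D : Datum) (f : V →ₗ[k] W) : (∀ v : D.ι, D.Gv v → V) →ₗ[k] (∀ v : D.ι, D.Gv v → W) :=
  LinearMap.pi fun v => (f.compLeft (D.Gv v)) ∘ₗ LinearMap.proj v

/-- post-composition on families of local 2-cochains -/
def loc2 (D : Datum) (f : V →ₗ[k] W) :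
    (∀ v : D.ι, D.Gv v × D.Gv v → V) →ₗ[k] (∀ v : D.ι, D.Gv v × D.Gv v → W) :=
  LinearMap.pi fun v => (f.compLeft (D.Gv v × D.Gv v)) ∘ₗ LinearMap.proj v

@[simp] lemma loc1_apply (f : V →ₗ[k] W) (b : ∀ v : D.ι, D.Gv v → V) (v : D.ι) (g : D.Gv v) :
    loc1 D f b v g = f (b v g) := rfl
@[simp] lemma loc2_apply (f : V →ₗ[k] W) (b : ∀ v : D.ι, D.Gv v × D.Gv v → V) (v : D.ι)
    (g : D.Gv v × D.Gv v) : loc2 D f b v g = f (b v g) := rfl

variable (f : V →ₗ[k] W) (hf : ∀ g v, f (ρ g v) = σ g (f v))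
include hf

theorem map_Z1 {a : D.G → V} (ha : a ∈ Z1 D.lev ρ) : f.compLeft D.G a ∈ Z1 D.lev σ :=
  comp_mem_Z1 f hf ha
theorem map_B1 {a : D.G → V} (ha : a ∈ B1 ρ) : f.compLeft D.G a ∈ B1 σ :=
  comp_mem_B1 f hf ha
theorem map_Z2 {a : D.G × D.G → V} (ha : a ∈ Z2 D.lev ρ) :
    f.compLeft (D.G × D.G) a ∈ Z2 D.lev σ :=
  comp_mem_Z2 f hf ha
theorem map_B2 {a : D.G × D.G → V} (ha : a ∈ B2 D.lev ρ) :
    f.compLeft (D.G × D.G) a ∈ B2 D.lev σ :=
  comp_mem_B2 f hf ha

theorem map_piB1 {b : ∀ v : D.ι, D.Gv v → V}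
    (hb : b ∈ Submodule.pi Set.univ fun v => B1 (D.loc ρ v)) :
    loc1 D f b ∈ Submodule.pi Set.univ fun v => B1 (D.loc σ v) :=
  fun v hv => comp_mem_B1 (ρ := D.loc ρ v) (σ := D.loc σ v) f (fun g x => hf (D.r v g) x) (hb v hv)

theorem map_piB2 {b : ∀ v : D.ι, D.Gv v × D.Gv v → V}
    (hb : b ∈ Submodule.pi Set.univ fun v => B2 (D.levv v) (D.loc ρ v)) :
    loc2 D f b ∈ Submodule.pi Set.univ fun v => B2 (D.levv v) (D.loc σ v) :=
  fun v hv => comp_mem_B2 (ρ := D.loc ρ v) (σ := D.loc σ v) f (fun g x => hf (D.r v g) x) (hb v hv)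

theorem map_ZL1 {b : ∀ v : D.ι, D.Gv v → V} (hb : b ∈ D.ZL1 ρ) : loc1 D f b ∈ D.ZL1 σ :=
  fun v hv => comp_mem_Z1 (ρ := D.loc ρ v) (σ := D.loc σ v) f (fun g x => hf (D.r v g) x) (hb v hv)

theorem map_ZL2 {b : ∀ v : D.ι, D.Gv v × D.Gv v → V} (hb : b ∈ D.ZL2 ρ) : loc2 D f b ∈ D.ZL2 σ :=
  fun v hv => comp_mem_Z2 (ρ := D.loc ρ v) (σ := D.loc σ v) f (fun g x => hf (D.r v g) x) (hb v hv)

theorem map_ShaZ1 {a : D.G → V} (ha : a ∈ D.ShaZ1 ρ) : f.compLeft D.G a ∈ D.ShaZ1 σ :=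
  ⟨map_Z1 f hf ha.1, map_piB1 f hf ha.2⟩

theorem map_ShaZ2 {a : D.G × D.G → V} (ha : a ∈ D.ShaZ2 ρ) :
    f.compLeft (D.G × D.G) a ∈ D.ShaZ2 σ :=
  ⟨map_Z2 f hf ha.1, map_piB2 f hf ha.2⟩

theorem map_RL1 {b : ∀ v : D.ι, D.Gv v → V} (hb : b ∈ D.RL1 ρ) : loc1 D f b ∈ D.RL1 σ := by
  obtain ⟨y, hy, z, hz, rfl⟩ := Submodule.mem_sup.1 hb
  obtain ⟨a, ha, rfl⟩ := hz
  rw [map_add]
  exact Submodule.add_mem_sup (map_piB1 f hf hy) ⟨_, map_Z1 f hf ha, rfl⟩

theorem map_RL2 {b : ∀ v : D.ι, D.Gv v × D.Gv v → V} (hb : b ∈ D.RL2 ρ) :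
    loc2 D f b ∈ D.RL2 σ := by
  obtain ⟨y, hy, z, hz, rfl⟩ := Submodule.mem_sup.1 hb
  obtain ⟨a, ha, rfl⟩ := hz
  rw [map_add]
  exact Submodule.add_mem_sup (map_piB2 f hf hy) ⟨_, map_Z2 f hf ha, rfl⟩

end Funct

/-! ## The biproduct structure of `piRep` -/

section Pi

variable {k : Type} [CommRing k] {G : Type} [Group G] {V : Type} [AddCommGroup V] [Module k V]
  (ρ : Representation k G V) (n : ℕ)

theorem proj_equiv (j : Fin n) (g : G) (x : Fin n → V) :
    (LinearMap.proj j : (Fin n → V) →ₗ[k] V) (piRep n ρ g x)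
      = ρ g ((LinearMap.proj j : (Fin n → V) →ₗ[k] V) x) := rfl

theorem single_equiv (j : Fin n) (g : G) (x : V) :
    (LinearMap.single k (fun _ : Fin n => V) j) (ρ g x)
      = piRep n ρ g (LinearMap.single k (fun _ : Fin n => V) j x) := by
  funext j'
  by_cases h : j' = j
  · subst h; simp
  · simp [Pi.single_eq_of_ne h]

theorem sum_single_proj (x : Fin n → V) :
    ∑ j, (LinearMap.single k (fun _ : Fin n => V) j) ((LinearMap.proj j : (Fin n → V) →ₗ[k] V) x)
      = x := by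
  simp only [LinearMap.coe_single, LinearMap.coe_proj, Function.eval]
  exact Finset.univ_sum_single x

theorem proj_single (j j' : Fin n) (x : V) :
    (LinearMap.proj j : (Fin n → V) →ₗ[k] V) (LinearMap.single k (fun _ : Fin n => V) j' x)
      = if j = j' then x else 0 := by
  simp only [LinearMap.coe_single, LinearMap.coe_proj, Function.eval, Pi.single_apply]

end Pi

end Transport

open Transport

variable {D : Datum} {k : Type} [Field k] {V W : Type} [AddCommGroup V] [Module k V]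
  [AddCommGroup W] [Module k W] {ρ : Representation k D.G V} {σ : Representation k D.G W}

theorem IsoRep.symm_equiv {e : V ≃ₗ[k] W} (he : ∀ g v, e (ρ g v) = σ g (e v)) (g : D.G) (w : W) :
    e.symm (σ g w) = ρ g (e.symm w) := by
  apply e.injective
  rw [he, e.apply_symm_apply, e.apply_symm_apply]

theorem IsoRep.H1 (h : IsoRep ρ σ) : Nonempty (H1 D.lev ρ ≃ₗ[k] H1 D.lev σ) := by
  obtain ⟨e, he⟩ := h
  have he' := IsoRep.symm_equiv he
  exact quot_iso (e.toLinearMap.compLeft D.G) (e.symm.toLinearMap.compLeft D.G)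
    (fun a => funext fun g => e.symm_apply_apply _) (fun a => funext fun g => e.apply_symm_apply _)
    (fun _ => map_Z1 _ he) (fun _ => map_Z1 _ he') (fun _ => map_B1 _ he) (fun _ => map_B1 _ he')

theorem IsoRep.Coker1 (h : IsoRep ρ σ) : Nonempty (D.Coker1 ρ ≃ₗ[k] D.Coker1 σ) := by
  obtain ⟨e, he⟩ := h
  have he' := IsoRep.symm_equiv he
  exact quot_iso (loc1 D e.toLinearMap) (loc1 D e.symm.toLinearMap)
    (fun a => funext fun v => funext fun g => e.symm_apply_apply _)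
    (fun a => funext fun v => funext fun g => e.apply_symm_apply _)
    (fun _ => map_ZL1 _ he) (fun _ => map_ZL1 _ he') (fun _ => map_RL1 _ he)
    (fun _ => map_RL1 _ he')

theorem IsoRep.Coker2 (h : IsoRep ρ σ) : Nonempty (D.Coker2 ρ ≃ₗ[k] D.Coker2 σ) := by
  obtain ⟨e, he⟩ := h
  have he' := IsoRep.symm_equiv he
  exact quot_iso (loc2 D e.toLinearMap) (loc2 D e.symm.toLinearMap)
    (fun a => funext fun v => funext fun g => e.symm_apply_apply _)
    (fun a => funext fun v => funext fun g => e.apply_symm_apply _)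
    (fun _ => map_ZL2 _ he) (fun _ => map_ZL2 _ he') (fun _ => map_RL2 _ he)
    (fun _ => map_RL2 _ he')

theorem IsoRep.Sha1 (h : IsoRep ρ σ) : Nonempty (D.Sha1 ρ ≃ₗ[k] D.Sha1 σ) := by
  obtain ⟨e, he⟩ := h
  have he' := IsoRep.symm_equiv he
  exact quot_iso (e.toLinearMap.compLeft D.G) (e.symm.toLinearMap.compLeft D.G)
    (fun a => funext fun g => e.symm_apply_apply _) (fun a => funext fun g => e.apply_symm_apply _)
    (fun _ => map_ShaZ1 _ he) (fun _ => map_ShaZ1 _ he') (fun _ => map_B1 _ he)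
    (fun _ => map_B1 _ he')

theorem IsoRep.Sha2 (h : IsoRep ρ σ) : Nonempty (D.Sha2 ρ ≃ₗ[k] D.Sha2 σ) := by
  obtain ⟨e, he⟩ := h
  have he' := IsoRep.symm_equiv he
  exact quot_iso (e.toLinearMap.compLeft (D.G × D.G)) (e.symm.toLinearMap.compLeft (D.G × D.G))
    (fun a => funext fun g => e.symm_apply_apply _) (fun a => funext fun g => e.apply_symm_apply _)
    (fun _ => map_ShaZ2 _ he) (fun _ => map_ShaZ2 _ he') (fun _ => map_B2 _ he)
    (fun _ => map_B2 _ he')

theorem H1_piRep (n : ℕ) : Nonempty (H1 D.lev (piRep n ρ) ≃ₗ[k] (Fin n → H1 D.lev ρ)) := by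
  refine quot_pi (fun j => (LinearMap.proj j : (Fin n → V) →ₗ[k] V).compLeft D.G)
    (fun j => (LinearMap.single k (fun _ : Fin n => V) j).compLeft D.G)
    (fun a => funext fun g => ?_) (fun j j' a => funext fun g => ?_)
    (fun j _ => map_Z1 _ (proj_equiv ρ n j)) (fun j _ => map_Z1 _ (single_equiv ρ n j))
    (fun j _ => map_B1 _ (proj_equiv ρ n j)) (fun j _ => map_B1 _ (single_equiv ρ n j))
  · rw [Finset.sum_apply]; exact sum_single_proj (k := k) n (a g)
  · refine (proj_single (k := k) n j j' (a g)).trans ?_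
    split_ifs <;> rfl

theorem Coker1_piRep (n : ℕ) : Nonempty (D.Coker1 (piRep n ρ) ≃ₗ[k] (Fin n → D.Coker1 ρ)) := by
  refine quot_pi (fun j => loc1 D (LinearMap.proj j : (Fin n → V) →ₗ[k] V))
    (fun j => loc1 D (LinearMap.single k (fun _ : Fin n => V) j))
    (fun a => funext fun v => funext fun g => ?_) (fun j j' a => funext fun v => funext fun g => ?_)
    (fun j _ => map_ZL1 _ (proj_equiv ρ n j)) (fun j _ => map_ZL1 _ (single_equiv ρ n j))
    (fun j _ => map_RL1 _ (proj_equiv ρ n j)) (fun j _ => map_RL1 _ (single_equiv ρ n j))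
  · rw [Finset.sum_apply, Finset.sum_apply]; exact sum_single_proj (k := k) n (a v g)
  · refine (proj_single (k := k) n j j' (a v g)).trans ?_
    split_ifs <;> rfl

theorem Coker2_piRep (n : ℕ) : Nonempty (D.Coker2 (piRep n ρ) ≃ₗ[k] (Fin n → D.Coker2 ρ)) := by
  refine quot_pi (fun j => loc2 D (LinearMap.proj j : (Fin n → V) →ₗ[k] V))
    (fun j => loc2 D (LinearMap.single k (fun _ : Fin n => V) j))
    (fun a => funext fun v => funext fun g => ?_) (fun j j' a => funext fun v => funext fun g => ?_)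
    (fun j _ => map_ZL2 _ (proj_equiv ρ n j)) (fun j _ => map_ZL2 _ (single_equiv ρ n j))
    (fun j _ => map_RL2 _ (proj_equiv ρ n j)) (fun j _ => map_RL2 _ (single_equiv ρ n j))
  · rw [Finset.sum_apply, Finset.sum_apply]; exact sum_single_proj (k := k) n (a v g)
  · refine (proj_single (k := k) n j j' (a v g)).trans ?_
    split_ifs <;> rfl

theorem Sha2_piRep (n : ℕ) : Nonempty (D.Sha2 (piRep n ρ) ≃ₗ[k] (Fin n → D.Sha2 ρ)) := by
  refine quot_pi (fun j => (LinearMap.proj j : (Fin n → V) →ₗ[k] V).compLeft (D.G × D.G))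
    (fun j => (LinearMap.single k (fun _ : Fin n => V) j).compLeft (D.G × D.G))
    (fun a => funext fun g => ?_) (fun j j' a => funext fun g => ?_)
    (fun j _ => map_ShaZ2 _ (proj_equiv ρ n j)) (fun j _ => map_ShaZ2 _ (single_equiv ρ n j))
    (fun j _ => map_B2 _ (proj_equiv ρ n j)) (fun j _ => map_B2 _ (single_equiv ρ n j))
  · rw [Finset.sum_apply]; exact sum_single_proj (k := k) n (a g)
  · refine (proj_single (k := k) n j j' (a g)).trans ?_
    split_ifs <;> rfl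

end Fermat.Agent.CFT
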