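import Fermat.Agent.CFT.F.Ctx
import Fermat.Agent.CFT.F.Cup
import Fermat.Agent.CFT.F.MapRep
import Fermat.Agent.CFT.F.Transport

/-! # CFT / Part F, WP F9: the degree 0 pairing `W^G × ∏_v H^2(G_v, W') → k`.

(a') `deg0_injective`: pick `f₀ ∈ W'` with `f₀ y = 1`, a level `W₀` of `G_{v₀}` acting trivially on `W'`
and on `μ`; `θ : Map(G_{v₀}/W₀, μ) → W'`, `θ F = ∑_x F(x) χ(x)⁻¹ σ'(x) f₀` is equivariant and
`(θ F)(y) = ∑_x F x`. Push the class of `Ctx.nonvan` along `θ`; put `0` at the other places.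
(b') `deg0_surjective`: dimension count: `I^G → (Coker2 I')^*` is injective by (a') and
`dim Coker2 I' ≤ dim N = dim I^G` by `GoodLevel.codim`, `isoRep_mapRep_dualTwist`, `Coker2_piRep`. -/

set_option autoImplicit false
set_option linter.unusedSectionVars false
set_option linter.unusedVariables false

namespace Fermat.Agent.CFT

open Module

section CupInv

variable {k : Type} [CommRing k] {G : Type} [Group G] {V V' : Type} [AddCommGroup V] [Module k V]
  [AddCommGroup V'] [Module k V'] {ρ : Representation k G V} {ρ' : Representation k G V'}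
  {χ : G →* kˣ} {β : V →ₗ[k] V' →ₗ[k] k} {𝒰 : Levels G}

theorem cup02_add_right (x : V) (b b' : G × G → V') :
    cup02 β x (b + b') = cup02 β x b + cup02 β x b' := by
  funext g
  simp [cup02]

theorem cup02_smul_right (x : V) (c : k) (b : G × G → V') :
    cup02 β x (c • b) = c • cup02 β x b := by
  funext g
  simp [cup02]

theorem cup02_add_left (x x' : V) (b : G × G → V') :
    cup02 β (x + x') b = cup02 β x b + cup02 β x' b := by
  funext g
  simp [cup02]

theorem cup02_smul_left (c : k) (x : V) (b : G × G → V') :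
    cup02 β (c • x) b = c • cup02 β x b := by
  funext g
  simp [cup02]

theorem cup02_zero_right (x : V) : cup02 β x (0 : G × G → V') = 0 := by
  funext g
  simp [cup02]

/-- cup product of an invariant vector with a 2-cocycle. -/
theorem cup02_mem_Z2 (hβ : IsEquivPairing ρ ρ' χ β) {x : V} (hx : ∀ g, ρ g x = x)
    {b : G × G → V'} (hb : b ∈ Z2 𝒰 ρ') : cup02 β x b ∈ Z2 𝒰 (chiRep χ) := by
  refine ⟨?_, cup02_mem_C2 x hb.2⟩
  have h0 : d01 ρ x = 0 := by
    funext g
    simp [hx g]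
  have h1 : d23 ρ' b = 0 := hb.1
  show d23 (chiRep χ) (cup02 β x b) = 0
  rw [leibniz02 hβ, h0, h1]
  funext g
  simp [cup12, cup03]

/-- cup product of an invariant vector with a 2-coboundary. -/
theorem cup02_mem_B2 (hβ : IsEquivPairing ρ ρ' χ β) {x : V} (hx : ∀ g, ρ g x = x)
    {b : G × G → V'} (hb : b ∈ B2 𝒰 ρ') : cup02 β x b ∈ B2 𝒰 (chiRep χ) := by
  obtain ⟨f, hf, rfl⟩ := hb
  refine ⟨cup01 β x f, cup01_mem_C1 x hf, ?_⟩
  have h0 : d01 ρ x = 0 := by
    funext g
    simp [hx g]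
  rw [leibniz01 hβ, h0]
  funext g
  simp [cup11]

end CupInv

variable {D : Datum} {k : Type} [Field k] {χ : D.G →* kˣ}
  {lam : ∀ v : D.ι, (D.Gv v × D.Gv v → k) →ₗ[k] k} {Φ : D.CC3 k →ₗ[k] k}

section EllLinear

variable {W : Type} [AddCommGroup W] [Module k W]

theorem ell_add_right (y : W) (e e' : ∀ v : D.ι, D.Gv v × D.Gv v → Module.Dual k W) :
    D.ell lam y (e + e') = D.ell lam y e + D.ell lam y e' := by
  simp only [Datum.ell, Pi.add_apply, cup02_add_right, map_add, Finset.sum_add_distrib]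

theorem ell_smul_right (c : k) (y : W) (e : ∀ v : D.ι, D.Gv v × D.Gv v → Module.Dual k W) :
    D.ell lam y (c • e) = c • D.ell lam y e := by
  simp only [Datum.ell, Pi.smul_apply, cup02_smul_right, map_smul, Finset.smul_sum]

theorem ell_add_left (y y' : W) (e : ∀ v : D.ι, D.Gv v × D.Gv v → Module.Dual k W) :
    D.ell lam (y + y') e = D.ell lam y e + D.ell lam y' e := by
  simp only [Datum.ell, cup02_add_left, map_add, Finset.sum_add_distrib]

theorem ell_smul_left (c : k) (y : W) (e : ∀ v : D.ι, D.Gv v × D.Gv v → Module.Dual k W) :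
    D.ell lam (c • y) e = c • D.ell lam y e := by
  simp only [Datum.ell, cup02_smul_left, map_smul, Finset.smul_sum]

variable (lam) in
/-- `ell` as a bilinear map. -/
noncomputable def ellL (W : Type) [AddCommGroup W] [Module k W] :
    W →ₗ[k] (∀ v : D.ι, D.Gv v × D.Gv v → Module.Dual k W) →ₗ[k] k :=
  LinearMap.mk₂ k (fun y e => D.ell lam y e) ell_add_left ell_smul_left ell_add_right
    ell_smul_right

@[simp] theorem ellL_apply (y : W) (e : ∀ v : D.ι, D.Gv v × D.Gv v → Module.Dual k W) :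
    ellL lam W y e = D.ell lam y e := rfl

end EllLinear

/-- local cocycles: `y ∪ e_v` is a local cocycle of `μ`. -/
theorem cup02_mem_Z2_loc {W : Type} [AddCommGroup W] [Module k W]
    {σ : Representation k D.G W} {y : W} (hy : ∀ g, σ g y = y) (v : D.ι)
    {b : D.Gv v × D.Gv v → Module.Dual k W} (hb : b ∈ Z2 (D.levv v) (D.loc (σ.dual.twist χ) v)) :
    cup02 (evalP k W) y b ∈ Z2 (D.levv v) (D.loc (chiRep χ) v) := by
  rw [loc_chiRep]
  exact cup02_mem_Z2 ((isEquivPairing_evalP σ χ).loc v) (fun g => hy _) hb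

theorem cup02_mem_B2_loc {W : Type} [AddCommGroup W] [Module k W]
    {σ : Representation k D.G W} {y : W} (hy : ∀ g, σ g y = y) (v : D.ι)
    {b : D.Gv v × D.Gv v → Module.Dual k W} (hb : b ∈ B2 (D.levv v) (D.loc (σ.dual.twist χ) v)) :
    cup02 (evalP k W) y b ∈ B2 (D.levv v) (D.loc (chiRep χ) v) := by
  rw [loc_chiRep]
  exact cup02_mem_B2 ((isEquivPairing_evalP σ χ).loc v) (fun g => hy _) hb

/-- `ell` kills `RL2` (for invariant `y`) -/
theorem ell_eq_zero_of_mem_RL2 (ctx : D.Ctx χ lam Φ) {W : Type} [AddCommGroup W] [Module k W]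
    {σ : Representation k D.G W} (y : W) (hy : ∀ g, σ g y = y)
    {e : ∀ v : D.ι, D.Gv v × D.Gv v → Module.Dual k W} (he : e ∈ D.RL2 (σ.dual.twist χ)) :
    D.ell lam y e = 0 := by
  obtain ⟨e₁, he₁, e₂, he₂, rfl⟩ := Submodule.mem_sup.1 he
  rw [ell_add_right]
  have h1 : D.ell lam y e₁ = 0 := by
    apply Finset.sum_eq_zero
    intro v _
    exact ctx.lamB v _ (cup02_mem_B2_loc hy v (he₁ v (Set.mem_univ v)))
  have h2 : D.ell lam y e₂ = 0 := by
    obtain ⟨a, ha, rfl⟩ := he₂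
    exact ctx.lamRes (cup02 (evalP k W) y a) (cup02_mem_Z2 (isEquivPairing_evalP σ χ) hy ha)
  rw [h1, h2, add_zero]

/-- `Φ (y ∪ (0,e)) = ell y e` -/
theorem Phi_ccup03 (ctx : D.Ctx χ lam Φ) {W : Type} [AddCommGroup W] [Module k W]
    {σ : Representation k D.G W} (y : W) (hy : ∀ g, σ g y = y)
    {e : ∀ v : D.ι, D.Gv v × D.Gv v → Module.Dual k W} (he : e ∈ D.ZL2 (σ.dual.twist χ)) :
    Φ (D.ccup03 (evalP k W) y (0, e)) = D.ell lam y e := by
  have h1 : D.ccup03 (evalP k W) y (0, e) = (0, fun v => cup02 (evalP k W) y (e v)) := by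
    refine Prod.ext ?_ rfl
    funext g
    simp [Datum.ccup03, cup03]
  rw [h1]
  exact ctx.inv.loc _ (fun v _ => cup02_mem_Z2_loc hy v (he v (Set.mem_univ v)))

section Theta

variable {H : Type} [Group H] {W : Type} [AddCommGroup W] [Module k W]
  (τ : Representation k H W) (W₀ : Subgroup H) (f₀ : Module.Dual k W)

/-- `x ↦ x̃ f₀` -/
noncomputable def thetaPsi (x : H ⧸ W₀) : Module.Dual k W := τ.dual (Quotient.out x) f₀

variable {τ W₀}

theorem thetaPsi_mk (h0 : ∀ s ∈ W₀, ∀ w, τ s w = w) (h : H) :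
    thetaPsi τ W₀ f₀ (h : H ⧸ W₀) = τ.dual h f₀ := by
  obtain ⟨s, hs⟩ := QuotientGroup.mk_out_eq_mul W₀ h
  unfold thetaPsi
  rw [hs, map_mul, Module.End.mul_apply]
  congr 1
  ext w
  rw [Representation.dual_apply, Module.Dual.transpose_apply, LinearMap.comp_apply,
    h0 _ (inv_mem s.2)]

theorem thetaPsi_smul (h0 : ∀ s ∈ W₀, ∀ w, τ s w = w) (g : H) (x : H ⧸ W₀) :
    thetaPsi τ W₀ f₀ (g • x) = τ.dual g (thetaPsi τ W₀ f₀ x) := by
  induction x using QuotientGroup.induction_on with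
  | H h =>
    have : g • (h : H ⧸ W₀) = ((g * h : H) : H ⧸ W₀) := rfl
    rw [this, thetaPsi_mk f₀ h0, thetaPsi_mk f₀ h0, map_mul, Module.End.mul_apply]

theorem thetaPsi_apply_of_invariant {y : W} (hy : ∀ g, τ g y = y) (x : H ⧸ W₀) :
    thetaPsi τ W₀ f₀ x y = f₀ y := by
  unfold thetaPsi
  rw [Representation.dual_apply, Module.Dual.transpose_apply, LinearMap.comp_apply, hy]

variable (τ W₀) in
/-- `θ F = ∑_x F(x) x̃ f₀` -/
noncomputable def theta [Fintype (H ⧸ W₀)] : (H ⧸ W₀ → k) →ₗ[k] Module.Dual k W :=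
  ∑ x, (LinearMap.proj x : (H ⧸ W₀ → k) →ₗ[k] k).smulRight (thetaPsi τ W₀ f₀ x)

theorem theta_apply [Fintype (H ⧸ W₀)] (F : H ⧸ W₀ → k) :
    theta τ W₀ f₀ F = ∑ x, F x • thetaPsi τ W₀ f₀ x := by
  simp [theta, LinearMap.sum_apply]

theorem theta_apply_apply [Fintype (H ⧸ W₀)] {y : W} (hy : ∀ g, τ g y = y) (F : H ⧸ W₀ → k) :
    theta τ W₀ f₀ F y = (∑ x, F x) * f₀ y := by
  rw [theta_apply, LinearMap.sum_apply, Finset.sum_mul]
  refine Finset.sum_congr rfl fun x _ => ?_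
  rw [LinearMap.smul_apply, thetaPsi_apply_of_invariant f₀ hy, smul_eq_mul]

theorem theta_equivariant [Fintype (H ⧸ W₀)] (h0 : ∀ s ∈ W₀, ∀ w, τ s w = w) (χ₀ : H →* kˣ)
    (μ : Representation k H k) (hμ : ∀ g c, μ g c = (χ₀ g : k) * c) (g : H) (F : H ⧸ W₀ → k) :
    theta τ W₀ f₀ (mapRep W₀ μ g F) = (τ.dual.twist χ₀) g (theta τ W₀ f₀ F) := by
  rw [theta_apply, theta_apply, Representation.twist_apply_apply, map_sum, Finset.smul_sum,
    ← Equiv.sum_comp (MulAction.toPerm g)]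
  refine Finset.sum_congr rfl fun x _ => ?_
  rw [MulAction.toPerm_apply, mapRep_apply, inv_smul_smul, hμ, thetaPsi_smul f₀ h0, map_smul,
    mul_smul]

end Theta

theorem deg0_injective (ctx : D.Ctx χ lam Φ) {W : Type} [AddCommGroup W] [Module k W]
    [FiniteDimensional k W] {σ : Representation k D.G W} (hσ : IsSmooth D.lev σ)
    (y : W) (hy : ∀ g, σ g y = y)
    (h0 : ∀ e ∈ D.ZL2 (σ.dual.twist χ), D.ell lam y e = 0) : y = 0 := by
  by_contra hy0
  obtain ⟨f₁, hf₁⟩ : ∃ f : Module.Dual k W, f y ≠ 0 := by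
    by_contra hcon
    exact hy0 ((Module.forall_dual_apply_eq_zero_iff k y).1 fun f => by
      by_contra hf
      exact hcon ⟨f, hf⟩)
  obtain ⟨v₀, hv₀⟩ := ctx.nonvan
  obtain ⟨U, hU, hUtriv⟩ := hσ.exists_trivial
  obtain ⟨W₀, hW₀, hle⟩ := D.cont v₀ U hU
  have : W₀.FiniteIndex := (D.levv v₀).finiteIndex W₀ hW₀
  have : Finite (D.Gv v₀ ⧸ W₀) := Subgroup.finite_quotient_of_finiteIndex
  let _ : Fintype (D.Gv v₀ ⧸ W₀) := Fintype.ofFinite _
  obtain ⟨c, hc, hne⟩ := hv₀ W₀ hW₀ inferInstance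
  have htriv : ∀ s ∈ W₀, ∀ w, D.loc σ v₀ s w = w := fun s hs w => hUtriv _ (hle hs) w
  have hyloc : ∀ g, D.loc σ v₀ g y = y := fun g => hy _
  set θ := theta (D.loc σ v₀) W₀ f₁ with hθ
  have hθc : θ ∘ c ∈ Z2 (D.levv v₀) (D.loc (σ.dual.twist χ) v₀) := by
    refine comp_mem_Z2 θ ?_ hc
    intro g F
    rw [hθ, theta_equivariant f₁ htriv (χ.comp (D.r v₀)) (D.loc (chiRep χ) v₀)
      (fun g c => by simp) g F]
    simp only [Representation.twist_apply_apply, Representation.dual_apply, MonoidHom.comp_apply,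
      map_inv]
  have hmem : (Pi.single v₀ (θ ∘ c) : ∀ v : D.ι, D.Gv v × D.Gv v → Module.Dual k W)
      ∈ D.ZL2 (σ.dual.twist χ) := by
    intro v _
    by_cases hv : v = v₀
    · subst hv
      rw [Pi.single_eq_same]
      exact hθc
    · rw [Pi.single_eq_of_ne hv]
      exact Submodule.zero_mem _
  have h1 := h0 _ hmem
  unfold Datum.ell at h1
  rw [Finset.sum_eq_single v₀ (fun v _ hv => by
    rw [Pi.single_eq_of_ne hv, cup02_zero_right, map_zero]) (fun h => absurd (Finset.mem_univ _) h),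
    Pi.single_eq_same] at h1
  have h2 : cup02 (evalP k W) y (θ ∘ c) = f₁ y • fun g => mapRepSum (k := k) W₀ (c g) := by
    funext g
    show θ (c g) y = f₁ y * ∑ x, c g x
    rw [hθ, theta_apply_apply f₁ hyloc, mul_comm]
  rw [h2, map_smul, smul_eq_mul] at h1
  exact (mul_ne_zero hf₁ hne) h1

/-- `Coker2` of the permutation module at a good level has dimension `≤ 1`. -/
theorem finrank_Coker2_permRep_le {U : Subgroup D.G} (hg : D.GoodLevel k U) :
    Module.Finite k (D.Coker2 (permRep k U)) ∧ finrank k (D.Coker2 (permRep k U)) ≤ 1 := by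
  obtain ⟨c₀, hc₀, h⟩ := hg.codim
  have key : ∀ w : D.Coker2 (permRep k U), ∃ t : k,
      t • (Submodule.Quotient.mk ⟨c₀, hc₀⟩ : D.Coker2 (permRep k U)) = w := by
    intro w
    obtain ⟨⟨c, hc⟩, rfl⟩ := Submodule.Quotient.mk_surjective _ w
    obtain ⟨t, ht⟩ := h c hc
    refine ⟨t, ?_⟩
    rw [← Submodule.Quotient.mk_smul, eq_comm, Submodule.Quotient.eq]
    exact ht
  refine ⟨?_, finrank_le_one _ key⟩
  refine Module.Finite.of_surjective (LinearMap.toSpanSingleton k _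
    (Submodule.Quotient.mk ⟨c₀, hc₀⟩ : D.Coker2 (permRep k U))) ?_
  intro w
  obtain ⟨t, ht⟩ := key w
  exact ⟨t, by simpa using ht⟩

theorem finrank_Coker2_le (ctx : D.Ctx χ lam Φ) {N : Type} [AddCommGroup N] [Module k N]
    [FiniteDimensional k N] {ρ : Representation k D.G N} {U : Subgroup D.G}
    (hU : D.Adapted χ ρ U) :
    Module.Finite k (D.Coker2 ((mapRep U ρ).dual.twist χ)) ∧
      finrank k (D.Coker2 ((mapRep U ρ).dual.twist χ)) ≤ finrank k N := by
  have hnorm : U.Normal := D.lev.normal U hU.mem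
  have hfi : U.FiniteIndex := D.lev.finiteIndex U hU.mem
  obtain ⟨hfin, hle⟩ := finrank_Coker2_permRep_le hU.good
  obtain ⟨e1⟩ := (isoRep_mapRep_dualTwist (χ := χ) hU.triv hU.chi).Coker2 (D := D)
  obtain ⟨e2⟩ := Coker2_piRep (D := D) (ρ := permRep k U) (finrank k N)
  have e := e1.trans e2
  refine ⟨Module.Finite.equiv e.symm, ?_⟩
  have hfree : Module.Free k (D.Coker2 (permRep k U)) := Module.Free.of_divisionRing _ _
  rw [e.finrank_eq, Module.finrank_pi_fintype]
  calc ∑ _i : Fin (finrank k N), finrank k (D.Coker2 (permRep k U))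
      ≤ ∑ _i : Fin (finrank k N), 1 := Finset.sum_le_sum fun _ _ => hle
    _ = finrank k N := by simp

theorem deg0_surjective (ctx : D.Ctx χ lam Φ) {N : Type} [AddCommGroup N] [Module k N]
    [FiniteDimensional k N] {ρ : Representation k D.G N} (hρ : IsSmooth D.lev ρ)
    {U : Subgroup D.G} (hU : D.Adapted χ ρ U)
    (u : (∀ v : D.ι, D.Gv v × D.Gv v → Module.Dual k (D.G ⧸ U → N)) →ₗ[k] k)
    (hu : ∀ e ∈ D.RL2 ((mapRep U ρ).dual.twist χ), u e = 0) :
    ∃ y : D.G ⧸ U → N, (∀ g, mapRep U ρ g y = y) ∧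
      ∀ e ∈ D.ZL2 ((mapRep U ρ).dual.twist χ), u e = D.ell lam y e := by
  have hnorm : U.Normal := D.lev.normal U hU.mem
  have hfi : U.FiniteIndex := D.lev.finiteIndex U hU.mem
  obtain ⟨hfin, hle⟩ := finrank_Coker2_le ctx hU
  let E := D.ZL2 ((mapRep U ρ).dual.twist χ)
  let R := (D.RL2 ((mapRep U ρ).dual.twist χ)).submoduleOf E
  let Λ : (mapRep U ρ).invariants →ₗ[k] Module.Dual k E :=
    (LinearMap.domRestrict' E) ∘ₗ (ellL lam (D.G ⧸ U → N)) ∘ₗ (mapRep U ρ).invariants.subtype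
  have hΛ : ∀ (y : (mapRep U ρ).invariants) (e : E), Λ y e = D.ell lam y.1 e.1 := fun _ _ => rfl
  have hinj : Function.Injective Λ := by
    rw [injective_iff_map_eq_zero]
    intro y hy
    apply Subtype.ext
    refine deg0_injective ctx (hρ.mapRep hU.mem) y.1 y.2 ?_
    intro e he
    rw [← hΛ y ⟨e, he⟩, hy]
    rfl
  have hrange : LinearMap.range Λ ≤ R.dualAnnihilator := by
    rintro _ ⟨y, rfl⟩
    rw [Submodule.mem_dualAnnihilator]
    intro w hw
    rw [hΛ]
    exact ell_eq_zero_of_mem_RL2 ctx y.1 y.2 hw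
  have eR := Submodule.dualQuotEquivDualAnnihilator (R := k) (M := E) R
  have hfd : FiniteDimensional k R.dualAnnihilator := Module.Finite.equiv eR
  have hdim : finrank k R.dualAnnihilator ≤ finrank k (LinearMap.range Λ) := by
    rw [LinearMap.finrank_range_of_inj hinj, finrank_invariants_mapRep hU.triv,
      ← eR.finrank_eq, Subspace.dual_finrank_eq]
    exact hle
  have heq := Submodule.eq_of_le_of_finrank_le hrange hdim
  have humem : u.domRestrict E ∈ R.dualAnnihilator := by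
    rw [Submodule.mem_dualAnnihilator]
    intro w hw
    exact hu _ hw
  rw [← heq] at humem
  obtain ⟨y, hy⟩ := humem
  refine ⟨y.1, y.2, ?_⟩
  intro e he
  rw [← hΛ y ⟨e, he⟩, hy]
  rfl

end Fermat.Agent.CFT
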