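import Fermat.Agent.CFT.F.Ctx
import Fermat.Agent.CFT.F.Basic

/-! # CFT / Part F, WP F4: existence of the invariant functional `Φ` (pure linear algebra).
`(0,b) ∈ BC3 μ` forces `b ∈ RL2 μ`, on which `∑ lam` vanishes; so `∑ lam` factors through
`b ↦ [(0,b)] ∈ CC3 k ⧸ BC3 μ` (`LinearMap.range_dualMap_eq_dualAnnihilator_ker`). -/

set_option autoImplicit false

namespace Fermat.Agent.CFT

variable {D : Datum} {k : Type} [Field k] {χ : D.G →* kˣ}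

theorem Datum.PTHyp.exists_ctx (h : D.PTHyp χ) :
    ∃ (lam : ∀ v : D.ι, (D.Gv v × D.Gv v → k) →ₗ[k] k) (Φ : D.CC3 k →ₗ[k] k), D.Ctx χ lam Φ := by
  obtain ⟨lam, hB, hRes, hnv⟩ := h.recip
  let L : (∀ v : D.ι, D.Gv v × D.Gv v → k) →ₗ[k] k := ∑ v, lam v ∘ₗ LinearMap.proj v
  have hL : ∀ b, L b = ∑ v, lam v (b v) := fun b => by
    simp only [L, LinearMap.sum_apply, LinearMap.comp_apply, LinearMap.proj_apply]
  let j : (∀ v : D.ι, D.Gv v × D.Gv v → k) →ₗ[k] (D.CC3 k ⧸ D.BC3 (chiRep χ)) :=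
    (D.BC3 (chiRep χ)).mkQ ∘ₗ LinearMap.inr k _ _
  have hj : ∀ b, j b = (D.BC3 (chiRep χ)).mkQ (0, b) := fun b => rfl
  have hker : ∀ b ∈ LinearMap.ker j, L b = 0 := by
    intro b hb
    rw [LinearMap.mem_ker, hj, Submodule.mkQ_apply, Submodule.Quotient.mk_eq_zero] at hb
    obtain ⟨⟨a, β⟩, ⟨ha, hβ⟩, hc⟩ := hb
    rw [Datum.dc2_apply, Prod.mk.injEq] at hc
    obtain ⟨h1, h2⟩ := hc
    have haZ : a ∈ Z2 D.lev (chiRep χ) := ⟨h1, ha⟩
    rw [hL, ← h2]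
    have h3 : ∀ v, lam v (a ∘ Prod.map (D.r v) (D.r v) - d12 (D.loc (chiRep χ) v) (β v)) =
        lam v (D.res2 (k := k) a v) := by
      intro v
      rw [map_sub, hB v _ ⟨β v, hβ v (Set.mem_univ v), rfl⟩, sub_zero]
      rfl
    simp only [h3]
    exact hRes a haZ
  have hmem : L ∈ LinearMap.range j.dualMap := by
    rw [LinearMap.range_dualMap_eq_dualAnnihilator_ker, Submodule.mem_dualAnnihilator]
    exact hker
  obtain ⟨Φ', hΦ'⟩ := hmem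
  refine ⟨lam, Φ' ∘ₗ (D.BC3 (chiRep χ)).mkQ, ⟨h.chi_smooth, h.good, hB, hRes, hnv, ⟨?_, ?_⟩⟩⟩
  · intro c hc
    rw [LinearMap.comp_apply, Submodule.mkQ_apply, (Submodule.Quotient.mk_eq_zero _).2 hc, map_zero]
  · intro b _
    rw [← hL, ← hΦ']
    rfl

end Fermat.Agent.CFT
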