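import Fermat.Agent.CFT.F.Chase2
import Fermat.Agent.CFT.F.ShaLe
import Fermat.Agent.CFT.F.Invc

/-! # CFT / Part F, WP F12: the abstract Poitou-Tate theorem.

`Sha2 ρ ↪ (ZC1 ρ' / NC1 ρ')^* ≃ (Sha1 ρ')^*` via `a ↦ Φ (a ∪ ·)` (`inj2`, `ccup21_mem_BC3_*`),
`Sha1 ρ' ↪ (ZC2 ρ'' / NC2 ρ'')^* ≃ (Sha2 ρ'')^* ≃ (Sha2 ρ)^*` via `a ↦ Φ (a ∪ ·)` (`inj1`), and
`Sha1 ρ'` is finite-dimensional (`finite_H1`). -/

set_option autoImplicit false

namespace Fermat.Agent.CFT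

open Module

variable {D : Datum} {k : Type} [Field k] {χ : D.G →* kˣ}
  {lam : ∀ v : D.ι, (D.Gv v × D.Gv v → k) →ₗ[k] k} {Φ : D.CC3 k →ₗ[k] k}

theorem finite_Sha1 (ctx : D.Ctx χ lam Φ) {N : Type} [AddCommGroup N] [Module k N]
    [FiniteDimensional k N] {ρ : Representation k D.G N} (hρ : IsSmooth D.lev ρ) :
    Module.Finite k (D.Sha1 ρ) := by
  have hfin : Module.Finite k (H1 D.lev ρ) := finite_H1 ctx hρ
  have hle : D.ShaZ1 ρ ≤ Z1 D.lev ρ := inf_le_left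
  let j : D.Sha1 ρ →ₗ[k] H1 D.lev ρ :=
    Submodule.mapQ _ _ (Submodule.inclusion hle) (by
      intro a ha
      exact ha)
  have hj : Function.Injective j := by
    rw [← LinearMap.ker_eq_bot, LinearMap.ker_eq_bot']
    intro x hx
    obtain ⟨a, rfl⟩ := Submodule.Quotient.mk_surjective _ x
    have h1 : j (Submodule.Quotient.mk a) = Submodule.Quotient.mk (Submodule.inclusion hle a) := rfl
    rw [h1, Submodule.Quotient.mk_eq_zero] at hx
    rw [Submodule.Quotient.mk_eq_zero]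
    exact hx
  exact Module.Finite.of_injective j hj

theorem sha2_le (ctx : D.Ctx χ lam Φ) {N : Type} [AddCommGroup N] [Module k N]
    [FiniteDimensional k N] {ρ : Representation k D.G N} (hρ : IsSmooth D.lev ρ) :
    Module.Finite k (D.Sha2 ρ) ∧ finrank k (D.Sha2 ρ) ≤ finrank k (D.Sha1 (ρ.dual.twist χ)) := by
  have hρ' : IsSmooth D.lev (ρ.dual.twist χ) := hρ.dualTwist ctx.chi_smooth
  have hfin : Module.Finite k (D.Sha1 (ρ.dual.twist χ)) := finite_Sha1 ctx hρ'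
  exact sha2_le_aux (isEquivPairing_evalP ρ χ) hρ' ctx.inv.bdry (fun a ha h => inj2 ctx hρ ha h)

theorem sha1_le (ctx : D.Ctx χ lam Φ) {N : Type} [AddCommGroup N] [Module k N]
    [FiniteDimensional k N] {ρ : Representation k D.G N} (hρ : IsSmooth D.lev ρ) :
    finrank k (D.Sha1 ρ) ≤ finrank k (D.Sha2 (ρ.dual.twist χ)) := by
  have hρ' : IsSmooth D.lev (ρ.dual.twist χ) := hρ.dualTwist ctx.chi_smooth
  have hfin : Module.Finite k (D.Sha2 (ρ.dual.twist χ)) := (sha2_le ctx hρ').1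
  exact sha1_le_aux (isEquivPairing_evalP ρ χ) hρ' ctx.inv.bdry (fun a ha h => inj1 ctx hρ ha h)

theorem Datum.PTHyp.abstractPT (h : D.PTHyp χ) : D.AbstractPT χ := by
  obtain ⟨lam, Φ, ctx⟩ := h.exists_ctx
  intro V _ _ _ ρ hρ
  have hρ' : IsSmooth D.lev (ρ.dual.twist χ) := hρ.dualTwist ctx.chi_smooth
  refine ⟨finite_Sha1 ctx hρ', (sha2_le ctx hρ).1, le_antisymm ?_ (sha2_le ctx hρ).2⟩
  obtain ⟨e⟩ := (isoRep_dualTwist_dualTwist ρ χ).Sha2 (D := D)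
  exact (sha1_le ctx hρ').trans_eq e.finrank_eq.symm

end Fermat.Agent.CFT
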