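import Fermat.Agent.CFT.F.Defs

/-!
# CFT / Part F : pull-back of level structures (canonical file for `Levels.comap`).
-/

set_option autoImplicit false

namespace Fermat.Agent.CFT

theorem finiteIndex_comap {G H : Type} [Group G] [Group H] (r : H →* G) (U : Subgroup G)
    [U.FiniteIndex] : (U.comap r).FiniteIndex := by
  refine ⟨?_⟩
  rw [Subgroup.index_comap]
  exact (inferInstance : (U.subgroupOf r.range).FiniteIndex).index_ne_zero

/-- pull-back of a level structure along a group homomorphism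
(for a subgroup `K ≤ G` use `r = K.subtype`) -/
def Levels.comap {G H : Type} [Group G] [Group H] (𝒰 : Levels G) (r : H →* G) : Levels H where
  carrier := {W | ∃ U ∈ 𝒰.carrier, W = U.comap r}
  normal := by
    rintro _ ⟨U, hU, rfl⟩
    have := 𝒰.normal U hU
    infer_instance
  finiteIndex := by
    rintro _ ⟨U, hU, rfl⟩
    have := 𝒰.finiteIndex U hU
    exact finiteIndex_comap r U
  nonempty := by
    obtain ⟨U, hU⟩ := 𝒰.nonempty
    exact ⟨_, U, hU, rfl⟩
  directed := by
    rintro _ ⟨U, hU, rfl⟩ _ ⟨V, hV, rfl⟩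
    obtain ⟨W, hW, h1, h2⟩ := 𝒰.directed U hU V hV
    exact ⟨_, ⟨W, hW, rfl⟩, Subgroup.comap_mono h1, Subgroup.comap_mono h2⟩

lemma Levels.mem_comap {G H : Type} [Group G] [Group H] (f : H →* G) (𝒰 : Levels G)
    {U : Subgroup G} (hU : U ∈ 𝒰.carrier) : U.comap f ∈ (𝒰.comap f).carrier := ⟨U, hU, rfl⟩

theorem Levels.comap_cont {G H : Type} [Group G] [Group H] (𝒰 : Levels G) (r : H →* G) :
    ∀ U ∈ 𝒰.carrier, ∃ W ∈ (𝒰.comap r).carrier, W ≤ U.comap r :=
  fun U hU => ⟨_, ⟨U, hU, rfl⟩, le_rfl⟩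

end Fermat.Agent.CFT
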