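import Fermat.Agent.CFT.F.Defs

/-!
# CFT / Part F : the hypotheses (arithmetic input) and the statement of the abstract theorem.
-/

set_option autoImplicit false

namespace Fermat.Agent.CFT

open Module

variable (D : Datum) {k : Type} [Field k] (χ : D.G →* kˣ)

/-- `U` is a *good level*: the three arithmetic inputs for the permutation module `k[G/U]`. -/
structure Datum.GoodLevel (k : Type) [Field k] (U : Subgroup D.G) : Prop where
  /-- (H1) the image of `H^2(G,k[G/U]) → ∏_v H^2(G_v,k[G/U])` has codimension `≤ 1` -/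
  codim : ∃ c₀ ∈ D.ZL2 (permRep k U), ∀ c ∈ D.ZL2 (permRep k U), ∃ t : k,
    c - t • c₀ ∈ D.RL2 (permRep k U)
  /-- (H3) finiteness -/
  finH1 : Module.Finite k (H1 D.lev (permRep k U))
  finLoc1 : ∀ v, Module.Finite k (H1 (D.levv v) (D.loc (permRep k U) v))
  finSha2 : Module.Finite k (D.Sha2 (permRep k U))
  /-- (H3) the numerical inequality `∑_v h^1_v + 2 sha^2 ≤ 2 h^1` -/
  ineq' : (∑ v, finrank k (H1 (D.levv v) (D.loc (permRep k U) v)))
      + 2 * finrank k (D.Sha2 (permRep k U)) ≤ 2 * finrank k (H1 D.lev (permRep k U))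

/-- The arithmetic input of the abstract Poitou-Tate theorem. -/
structure Datum.PTHyp : Prop where
  /-- `χ` is smooth -/
  chi_smooth : ∃ U ∈ D.lev.carrier, ∀ s ∈ U, χ s = 1
  /-- good levels are cofinal -/
  good : ∀ U ∈ D.lev.carrier, ∃ W ∈ D.lev.carrier, W ≤ U ∧ D.GoodLevel k W
  /-- (H2) reciprocity and non-vanishing -/
  recip : ∃ lam : ∀ v : D.ι, (D.Gv v × D.Gv v → k) →ₗ[k] k,
    (∀ v, ∀ b ∈ B2 (D.levv v) (D.loc (chiRep χ) v), lam v b = 0) ∧
    (∀ a ∈ Z2 D.lev (chiRep χ), ∑ v, lam v (D.res2 (k := k) a v) = 0) ∧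
    ∃ v₀ : D.ι, ∀ W ∈ (D.levv v₀).carrier, ∀ _ : Fintype (D.Gv v₀ ⧸ W),
      ∃ c ∈ Z2 (D.levv v₀) (mapRep W (D.loc (chiRep χ) v₀)),
        lam v₀ (fun g => mapRepSum (k := k) W (c g)) ≠ 0

/-- **Abstract Poitou-Tate** (`Sha^1(M^*(1))` and `Sha^2(M)` have the same finite dimension). -/
def Datum.AbstractPT : Prop :=
  ∀ (V : Type) [AddCommGroup V] [Module k V] [FiniteDimensional k V]
    (ρ : Representation k D.G V), IsSmooth D.lev ρ →
    Module.Finite k (D.Sha1 (ρ.dual.twist χ)) ∧ Module.Finite k (D.Sha2 ρ) ∧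
      finrank k (D.Sha1 (ρ.dual.twist χ)) = finrank k (D.Sha2 ρ)

end Fermat.Agent.CFT
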